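import Mathlib
import Fermat.Agent.SS.Top.Defs
import Fermat.Agent.SS.Top.Res
import Fermat.Agent.G.Unr.Cyc

/-!
# Program S (S34), the concrete side : THE INERTIA FIELD `E₀ ⊆ E` AND THE TWO LEVELS

`𝔸 ⊂ ℚ̄` a valuation subring over `q`, `E / ℚ` finite normal.

* `ssgfE0 𝔸 E` : the subfield of `E` fixed by the inertia group of `𝔸` (an `IntermediateField ℚ ℚ̄`);
* `ssgfIncl`, `ssgfJ` : the inclusions `E₀ → E`, `𝔸 ∩ E₀ → 𝔸 ∩ E`;
* `ssgfIota 𝔸 E N : F_{E₀}(N) →+* F_E(N)` : coefficientwise base change;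
* `ssgf_fixed` : every element of `ssInertiaE E N 𝔸` fixes the image of `ssgfIota` pointwise;
* `ssgf_hres` : `𝔸 ∩ E = (𝔸 ∩ E₀) + ϖ (𝔸 ∩ E)` (from `sstr_res`);
* `ssgf_unif` : `ϖ ∣ ϖ₀`;
* `ssgf_root_mem` : roots of unity of order prime to `q` of `E` lie in `E₀`.
-/

set_option autoImplicit false
set_option linter.unusedSectionVars false
set_option linter.unusedVariables false
set_option synthInstance.maxHeartbeats 400000

noncomputable section

namespace Fermat.Agent.SS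

open ModularCurve AlgebraicCurve IntermediateField Fermat.Agent.S18

local notation "Qb" => AlgebraicClosure ℚ

variable (A : ValuationSubring Qb) (E : IntermediateField ℚ Qb)

/-- THE INERTIA FIELD : the elements of `E` fixed by the inertia group of `𝔸`. -/
def ssgfE0 : IntermediateField ℚ Qb := E ⊓ IntermediateField.fixedField (A.inertiaSubgroupIn ℚ)

theorem mem_ssgfE0 {x : Qb} :
    x ∈ ssgfE0 A E ↔ x ∈ E ∧ ∀ σ ∈ A.inertiaSubgroupIn ℚ, σ x = x := by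
  unfold ssgfE0
  rw [IntermediateField.mem_inf, IntermediateField.mem_fixedField_iff]

theorem ssgfE0_le : ssgfE0 A E ≤ E := inf_le_left

instance ssgfE0_finiteDimensional [FiniteDimensional ℚ E] : FiniteDimensional ℚ (ssgfE0 A E) := by
  have h : ssgfE0 A E ≤ E := ssgfE0_le A E
  exact FiniteDimensional.of_injective (IntermediateField.inclusion h).toLinearMap
    (IntermediateField.inclusion h).injective

/-- the inclusion `E₀ → E` -/
def ssgfIncl : ssgfE0 A E →+* E := (IntermediateField.inclusion (ssgfE0_le A E)).toRingHom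

theorem ssgfIncl_coe (x : ssgfE0 A E) : ((ssgfIncl A E x : E) : Qb) = (x : Qb) := rfl

theorem ssgfIncl_injective : Function.Injective (ssgfIncl A E) := (ssgfIncl A E).injective

/-- the elements of `E₀` are fixed by inertia -/
theorem ssgf_restrict_incl [Normal ℚ E] {σ : Qb ≃ₐ[ℚ] Qb} (hσ : σ ∈ A.inertiaSubgroupIn ℚ)
    (x : ssgfE0 A E) : σ.restrictNormal E (ssgfIncl A E x) = ssgfIncl A E x := by
  apply Subtype.ext
  have h1 : ((σ.restrictNormal E (ssgfIncl A E x) : E) : Qb) = σ ((ssgfIncl A E x : E) : Qb) :=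
    AlgEquiv.restrictNormal_commutes σ E _
  rw [h1, ssgfIncl_coe]
  exact ((mem_ssgfE0 A E).mp x.2).2 σ hσ

/-- an element of `E` fixed by inertia comes from `E₀` -/
theorem ssgf_exists_of_fixed [Normal ℚ E] (x : E)
    (hx : ∀ σ ∈ A.inertiaSubgroupIn ℚ, σ.restrictNormal E x = x) :
    ∃ x₀ : ssgfE0 A E, ssgfIncl A E x₀ = x := by
  refine ⟨⟨(x : Qb), (mem_ssgfE0 A E).mpr ⟨x.2, fun σ hσ => ?_⟩⟩, Subtype.ext rfl⟩
  have h1 : ((σ.restrictNormal E x : E) : Qb) = σ (x : Qb) :=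
    AlgEquiv.restrictNormal_commutes σ E _
  rw [← h1, hx σ hσ]

/-- the inclusion `𝔸 ∩ E₀ → 𝔸 ∩ E` -/
def ssgfJ : ↥(s18dVal A (ssgfE0 A E)) →+* ↥(s18dVal A E) where
  toFun a := ⟨ssgfIncl A E (a : ssgfE0 A E), a.2⟩
  map_one' := Subtype.ext (map_one (ssgfIncl A E))
  map_mul' a b := Subtype.ext (map_mul (ssgfIncl A E) _ _)
  map_zero' := Subtype.ext (map_zero (ssgfIncl A E))
  map_add' a b := Subtype.ext (map_add (ssgfIncl A E) _ _)

theorem ssgfJ_coe (a : ↥(s18dVal A (ssgfE0 A E))) :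
    ((ssgfJ A E a : ↥(s18dVal A E)) : E) = ssgfIncl A E (a : ssgfE0 A E) := rfl

theorem ssgfJ_injective : Function.Injective (ssgfJ A E) := by
  intro a b h
  apply Subtype.ext
  apply ssgfIncl_injective A E
  have := congrArg (fun z : ↥(s18dVal A E) => (z : E)) h
  exact this

/-- roots of unity of order prime to `q` lie in the inertia field. -/
theorem ssgf_root_mem {q : ℕ} (hq : q.Prime) (hA : A.LiesOverPrime q) {n : ℕ} (hn : ¬ q ∣ n)
    (ζ : E) (hζ : ζ ^ n = 1) : ∃ ζ₀ : ssgfE0 A E, ssgfIncl A E ζ₀ = ζ := by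
  refine ⟨⟨(ζ : Qb), (mem_ssgfE0 A E).mpr ⟨ζ.2, fun σ hσ => ?_⟩⟩, Subtype.ext rfl⟩
  refine Fermat.Agent.G.gun_cyc_inertia hq hn A hA σ hσ (ζ : Qb) ?_
  have := congrArg (fun z : E => (z : Qb)) hζ
  simpa using this

/-- a primitive root of unity of order prime to `q` of `E` comes from a primitive root of `E₀`. -/
theorem ssgf_primitiveRoot {q : ℕ} (hq : q.Prime) (hA : A.LiesOverPrime q) {n : ℕ} (hn : ¬ q ∣ n)
    (ζ : E) (hζ : IsPrimitiveRoot ζ n) :
    ∃ ζ₀ : ssgfE0 A E, IsPrimitiveRoot ζ₀ n ∧ ssgfIncl A E ζ₀ = ζ := by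
  obtain ⟨ζ₀, h⟩ := ssgf_root_mem A E hq hA hn ζ hζ.pow_eq_one
  refine ⟨ζ₀, ?_, h⟩
  have : IsPrimitiveRoot (ssgfIncl A E ζ₀) n := by rw [h]; exact hζ
  exact IsPrimitiveRoot.of_map_of_injective (f := ssgfIncl A E) this (ssgfIncl_injective A E)

/-! ### the residue field and the uniformisers -/

/-- `𝔸 ∩ E = (𝔸 ∩ E₀) + ϖ (𝔸 ∩ E)`. -/
theorem ssgf_hres {q : ℕ} (hq : q.Prime) (hA : A.LiesOverPrime q) [FiniteDimensional ℚ E]
    [Normal ℚ E] [IsDiscreteValuationRing ↥(s18dVal A E)] {ϖ : ↥(s18dVal A E)}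
    (hϖ : Irreducible ϖ) (a : ↥(s18dVal A E)) :
    ∃ a₀ : ↥(s18dVal A (ssgfE0 A E)), ∃ b : ↥(s18dVal A E), a = ssgfJ A E a₀ + ϖ * b := by
  obtain ⟨x₀, hx₀, hfix, hsub⟩ := sstr_res A q hq hA E (a : E) a.2
  obtain ⟨y₀, hy₀⟩ := ssgf_exists_of_fixed A E x₀ hfix
  have hy₀mem : y₀ ∈ s18dVal A (ssgfE0 A E) := by
    show ((y₀ : ssgfE0 A E) : Qb) ∈ A
    have : ((ssgfIncl A E y₀ : E) : Qb) ∈ A := by rw [hy₀]; exact hx₀
    exact this
  refine ⟨⟨y₀, hy₀mem⟩, ?_⟩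
  have hmem : a - ssgfJ A E ⟨y₀, hy₀mem⟩ ∈ IsLocalRing.maximalIdeal ↥(s18dVal A E) := by
    rw [IsLocalRing.mem_maximalIdeal, mem_nonunits_iff]
    intro hu
    have h1 : ((a - ssgfJ A E ⟨y₀, hy₀mem⟩ : ↥(s18dVal A E)) : E) ∈ (s18dVal A E).nonunits := by
      have : ((a - ssgfJ A E ⟨y₀, hy₀mem⟩ : ↥(s18dVal A E)) : E) = (a : E) - x₀ := by
        rw [← hy₀]; rfl
      rw [this]; exact hsub
    rw [ValuationSubring.coe_mem_nonunits_iff] at h1
    exact (IsLocalRing.mem_maximalIdeal _).mp h1 hu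
  rw [hϖ.maximalIdeal_eq, Ideal.mem_span_singleton] at hmem
  obtain ⟨b, hb⟩ := hmem
  exact ⟨b, by rw [← hb]; ring⟩

/-- a non-unit of `𝔸 ∩ E₀` is a non-unit of `𝔸 ∩ E` : `ϖ ∣ ϖ₀`. -/
theorem ssgf_unif [IsDiscreteValuationRing ↥(s18dVal A E)] {ϖ : ↥(s18dVal A E)}
    (hϖ : Irreducible ϖ) {ϖ₀ : ↥(s18dVal A (ssgfE0 A E))} (hϖ₀ : ¬ IsUnit ϖ₀) :
    ∃ c : ↥(s18dVal A E), ssgfJ A E ϖ₀ = ϖ * c := by
  have hmem : ssgfJ A E ϖ₀ ∈ IsLocalRing.maximalIdeal ↥(s18dVal A E) := by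
    rw [IsLocalRing.mem_maximalIdeal, mem_nonunits_iff]
    intro hu
    apply hϖ₀
    -- the inverse lies in `E₀`
    obtain ⟨v, hv⟩ := hu.exists_right_inv
    have hne : ϖ₀ ≠ 0 := by
      rintro rfl
      rw [map_zero, zero_mul] at hv
      exact zero_ne_one hv
    have hne' : ((ϖ₀ : ssgfE0 A E)) ≠ 0 := fun h => hne (Subtype.ext h)
    have hinv : ((ϖ₀ : ssgfE0 A E))⁻¹ ∈ s18dVal A (ssgfE0 A E) := by
      show ((((ϖ₀ : ssgfE0 A E))⁻¹ : ssgfE0 A E) : Qb) ∈ A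
      have h1 : ((ϖ₀ : ssgfE0 A E) : Qb) * ((v : E) : Qb) = 1 := by
        have := congrArg (fun z : ↥(s18dVal A E) => ((z : E) : Qb)) hv
        exact this
      have h2 : ((((ϖ₀ : ssgfE0 A E))⁻¹ : ssgfE0 A E) : Qb) = ((v : E) : Qb) := by
        rw [IntermediateField.coe_inv]
        exact inv_eq_of_mul_eq_one_right h1
      rw [h2]
      exact v.2
    exact IsUnit.of_mul_eq_one ⟨_, hinv⟩ (Subtype.ext (mul_inv_cancel₀ hne'))
  rw [hϖ.maximalIdeal_eq, Ideal.mem_span_singleton] at hmem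
  obtain ⟨c, hc⟩ := hmem
  exact ⟨c, hc⟩

/-! ### the coefficientwise base change `F_{E₀}(N) → F_E(N)` -/

variable (N : ℕ)

/-- coefficientwise base change `F_{E₀}(N) → F_E(N)` -/
def ssgfIota : modularFunctionFieldFullC (ssgfE0 A E) N →+* modularFunctionFieldFullC E N where
  toFun x := ⟨coeffMap (ssgfIncl A E) (x : LaurentSeries (ssgfE0 A E)),
    s18dd_coeffMap_mem_full _ N x.2⟩
  map_one' := Subtype.ext (map_one (coeffMap (ssgfIncl A E)))
  map_mul' x y := Subtype.ext (map_mul (coeffMap (ssgfIncl A E)) _ _)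
  map_zero' := Subtype.ext (map_zero (coeffMap (ssgfIncl A E)))
  map_add' x y := Subtype.ext (map_add (coeffMap (ssgfIncl A E)) _ _)

@[simp]
theorem ssgfIota_coe (x : modularFunctionFieldFullC (ssgfE0 A E) N) :
    ((ssgfIota A E N x : modularFunctionFieldFullC E N) : LaurentSeries E) =
      coeffMap (ssgfIncl A E) (x : LaurentSeries (ssgfE0 A E)) := rfl

theorem ssgfIota_injective : Function.Injective (ssgfIota A E N) := (ssgfIota A E N).injective

theorem ssgfIota_algebraMap (c : ssgfE0 A E) :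
    ssgfIota A E N (algebraMap (ssgfE0 A E) (modularFunctionFieldFullC (ssgfE0 A E) N) c) =
      algebraMap E (modularFunctionFieldFullC E N) (ssgfIncl A E c) := by
  apply Subtype.ext
  show coeffMap (ssgfIncl A E) (algebraMap (ssgfE0 A E) (LaurentSeries (ssgfE0 A E)) c) =
    algebraMap E (LaurentSeries E) (ssgfIncl A E c)
  rw [s18dd_coeffMap_algebraMap]

/-- `ι` is compatible with the structure maps of `𝔸 ∩ E₀`, `𝔸 ∩ E`. -/
theorem ssgfIota_compat (a : ↥(s18dVal A (ssgfE0 A E))) :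
    ssgfIota A E N (algebraMap ↥(s18dVal A (ssgfE0 A E))
        (modularFunctionFieldFullC (ssgfE0 A E) N) a) =
      algebraMap ↥(s18dVal A E) (modularFunctionFieldFullC E N) (ssgfJ A E a) := by
  rw [IsScalarTower.algebraMap_apply ↥(s18dVal A (ssgfE0 A E)) (ssgfE0 A E)
      (modularFunctionFieldFullC (ssgfE0 A E) N),
    IsScalarTower.algebraMap_apply ↥(s18dVal A E) E (modularFunctionFieldFullC E N),
    ssgfIota_algebraMap]
  rfl

/-- THE IMAGE OF `F_{E₀}(N)` IS FIXED POINTWISE BY THE INERTIA GROUP. -/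
theorem ssgf_fixed [NeZero N] [Normal ℚ E]
    (γ : SemilinearAut E (modularFunctionFieldFullC E N)) (hγ : γ ∈ ssInertiaE E N A)
    (x : modularFunctionFieldFullC (ssgfE0 A E) N) :
    γ • ssgfIota A E N x = ssgfIota A E N x := by
  obtain ⟨σ, hσ, rfl⟩ := hγ
  apply Subtype.ext
  show coeffMap ((σ.restrictNormal E : E ≃ₐ[ℚ] E) : E →+* E)
      (coeffMap (ssgfIncl A E) (x : LaurentSeries (ssgfE0 A E))) =
    coeffMap (ssgfIncl A E) (x : LaurentSeries (ssgfE0 A E))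
  rw [coeffMap_coeffMap]
  exact coeffMap_congr (RingHom.ext fun c => ssgf_restrict_incl A E hσ c) _

end Fermat.Agent.SS
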