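import Mathlib
import Fermat.Agent.S18.RH.Small
import Fermat.Agent.G.Red.InstSmall

/-!
# Program S (S34), the concrete side : the small charts `h_a`, `h_a⁻¹` over number fields that
# contain only a primitive `M`-th root of unity

`G/Red/InstSmall.lean` (`grdis_level`) proves the number-field level chart data for the Hauptmodul
`h_a` (`a = 5 - ℓ`, `ℓ ∈ {2, 3}`, `a ∣ M`, `ℓ ∤ M`) over every number field `E` containing a
primitive `6 M`-th root of unity.  For `ℓ = 3` such a field is ramified at `ℓ`, so it is never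
contained in the fixed field of an inertia group at `ℓ`.  The factor `6` is not needed : the
generic chart theorem `s18r_chart` only needs a primitive `a N`-th root (cusps) and a primitive
`w₀`-th root (`w₀ = a`, the elliptic point), i.e. a primitive `M`-th root, `M = a N`.

* `ssgs_chart_pair` : `s18rs_chart_pair` with the two roots of unity as separate hypotheses;
* `ssgs_RH_two`, `ssgs_RH_three`, `ssgs_RH_small` : the ramification hypotheses;
* `ssgs_chart_pair_h`, `ssgs_level` : `grdis_chart_pair`, `grdis_level` with `IsPrimitiveRoot ζ M`.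
-/

set_option autoImplicit false
set_option linter.unusedSectionVars false
set_option linter.unusedVariables false
set_option linter.style.haveILetI false
set_option synthInstance.maxHeartbeats 400000

noncomputable section

namespace Fermat.Agent.SS

open ModularCurve AlgebraicCurve IsLocalRing Polynomial IntermediateField Fermat.Agent.S24
open Fermat.Agent.S18 Fermat.Agent.G

local notation "Qb" => AlgebraicClosure ℚ

section Main

variable (A : ValuationSubring Qb) (E : IntermediateField ℚ Qb)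

/-- THE TWO CHARTS for a coordinate `t` of `F_E(aN)` whose ramification over `ℚ̄` is concentrated
in `0, ∞, -n₀` with indices dividing `aN, aN, w₀`. -/
theorem ssgs_chart_pair (N : ℕ) [NeZero N] {ℓ : ℕ} [Fact ℓ.Prime] (hℓN : ¬ ℓ ∣ N)
    (hA : A.LiesOverPrime ℓ) (a : ℕ) [NeZero a] (hℓa : ¬ ℓ ∣ a)
    [FiniteDimensional ℚ E]
    [IsDiscreteValuationRing (s18dVal A E)] (ϖ : s18dVal A E) (hϖ : Irreducible ϖ)
    (ζ₁ ζ₂ : E)
    (p : ℕ) (hp : p.Prime)
    (v₁ v₂ : LaurentSeries (s18dVal A E))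
    (hv₁ : s18vIncl (s18dVal A E) E v₁ ∈ modularFunctionFieldFullC E N)
    (hv₂ : s18vIncl (s18dVal A E) E v₂ ∈ modularFunctionFieldFullC E N) (hv₂0 : v₂ ≠ 0)
    (y : LaurentSeries E)
    (hy : y ^ p * s18vIncl (s18dVal A E) E v₂ = s18vIncl (s18dVal A E) E v₁)
    (hdiv : ∀ (h₁ : s18dUp E (s18vIncl (s18dVal A E) E v₁) ∈ modularFunctionFieldBar N)
      (h₂ : s18dUp E (s18vIncl (s18dVal A E) E v₂) ∈ modularFunctionFieldBar N)
      (P : Place (AlgebraicClosure ℚ) (modularFunctionFieldBar N)),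
      (p : ℤ) ∣ P.ord ⟨_, h₁⟩ - P.ord ⟨_, h₂⟩)
    (t : modularFunctionFieldFullC E (a * N))
    (n₀ w₀ : ℕ) (hn₀ : ¬ ℓ ∣ n₀) (hw₀ : ¬ ℓ ∣ w₀)
    (hζM : IsPrimitiveRoot ζ₁ (a * N)) (hζw : IsPrimitiveRoot ζ₂ w₀)
    (hne : ∀ c : Qb, (⟨s18dUp E t, s18r_up_mem E (a * N) _ t.2⟩ : modularFunctionFieldBar (a * N)) -
      algebraMap Qb (modularFunctionFieldBar (a * N)) c ≠ 0)
    (hpack : ∀ P : Place Qb (modularFunctionFieldBar (a * N)),
      (∀ b : Qb, b ≠ 0 → b ≠ -(n₀ : Qb) →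
        0 < P.ord ((⟨s18dUp E t, s18r_up_mem E (a * N) _ t.2⟩ : modularFunctionFieldBar (a * N)) -
          algebraMap Qb (modularFunctionFieldBar (a * N)) b) →
        P.ord ((⟨s18dUp E t, s18r_up_mem E (a * N) _ t.2⟩ : modularFunctionFieldBar (a * N)) -
          algebraMap Qb (modularFunctionFieldBar (a * N)) b) = 1) ∧
      (0 < P.ord ((⟨s18dUp E t, s18r_up_mem E (a * N) _ t.2⟩ : modularFunctionFieldBar (a * N)) -
          algebraMap Qb (modularFunctionFieldBar (a * N)) (-(n₀ : Qb))) →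
        P.ord ((⟨s18dUp E t, s18r_up_mem E (a * N) _ t.2⟩ : modularFunctionFieldBar (a * N)) -
          algebraMap Qb (modularFunctionFieldBar (a * N)) (-(n₀ : Qb))) ∣ ((w₀ : ℕ) : ℤ)) ∧
      (0 < P.ord (⟨s18dUp E t, s18r_up_mem E (a * N) _ t.2⟩ : modularFunctionFieldBar (a * N)) →
        P.ord (⟨s18dUp E t, s18r_up_mem E (a * N) _ t.2⟩ : modularFunctionFieldBar (a * N)) ∣
          ((a * N : ℕ) : ℤ)) ∧
      (P.ord (⟨s18dUp E t, s18r_up_mem E (a * N) _ t.2⟩ : modularFunctionFieldBar (a * N)) < 0 →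
        P.ord (⟨s18dUp E t, s18r_up_mem E (a * N) _ t.2⟩ : modularFunctionFieldBar (a * N)) ∣
          ((a * N : ℕ) : ℤ))) :
    ∃ S S' : Finset (s18dVal A E),
      S18Chart (s18dVal A E) E ϖ (s18cLift (modularFunctionFieldFullC E (a * N)) y t) S ∧
      S18Chart (s18dVal A E) E ϖ (s18cLift (modularFunctionFieldFullC E (a * N)) y t)⁻¹ S' := by
  classical
  have hℓp : ℓ.Prime := Fact.out
  have hℓM : ¬ ℓ ∣ a * N := fun h => ((Nat.Prime.dvd_mul hℓp).mp h).elim hℓa hℓN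
  have hNM : N ∣ a * N := dvd_mul_left N a
  have hleE : modularFunctionFieldFullC E N ≤ modularFunctionFieldFullC E (a * N) :=
    full_degeneracyC_le E hNM
  have hleB : modularFunctionFieldBar N ≤ modularFunctionFieldBar (a * N) := s18rs_bar_le hNM
  have hn₀0 : n₀ ≠ 0 := fun h => hn₀ (h ▸ dvd_zero ℓ)
  have hn₀Q : (n₀ : Qb) ≠ 0 := Nat.cast_ne_zero.mpr hn₀0
  have hun₀ : IsUnit ((n₀ : ℕ) : s18dVal A E) := s18r_isUnit_natCast A E hA n₀ hn₀
  have huM : IsUnit (((a * N : ℕ) : ℕ) : s18dVal A E) := s18r_isUnit_natCast A E hA (a * N) hℓM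
  have huw : IsUnit ((w₀ : ℕ) : s18dVal A E) := s18r_isUnit_natCast A E hA w₀ hw₀
  have hx₂ : s18vIncl (s18dVal A E) E v₂ ≠ 0 := by
    intro h
    apply hv₂0
    ext k
    have := congrArg (fun s => HahnSeries.coeff s k) h
    simpa using this
  have hWN : ∀ W₁ : ValuationSubring (modularFunctionFieldBar N), S18IsPlace Qb W₁ →
      ∃ P : Place Qb (modularFunctionFieldBar N), P.toValuationSubring = W₁ := by
    intro W₁ hW₁
    haveI := finiteDimensional_jBar N
    exact s18r_exists_place (jBar N) (transcendental_jBar N) W₁ hW₁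
  have hW : ∀ W₁ : ValuationSubring (modularFunctionFieldBar (a * N)), S18IsPlace Qb W₁ →
      ∃ P : Place Qb (modularFunctionFieldBar (a * N)), P.toValuationSubring = W₁ := by
    intro W₁ hW₁
    haveI := finiteDimensional_jBar (a * N)
    exact s18r_exists_place (jBar (a * N)) (transcendental_jBar (a * N)) W₁ hW₁
  -- `hdiv` at level `a N`
  have hdivM : ∀ P' : Place Qb (modularFunctionFieldBar (a * N)),
      (p : ℤ) ∣ P'.ord (⟨s18dUp E (s18vIncl (s18dVal A E) E v₁),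
          s18r_up_mem E (a * N) _ (hleE hv₁)⟩ : modularFunctionFieldBar (a * N)) -
        P'.ord (⟨s18dUp E (s18vIncl (s18dVal A E) E v₂),
          s18r_up_mem E (a * N) _ (hleE hv₂)⟩ : modularFunctionFieldBar (a * N)) := by
    intro P'
    letI : Algebra (modularFunctionFieldBar N) (modularFunctionFieldBar (a * N)) :=
      (IntermediateField.inclusion hleB).toRingHom.toAlgebra
    haveI : IsScalarTower Qb (modularFunctionFieldBar N) (modularFunctionFieldBar (a * N)) :=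
      IsScalarTower.of_algebraMap_eq (fun _ => rfl)
    haveI := finiteDimensional_jBar (a * N)
    haveI : Algebra.IsAlgebraic (modularFunctionFieldBar N) (modularFunctionFieldBar (a * N)) :=
      s18rs_isAlgebraic_of_le _ _ hleB (jBar (a * N)) (by rw [coe_jBar]; exact (jBar N).2)
    obtain ⟨P, r, hr, -, hord⟩ := s18r_place_restrict hWN P'
    have e1 : (⟨s18dUp E (s18vIncl (s18dVal A E) E v₁),
          s18r_up_mem E (a * N) _ (hleE hv₁)⟩ : modularFunctionFieldBar (a * N)) =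
        algebraMap (modularFunctionFieldBar N) (modularFunctionFieldBar (a * N))
          ⟨s18dUp E (s18vIncl (s18dVal A E) E v₁), s18r_up_mem E N _ hv₁⟩ := rfl
    have e2 : (⟨s18dUp E (s18vIncl (s18dVal A E) E v₂),
          s18r_up_mem E (a * N) _ (hleE hv₂)⟩ : modularFunctionFieldBar (a * N)) =
        algebraMap (modularFunctionFieldBar N) (modularFunctionFieldBar (a * N))
          ⟨s18dUp E (s18vIncl (s18dVal A E) E v₂), s18r_up_mem E N _ hv₂⟩ := rfl
    rw [e1, e2, hord, hord, ← mul_sub]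
    exact Dvd.dvd.mul_left (hdiv _ _ P) _
  -- the points
  have hs₀E : algebraMap E Qb ((-(n₀ : s18dVal A E) : s18dVal A E) : E) = -(n₀ : Qb) := by
    have : ((-(n₀ : s18dVal A E) : s18dVal A E) : E) = -(n₀ : E) := rfl
    rw [this, map_neg, map_natCast]
  have hs₀0 : (-(n₀ : s18dVal A E) : s18dVal A E) ≠ 0 := neg_ne_zero.mpr hun₀.ne_zero
  set u : s18dVal A E := ((hun₀.unit⁻¹ : (s18dVal A E)ˣ) : s18dVal A E) with hu
  have huu : IsUnit u := Units.isUnit _
  have hu0 : -u ≠ 0 := neg_ne_zero.mpr huu.ne_zero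
  have huE : algebraMap E Qb ((-u : s18dVal A E) : E) = -(n₀ : Qb)⁻¹ := by
    have h1 : u * ((n₀ : ℕ) : s18dVal A E) = 1 := by
      rw [hu]
      have := hun₀.unit.inv_mul
      rwa [IsUnit.unit_spec] at this
    have h2 : (u : E) * (n₀ : E) = 1 := congrArg Subtype.val h1
    have h3 : algebraMap E Qb (u : E) * (n₀ : Qb) = 1 := by
      have := congrArg (algebraMap E Qb) h2
      rwa [map_mul, map_natCast, map_one] at this
    have h4 : ((-u : s18dVal A E) : E) = -(u : E) := rfl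
    rw [h4, map_neg, eq_inv_of_mul_eq_one_left h3]
  refine ⟨{0, -(n₀ : s18dVal A E)}, {0, -u}, ?_, ?_⟩
  · -- the chart at `0`
    refine s18r_chart A E ϖ hϖ (modularFunctionFieldFullC E (a * N))
      (modularFunctionFieldBar (a * N)) (s18r_up_mem E (a * N)) hW p hp.ne_zero _ _ (hleE hv₁)
      (hleE hv₂) hx₂ y hy hdivM t hne {0, -(n₀ : s18dVal A E)}
      (fun s => if s = 0 then a * N else w₀) ?_ ?_ ?_ ?_
    · -- separation
      intro s hs s' hs' hss'
      simp only [Finset.mem_insert, Finset.mem_singleton] at hs hs'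
      rcases hs with rfl | rfl <;> rcases hs' with rfl | rfl
      · exact absurd rfl hss'
      · rw [zero_sub, neg_neg]; exact hun₀
      · rw [sub_zero]; exact hun₀.neg
      · exact absurd rfl hss'
    · -- weights
      intro s hs
      simp only [Finset.mem_insert, Finset.mem_singleton] at hs
      rcases hs with rfl | rfl
      · rw [if_pos rfl]; exact ⟨huM, ζ₁, hζM⟩
      · rw [if_neg hs₀0]; exact ⟨huw, ζ₂, hζw⟩
    · -- generic points
      intro P b hb hpos
      have hb0 : b ≠ 0 := by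
        have := hb 0 (by simp)
        simpa using this
      have hbs : b ≠ -(n₀ : Qb) := by
        have := hb (-(n₀ : s18dVal A E)) (by simp)
        rwa [hs₀E] at this
      exact (hpack P).1 b hb0 hbs hpos
    · -- special points
      intro s hs P hpos
      simp only [Finset.mem_insert, Finset.mem_singleton] at hs
      rcases hs with rfl | rfl
      · rw [if_pos rfl]
        have e : algebraMap Qb (modularFunctionFieldBar (a * N))
            (algebraMap E Qb ((0 : s18dVal A E) : E)) = 0 := by simp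
        rw [e, sub_zero] at hpos ⊢
        exact (hpack P).2.2.1 hpos
      · rw [if_neg hs₀0]
        rw [hs₀E] at hpos ⊢
        exact (hpack P).2.1 hpos
  · -- the chart at `∞`
    have hlift : s18cLift (modularFunctionFieldFullC E (a * N)) y t⁻¹ =
        (s18cLift (modularFunctionFieldFullC E (a * N)) y t)⁻¹ := Subtype.ext rfl
    have htb : (⟨s18dUp E ((t⁻¹ : modularFunctionFieldFullC E (a * N)) : LaurentSeries E),
        s18r_up_mem E (a * N) _ (t⁻¹ : modularFunctionFieldFullC E (a * N)).2⟩ :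
          modularFunctionFieldBar (a * N)) =
        (⟨s18dUp E t, s18r_up_mem E (a * N) _ t.2⟩ : modularFunctionFieldBar (a * N))⁻¹ := by
      apply Subtype.ext
      show s18dUp E ((t : LaurentSeries E)⁻¹) = (s18dUp E (t : LaurentSeries E))⁻¹
      rw [map_inv₀]
    rw [← hlift]
    refine s18r_chart A E ϖ hϖ (modularFunctionFieldFullC E (a * N))
      (modularFunctionFieldBar (a * N)) (s18r_up_mem E (a * N)) hW p hp.ne_zero _ _ (hleE hv₁)
      (hleE hv₂) hx₂ y hy hdivM t⁻¹ ?_ {0, -u}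
      (fun s => if s = 0 then a * N else w₀) ?_ ?_ ?_ ?_
    · -- `t̄⁻¹ - c ≠ 0`
      intro c h
      rw [htb] at h
      have htb0 : (⟨s18dUp E t, s18r_up_mem E (a * N) _ t.2⟩ :
          modularFunctionFieldBar (a * N)) ≠ 0 := by
        have := hne 0
        rwa [map_zero, sub_zero] at this
      have hc0 : c ≠ 0 := by
        rintro rfl
        rw [map_zero, sub_zero] at h
        exact inv_ne_zero htb0 h
      apply hne c⁻¹
      rw [sub_eq_zero] at h ⊢
      rw [map_inv₀, ← h, inv_inv]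
    · -- separation
      intro s hs s' hs' hss'
      simp only [Finset.mem_insert, Finset.mem_singleton] at hs hs'
      rcases hs with rfl | rfl <;> rcases hs' with rfl | rfl
      · exact absurd rfl hss'
      · rw [zero_sub, neg_neg]; exact huu
      · rw [sub_zero]; exact huu.neg
      · exact absurd rfl hss'
    · -- weights
      intro s hs
      simp only [Finset.mem_insert, Finset.mem_singleton] at hs
      rcases hs with rfl | rfl
      · rw [if_pos rfl]; exact ⟨huM, ζ₁, hζM⟩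
      · rw [if_neg hu0]; exact ⟨huw, ζ₂, hζw⟩
    · -- generic points
      intro P b hb hpos
      rw [htb] at hpos ⊢
      have hb0 : b ≠ 0 := by
        have := hb 0 (by simp)
        simpa using this
      have hbu : b ≠ -(n₀ : Qb)⁻¹ := by
        have := hb (-u) (by simp)
        rwa [huE] at this
      have heq := s18r_ord_inv_sub P _ b hb0 hpos
      rw [heq] at hpos ⊢
      refine (hpack P).1 b⁻¹ (inv_ne_zero hb0) (fun h => hbu ?_) hpos
      rw [← inv_inv b, h, inv_neg]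
    · -- special points
      intro s hs P hpos
      simp only [Finset.mem_insert, Finset.mem_singleton] at hs
      rw [htb] at hpos ⊢
      rcases hs with rfl | rfl
      · rw [if_pos rfl]
        have e : algebraMap Qb (modularFunctionFieldBar (a * N))
            (algebraMap E Qb ((0 : s18dVal A E) : E)) = 0 := by simp
        rw [e, sub_zero, Place.ord_inv] at hpos ⊢
        have hneg : P.ord (⟨s18dUp E t, s18r_up_mem E (a * N) _ t.2⟩ :
            modularFunctionFieldBar (a * N)) < 0 := by omega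
        exact (neg_dvd).mpr ((hpack P).2.2.2 hneg)
      · rw [if_neg hu0]
        rw [huE] at hpos ⊢
        have hne' : (-(n₀ : Qb)⁻¹) ≠ 0 := neg_ne_zero.mpr (inv_ne_zero hn₀Q)
        have heq := s18r_ord_inv_sub P _ _ hne' hpos
        rw [heq, inv_neg, inv_inv] at hpos ⊢
        exact (hpack P).2.1 hpos


end Main

section Inst

variable (A : ValuationSubring Qb) (E : IntermediateField ℚ Qb)

/-- `ℓ = 3`, `a = 2` : a primitive `2 N`-th root of unity suffices. -/
theorem ssgs_RH_two [NeZero 2]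
    (hid2 : jqModC ℤ * s18hq 2 24 ℤ ^ 2 = (s18hq 2 24 ℤ + 256) ^ 3)
    (N : ℕ) [NeZero N] {ℓ : ℕ} [Fact ℓ.Prime] (hℓ3 : ℓ = 3) (hℓN : ¬ ℓ ∣ N)
    (hA : A.LiesOverPrime ℓ) [FiniteDimensional ℚ E]
    [IsDiscreteValuationRing (s18dVal A E)] (ϖ : s18dVal A E) (hϖ : Irreducible ϖ)
    (ζ : E) (hζ : IsPrimitiveRoot ζ (2 * N))
    (p : ℕ) (hp : p.Prime)
    (v₁ v₂ : LaurentSeries (s18dVal A E))
    (hv₁ : s18vIncl (s18dVal A E) E v₁ ∈ modularFunctionFieldFullC E N)
    (hv₂ : s18vIncl (s18dVal A E) E v₂ ∈ modularFunctionFieldFullC E N) (hv₂0 : v₂ ≠ 0)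
    (y : LaurentSeries E)
    (hy : y ^ p * s18vIncl (s18dVal A E) E v₂ = s18vIncl (s18dVal A E) E v₁)
    (hdiv : ∀ (h₁ : s18dUp E (s18vIncl (s18dVal A E) E v₁) ∈ modularFunctionFieldBar N)
      (h₂ : s18dUp E (s18vIncl (s18dVal A E) E v₂) ∈ modularFunctionFieldBar N)
      (P : Place (AlgebraicClosure ℚ) (modularFunctionFieldBar N)),
      (p : ℤ) ∣ P.ord ⟨_, h₁⟩ - P.ord ⟨_, h₂⟩)
    (hmem : s18hq 2 24 E ∈ modularFunctionFieldFullC E (2 * N)) :
    ∃ S S' : Finset (s18dVal A E),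
      S18Chart (s18dVal A E) E ϖ
        (s18cLift (modularFunctionFieldFullC E (2 * N)) y ⟨s18hq 2 24 E, hmem⟩) S ∧
      S18Chart (s18dVal A E) E ϖ
        (s18cLift (modularFunctionFieldFullC E (2 * N)) y ⟨s18hq 2 24 E, hmem⟩)⁻¹ S' := by
  subst hℓ3
  have hid := s18rs_bar_two E hid2 (2 * N) hmem
  have hpos : 0 < 2 * N := NeZero.pos (2 * N)
  refine ssgs_chart_pair A E N hℓN hA 2 (by decide) ϖ hϖ ζ (ζ ^ N) p hp v₁ v₂ hv₁ hv₂ hv₂0 y hy
    hdiv ⟨s18hq 2 24 E, hmem⟩ 64 2 (by decide) (by decide) hζ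
    (hζ.pow hpos (by ring)) ?_ ?_
  · exact s18rs_ne_two _ _ hid (s18rs_htr _)
  · intro P
    have key := s18rs_pack_two P _ _ hid (s18rs_htr (2 * N)) (2 * N) (s18r_ord_dvd_zero (2 * N) P)
      (s18r_ord_dvd_1728 (2 * N) P) (fun c hc0 hc1 => s18r_ord_eq_one (2 * N) c hc0 hc1 P)
      (s18r_ord_dvd_cusp (2 * N) P)
    have e64 : -((64 : ℕ) : Qb) = -64 := by norm_num
    rw [e64]
    exact_mod_cast key

/-- `ℓ = 2`, `a = 3` : a primitive `3 N`-th root of unity suffices. -/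
theorem ssgs_RH_three [NeZero 3]
    (hid3 : jqModC ℤ * s18hq 3 12 ℤ ^ 3 = (s18hq 3 12 ℤ + 27) * (s18hq 3 12 ℤ + 243) ^ 3)
    (N : ℕ) [NeZero N] {ℓ : ℕ} [Fact ℓ.Prime] (hℓ2 : ℓ = 2) (hℓN : ¬ ℓ ∣ N)
    (hA : A.LiesOverPrime ℓ) [FiniteDimensional ℚ E]
    [IsDiscreteValuationRing (s18dVal A E)] (ϖ : s18dVal A E) (hϖ : Irreducible ϖ)
    (ζ : E) (hζ : IsPrimitiveRoot ζ (3 * N))
    (p : ℕ) (hp : p.Prime)
    (v₁ v₂ : LaurentSeries (s18dVal A E))
    (hv₁ : s18vIncl (s18dVal A E) E v₁ ∈ modularFunctionFieldFullC E N)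
    (hv₂ : s18vIncl (s18dVal A E) E v₂ ∈ modularFunctionFieldFullC E N) (hv₂0 : v₂ ≠ 0)
    (y : LaurentSeries E)
    (hy : y ^ p * s18vIncl (s18dVal A E) E v₂ = s18vIncl (s18dVal A E) E v₁)
    (hdiv : ∀ (h₁ : s18dUp E (s18vIncl (s18dVal A E) E v₁) ∈ modularFunctionFieldBar N)
      (h₂ : s18dUp E (s18vIncl (s18dVal A E) E v₂) ∈ modularFunctionFieldBar N)
      (P : Place (AlgebraicClosure ℚ) (modularFunctionFieldBar N)),
      (p : ℤ) ∣ P.ord ⟨_, h₁⟩ - P.ord ⟨_, h₂⟩)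
    (hmem : s18hq 3 12 E ∈ modularFunctionFieldFullC E (3 * N)) :
    ∃ S S' : Finset (s18dVal A E),
      S18Chart (s18dVal A E) E ϖ
        (s18cLift (modularFunctionFieldFullC E (3 * N)) y ⟨s18hq 3 12 E, hmem⟩) S ∧
      S18Chart (s18dVal A E) E ϖ
        (s18cLift (modularFunctionFieldFullC E (3 * N)) y ⟨s18hq 3 12 E, hmem⟩)⁻¹ S' := by
  subst hℓ2
  have hid := s18rs_bar_three E hid3 (3 * N) hmem
  have hpos : 0 < 3 * N := NeZero.pos (3 * N)
  refine ssgs_chart_pair A E N hℓN hA 3 (by decide) ϖ hϖ ζ (ζ ^ N) p hp v₁ v₂ hv₁ hv₂ hv₂0 y hy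
    hdiv ⟨s18hq 3 12 E, hmem⟩ 27 3 (by decide) (by decide) hζ
    (hζ.pow hpos (by ring)) ?_ ?_
  · exact s18rs_ne_three _ _ hid (s18rs_htr _)
  · intro P
    have key := s18rs_pack_three P _ _ hid (s18rs_htr (3 * N)) (3 * N)
      (s18r_ord_dvd_zero (3 * N) P)
      (s18r_ord_dvd_1728 (3 * N) P) (fun c hc0 hc1 => s18r_ord_eq_one (3 * N) c hc0 hc1 P)
      (s18r_ord_dvd_cusp (3 * N) P)
    have e27 : -((27 : ℕ) : Qb) = -27 := by norm_num
    rw [e27]
    exact_mod_cast key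

/-- THE RAMIFICATION HYPOTHESES for `F_E(aN)(y) / E(h_a)`, `ℓ ∈ {2, 3}`, `a = 5 - ℓ`, over a number
field containing a primitive `a N`-th root of unity. -/
theorem ssgs_RH_small
    (hid2 : jqModC ℤ * s18hq 2 24 ℤ ^ 2 = (s18hq 2 24 ℤ + 256) ^ 3)
    (hid3 : jqModC ℤ * s18hq 3 12 ℤ ^ 3 = (s18hq 3 12 ℤ + 27) * (s18hq 3 12 ℤ + 243) ^ 3)
    (N : ℕ) [NeZero N] {ℓ : ℕ} [Fact ℓ.Prime] (hℓN : ¬ ℓ ∣ N)
    (hA : A.LiesOverPrime ℓ) (a : ℕ) [NeZero a] (ha : (ℓ = 2 ∧ a = 3) ∨ (ℓ = 3 ∧ a = 2))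
    (ha23 : a = 2 ∨ a = 3)
    [FiniteDimensional ℚ E]
    [IsDiscreteValuationRing (s18dVal A E)] (ϖ : s18dVal A E) (hϖ : Irreducible ϖ)
    (ζ : E) (hζ : IsPrimitiveRoot ζ (a * N))
    (p : ℕ) (hp : p.Prime) (hpℓ : p ≠ ℓ)
    (v₁ v₂ : LaurentSeries (s18dVal A E))
    (hv₁ : s18vIncl (s18dVal A E) E v₁ ∈ modularFunctionFieldFullC E N)
    (hv₂ : s18vIncl (s18dVal A E) E v₂ ∈ modularFunctionFieldFullC E N) (hv₂0 : v₂ ≠ 0)
    (y : LaurentSeries E)
    (hy : y ^ p * s18vIncl (s18dVal A E) E v₂ = s18vIncl (s18dVal A E) E v₁)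
    (hdiv : ∀ (h₁ : s18dUp E (s18vIncl (s18dVal A E) E v₁) ∈ modularFunctionFieldBar N)
      (h₂ : s18dUp E (s18vIncl (s18dVal A E) E v₂) ∈ modularFunctionFieldBar N)
      (P : Place (AlgebraicClosure ℚ) (modularFunctionFieldBar N)),
      (p : ℤ) ∣ P.ord ⟨_, h₁⟩ - P.ord ⟨_, h₂⟩)
    (hmem : s18hq a (s18hExp a) E ∈ modularFunctionFieldFullC E (a * N)) :
    ∃ S S' : Finset (s18dVal A E),
      S18Chart (s18dVal A E) E ϖ
        (s18cLift (modularFunctionFieldFullC E (a * N)) y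
          ⟨s18hq a (s18hExp a) E, hmem⟩) S ∧
      S18Chart (s18dVal A E) E ϖ
        (s18cLift (modularFunctionFieldFullC E (a * N)) y
          ⟨s18hq a (s18hExp a) E, hmem⟩)⁻¹ S' := by
  rcases ha with ⟨hℓ, rfl⟩ | ⟨hℓ, rfl⟩
  · exact ssgs_RH_three A E hid3 N hℓ hℓN hA ϖ hϖ ζ hζ p hp v₁ v₂ hv₁ hv₂ hv₂0 y hy hdiv hmem
  · exact ssgs_RH_two A E hid2 N hℓ hℓN hA ϖ hϖ ζ hζ p hp v₁ v₂ hv₁ hv₂ hv₂0 y hy hdiv hmem

end Inst

/-! ### the number-field level : `S18Chart` for `h_a` and `h_a⁻¹` -/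

section Level

variable {ℓ : ℕ} [Fact ℓ.Prime]
variable (A : ValuationSubring (AlgebraicClosure ℚ))
variable (E : IntermediateField ℚ (AlgebraicClosure ℚ))

theorem ssgs_chart_pair_h (N : ℕ) [NeZero N] (hℓN : ¬ ℓ ∣ N) (hA : A.LiesOverPrime ℓ)
    (a : ℕ) [NeZero a] (ha : (ℓ = 2 ∧ a = 3) ∨ (ℓ = 3 ∧ a = 2)) (ha23 : a = 2 ∨ a = 3)
    [FiniteDimensional ℚ E] [IsDiscreteValuationRing (s18dVal A E)] (ϖ : s18dVal A E)
    (hϖ : Irreducible ϖ) (ζ : E) (hζ : IsPrimitiveRoot ζ (a * N))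
    (hmem : s18hq a (s18hExp a) E ∈ modularFunctionFieldFullC E (a * N)) :
    ∃ S S' : Finset (s18dVal A E),
      S18Chart (s18dVal A E) E ϖ
        (⟨s18hq a (s18hExp a) E, hmem⟩ : modularFunctionFieldFullC E (a * N)) S ∧
      S18Chart (s18dVal A E) E ϖ
        (⟨s18hq a (s18hExp a) E, hmem⟩ : modularFunctionFieldFullC E (a * N))⁻¹ S' := by
  have hap : a.Prime := by
    rcases ha23 with rfl | rfl
    · exact Nat.prime_two
    · exact Nat.prime_three
  have haℓ : a ≠ ℓ := by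
    rcases ha with ⟨h1, h2⟩ | ⟨h1, h2⟩ <;> omega
  have hone : s18vIncl (s18dVal A E) E (1 : LaurentSeries (s18dVal A E)) ∈
      modularFunctionFieldFullC E N := by
    rw [map_one]; exact one_mem _
  obtain ⟨S, S', h0, hinf⟩ := ssgs_RH_small A E s18h_identity_two s18h_identity_three N hℓN hA a
    ha ha23 ϖ hϖ ζ hζ a hap haℓ 1 1 hone hone one_ne_zero 1 (by rw [one_pow, one_mul])
    (fun h₁ h₂ P => by rw [sub_self]; exact dvd_zero _) hmem
  exact ⟨S, S',
    grdi_chart_congr (grdi_ext_one (modularFunctionFieldFullC E (a * N))) ϖ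
      (s18hq a (s18hExp a) E) _ hmem _ h0,
    grdi_chart_congr (grdi_ext_one (modularFunctionFieldFullC E (a * N))) ϖ
      (s18hq a (s18hExp a) E)⁻¹ _ (inv_mem hmem) _ hinf⟩

end Level

section Instantiate

variable (M : ℕ) [NeZero M] {ℓ : ℕ} [Fact ℓ.Prime]
variable (A : ValuationSubring (AlgebraicClosure ℚ))
variable (a : ℕ) [NeZero a]

/-- THE NUMBER-FIELD LEVEL DATA for `h_a` at level `M`, `a ∣ M`, `ℓ ∤ M`, over every number field
containing a primitive `M`-th root of unity (`grdis_level` of `G/Red/InstSmall.lean` asks for a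
primitive `6 M`-th root, which is ramified at `ℓ = 3`). -/
theorem ssgs_level (hℓM : ¬ ℓ ∣ M) (hA : A.LiesOverPrime ℓ)
    (ha : (ℓ = 2 ∧ a = 3) ∨ (ℓ = 3 ∧ a = 2)) (haM : a ∣ M)
    (E : IntermediateField ℚ (AlgebraicClosure ℚ)) [FiniteDimensional ℚ E]
    [IsDiscreteValuationRing (s18dVal A E)] [CharZero (s18dVal A E)]
    (ϖ : s18dVal A E) (hϖ : Irreducible ϖ) (ζ : E) (hζ : IsPrimitiveRoot ζ M)
    (hmem : s18hq a (s18hExp a) E ∈ modularFunctionFieldFullC E M) :
    S18Coord hϖ (modularFunctionFieldFullC E M) ⟨s18hq a (s18hExp a) E, hmem⟩ ∧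
    ∃ S S' : Finset (s18dVal A E),
      S18Chart (s18dVal A E) E ϖ
        (⟨s18hq a (s18hExp a) E, hmem⟩ : modularFunctionFieldFullC E M) S ∧
      S18Chart (s18dVal A E) E ϖ
        (⟨s18hq a (s18hExp a) E, hmem⟩ : modularFunctionFieldFullC E M)⁻¹ S' := by
  have ha23 : a = 2 ∨ a = 3 := by
    rcases ha with ⟨-, h⟩ | ⟨-, h⟩
    · exact Or.inr h
    · exact Or.inl h
  refine ⟨s18hk_coord hϖ a ha23 M s18h_identity_two s18h_identity_three hmem
    (s18v_coord_j hϖ (s18d_natCast_mem (ℓ := ℓ) A E hA) M hℓM), ?_⟩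
  obtain ⟨N, rfl⟩ := haM
  have hN0 : N ≠ 0 := fun h => NeZero.ne (a * N) (by rw [h, mul_zero])
  haveI : NeZero N := ⟨hN0⟩
  have hℓN : ¬ ℓ ∣ N := fun h => hℓM (h.mul_left a)
  exact ssgs_chart_pair_h A E N hℓN hA a ha ha23 ϖ hϖ ζ hζ hmem

end Instantiate

end Fermat.Agent.SS
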