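import Mathlib
import Fermat.Agent.SS.Val.ModGauss
import Fermat.Agent.SS.K2Val

/-!
# Program S (S34), (K2) concrete part I : a coefficientwise automorphism and the Gauss ring

`A₀` a DVR, `L₀ = Frac A₀`, `F₀ ≤ F` intermediate fields of `L₀((q))`, `s : L₀ →+* L₀` with
`s a ≡ a mod ϖ A₀` on `A₀` ; `Φ` a ring automorphism of `F` acting coefficientwise through `s` and
preserving `F₀`. Then `Φ` preserves the Gauss ring `ssvmgR A₀ h` of `F₀` (inside `F`) and acts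
trivially on it modulo `ϖ` : the first two fields of `Ssk2vFix`.   Prefix `ssgk_`.
-/

set_option autoImplicit false
set_option linter.unusedSectionVars false
set_option linter.unusedVariables false

noncomputable section

namespace Fermat.Agent.SS

open Polynomial ModularCurve IntermediateField IsLocalRing Fermat.Agent.S18

section Coeff

variable {A₀ : Type*} [CommRing A₀] [IsDomain A₀] [IsDiscreteValuationRing A₀] [CharZero A₀]
variable {L₀ : Type*} [Field L₀] [Algebra A₀ L₀] [IsFractionRing A₀ L₀]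
variable {ϖ : A₀}

/-- `s` is congruent to the identity modulo `ϖ` on `A₀`. -/
def SsgkCongr (ϖ : A₀) (s : L₀ →+* L₀) : Prop :=
  ∀ a : A₀, ∃ c : A₀, s (algebraMap A₀ L₀ a) = algebraMap A₀ L₀ (a + ϖ * c)

/-- coefficientwise : `s(a) = a + ϖ c` for integral series. -/
theorem ssgk_coeffMap_incl (hϖ0 : ϖ ≠ 0) (s : L₀ →+* L₀) (hs : SsgkCongr ϖ s)
    (a : LaurentSeries A₀) :
    ∃ c : LaurentSeries A₀,
      coeffMap s (s18vIncl A₀ L₀ a) = s18vIncl A₀ L₀ (a + HahnSeries.C ϖ * c) := by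
  classical
  let g : A₀ → A₀ := fun x => Classical.choose (hs x)
  have hg : ∀ x, s (algebraMap A₀ L₀ x) = algebraMap A₀ L₀ (x + ϖ * g x) := fun x =>
    Classical.choose_spec (hs x)
  have hg0 : g 0 = 0 := by
    have h1 := hg 0
    rw [map_zero, map_zero, zero_add] at h1
    have h2 : ϖ * g 0 = 0 := (IsFractionRing.injective A₀ L₀) (by rw [← h1, map_zero])
    exact (mul_eq_zero.mp h2).resolve_left hϖ0
  refine ⟨a.map (⟨g, hg0⟩ : ZeroHom A₀ A₀), ?_⟩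
  ext k
  rw [coeffMap_coeff, coeffMap_coeff, coeffMap_coeff, HahnSeries.coeff_add, s18vg_coeff_C_mul,
    HahnSeries.map_coeff]
  exact hg _

/-- the reduction does not see `ϖ c`. -/
theorem ssgk_res_add (hϖ : Irreducible ϖ) (a c : LaurentSeries A₀) :
    s18vRes A₀ (a + HahnSeries.C ϖ * c) = s18vRes A₀ a := by
  have h0 : s18vRes A₀ (HahnSeries.C ϖ * c) = 0 := by
    rw [s18vg_res_eq_zero_iff hϖ]
    intro k
    rw [s18vg_coeff_C_mul]
    exact dvd_mul_right _ _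
  rw [map_add, h0, add_zero]

variable {F₀ F : IntermediateField L₀ (LaurentSeries L₀)} (h : F₀ ≤ F)

/-- **a coefficientwise automorphism, congruent to the identity modulo `ϖ` on `A₀`, preserves the
Gauss ring of `F₀` and acts trivially on it modulo `ϖ`.** -/
theorem ssgk_fix_gauss (hϖ : Irreducible ϖ) (s : L₀ →+* L₀) (hs : SsgkCongr ϖ s)
    (Φ : ↥F ≃+* ↥F)
    (hΦ : ∀ x : ↥F, ((Φ x : ↥F) : LaurentSeries L₀) = coeffMap s (x : LaurentSeries L₀))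
    (hF₀ : ∀ x : LaurentSeries L₀, x ∈ F₀ → coeffMap s x ∈ F₀)
    (r : ↥F) (hr : r ∈ ssvmgR A₀ h) :
    Φ r ∈ ssvmgR A₀ h ∧ ∃ r' : ↥F, r' ∈ ssvmgR A₀ h ∧ Φ r - r = algebraMap A₀ F ϖ * r' := by
  obtain ⟨x₀, hx₀, rfl⟩ := (mem_ssvmgR A₀ h).mp hr
  obtain ⟨a, b, ha, hb, hb0, hxab⟩ := hx₀
  obtain ⟨ca, hca⟩ := ssgk_coeffMap_incl hϖ.ne_zero s hs a
  obtain ⟨cb, hcb⟩ := ssgk_coeffMap_incl hϖ.ne_zero s hs b
  -- the image `y₀`
  have hy₀F : coeffMap s (x₀ : LaurentSeries L₀) ∈ F₀ := hF₀ _ x₀.2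
  obtain ⟨y₀, hy₀⟩ : ∃ y₀ : ↥F₀, (y₀ : LaurentSeries L₀) = coeffMap s (x₀ : LaurentSeries L₀) :=
    ⟨⟨_, hy₀F⟩, rfl⟩
  have ha' : s18vIncl A₀ L₀ (a + HahnSeries.C ϖ * ca) ∈ F₀ := hca ▸ hF₀ _ ha
  have hb' : s18vIncl A₀ L₀ (b + HahnSeries.C ϖ * cb) ∈ F₀ := hcb ▸ hF₀ _ hb
  have hb0' : s18vRes A₀ (b + HahnSeries.C ϖ * cb) ≠ 0 := by rw [ssgk_res_add hϖ]; exact hb0
  have hyab : (y₀ : LaurentSeries L₀) * s18vIncl A₀ L₀ (b + HahnSeries.C ϖ * cb) =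
      s18vIncl A₀ L₀ (a + HahnSeries.C ϖ * ca) := by
    rw [hy₀, ← hcb, ← hca, ← map_mul, hxab]
  have hy₀O : y₀ ∈ s18vO A₀ F₀ := ⟨_, _, ha', hb', hb0', hyab⟩
  have hΦy : Φ (IntermediateField.inclusion h x₀) = IntermediateField.inclusion h y₀ := by
    apply Subtype.ext
    rw [hΦ]
    exact hy₀.symm
  refine ⟨(mem_ssvmgR A₀ h).mpr ⟨y₀, hy₀O, hΦy.symm⟩, ?_⟩
  -- the difference
  have hdiff : ((y₀ - x₀ : ↥F₀) : LaurentSeries L₀) *
      s18vIncl A₀ L₀ (b * (b + HahnSeries.C ϖ * cb)) =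
      s18vIncl A₀ L₀ ((a + HahnSeries.C ϖ * ca) * b - a * (b + HahnSeries.C ϖ * cb)) := by
    rw [map_sub, map_mul, map_mul, map_mul, ← hyab, ← hxab]
    push_cast
    ring
  have hres : s18vRes A₀ ((a + HahnSeries.C ϖ * ca) * b - a * (b + HahnSeries.C ϖ * cb)) = 0 := by
    rw [map_sub, map_mul, map_mul, ssgk_res_add hϖ, ssgk_res_add hϖ, sub_self]
  have hnum : s18vIncl A₀ L₀ ((a + HahnSeries.C ϖ * ca) * b - a * (b + HahnSeries.C ϖ * cb)) ∈ F₀ := by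
    rw [map_sub, map_mul, map_mul]
    exact sub_mem (mul_mem ha' hb) (mul_mem ha hb')
  have hden : s18vIncl A₀ L₀ (b * (b + HahnSeries.C ϖ * cb)) ∈ F₀ := by
    rw [map_mul]; exact mul_mem hb hb'
  have hden0 : s18vRes A₀ (b * (b + HahnSeries.C ϖ * cb)) ≠ 0 := by
    rw [map_mul]; exact mul_ne_zero hb0 hb0'
  obtain ⟨z, hz, hyz⟩ := (s18v_dvd_iff hϖ F₀ (y₀ - x₀) _ _ hnum hden hden0 hdiff).mpr hres
  refine ⟨IntermediateField.inclusion h z, (mem_ssvmgR A₀ h).mpr ⟨z, hz, rfl⟩, ?_⟩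
  rw [hΦy, ← map_sub, hyz, map_mul]
  congr 1

end Coeff

end Fermat.Agent.SS
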