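import Mathlib
import Fermat.Agent.SS.Geo.K2Coeff
import Fermat.Agent.SS.Top.Defs
import Fermat.Agent.SS.Top.Res

/-!
# Program S (S34), (K2) concrete part II : inertia acts coefficientwise, trivially modulo `ϖ`

For `σ` in the inertia group of `𝔸` and `E` a normal number field, `σ|_E` is congruent to the identity
modulo `ϖ` on `A = 𝔸 ∩ E` (`ssgk_congr_of_inertia`); hence every `γ ∈ ssInertiaE E N 𝔸` preserves
the Gauss ring of every coefficientwise-stable subfield `F₀ ≤ F_E(N)` and acts trivially on it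
modulo `ϖ` (`ssgk_fix_of_inertia`).  Prefix `ssgk_`.
-/

set_option autoImplicit false
set_option linter.unusedSectionVars false
set_option linter.unusedVariables false
set_option linter.style.haveILetI false

noncomputable section

namespace Fermat.Agent.SS

open Polynomial ModularCurve AlgebraicCurve IntermediateField IsLocalRing Fermat.Agent.S18
  Fermat.Agent.S05

local notation "Qb" => AlgebraicClosure ℚ

variable (A : ValuationSubring Qb) (E : IntermediateField ℚ Qb) [Normal ℚ E]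

/-- `σ|_E ≡ id mod ϖ` on `𝔸 ∩ E` for `σ` in the inertia group of `𝔸`. -/
theorem ssgk_congr_of_inertia [IsDiscreteValuationRing ↥(s18dVal A E)]
    {ϖ : ↥(s18dVal A E)} (hϖ : Irreducible ϖ)
    (σ : Qb ≃ₐ[ℚ] Qb) (hσ : σ ∈ A.inertiaSubgroupIn ℚ) :
    SsgkCongr (L₀ := E) ϖ ((σ.restrictNormal E : E ≃ₐ[ℚ] E) : E →+* E) := by
  intro a
  have hin := isInertial_of_mem_inertiaSubgroupIn A σ hσ
  have hcomm : ((σ.restrictNormal E (a : E) : E) : Qb) = σ (((a : E) : E) : Qb) :=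
    AlgEquiv.restrictNormal_commutes σ E (a : E)
  have ha' : (((a : E) : E) : Qb) ∈ A := a.2
  have h1 : σ.restrictNormal E (a : E) - (a : E) ∈ (s18dVal A E).nonunits := by
    rw [sstr_mem_nonunits_dVal]
    push_cast
    rw [hcomm]
    exact hin.sub_mem _ ha'
  have h2 : σ.restrictNormal E (a : E) - (a : E) ∈ s18dVal A E := (s18dVal A E).nonunits_le h1
  have h3 : (⟨_, h2⟩ : ↥(s18dVal A E)) ∈ maximalIdeal ↥(s18dVal A E) := by
    rw [mem_maximalIdeal, mem_nonunits_iff]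
    intro hu
    rw [ValuationSubring.mem_nonunits_iff_exists_mem_maximalIdeal] at h1
    obtain ⟨h4, h5⟩ := h1
    exact h5 hu
  rw [hϖ.maximalIdeal_eq, Ideal.mem_span_singleton] at h3
  obtain ⟨c, hc⟩ := h3
  refine ⟨c, ?_⟩
  have h6 : σ.restrictNormal E (a : E) - (a : E) = ((ϖ * c : ↥(s18dVal A E)) : E) :=
    congrArg Subtype.val hc
  show σ.restrictNormal E (a : E) = ((a + ϖ * c : ↥(s18dVal A E)) : E)
  push_cast at h6 ⊢
  rw [← h6]
  ring

variable (N : ℕ) [NeZero N]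

/-- `ssdAut E N τ` satisfies `Ssk2vFix` for the Gauss ring of a coefficientwise-stable subfield
`F₀ ≤ F_E(N)` and a coefficientwise-fixed element `y`, as soon as `τ ≡ id mod ϖ` on `𝔸 ∩ E`. -/
theorem ssgk_fix_of_congr [IsDiscreteValuationRing ↥(s18dVal A E)] [CharZero ↥(s18dVal A E)]
    {ϖ : ↥(s18dVal A E)} (hϖ : Irreducible ϖ)
    (F₀ : IntermediateField E (LaurentSeries E)) (h : F₀ ≤ modularFunctionFieldFullC E N)
    (y : modularFunctionFieldFullC E N) (τ : E ≃ₐ[ℚ] E)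
    (hF₀ : ∀ x : LaurentSeries E, x ∈ F₀ → coeffMap (τ : E →+* E) x ∈ F₀)
    (hy : coeffMap (τ : E →+* E) (y : LaurentSeries E) = (y : LaurentSeries E))
    (hτ : SsgkCongr (L₀ := E) ϖ (τ : E →+* E)) :
    Ssk2vFix (ssvmgR ↥(s18dVal A E) h) (ssvmgRUnif h ϖ) y
      (SemilinearAut.toRingAut (ssdAut E N τ)) := by
  have key := ssgk_fix_gauss h hϖ (τ : E →+* E) hτ
    (SemilinearAut.toRingAut (ssdAut E N τ)) (fun x => rfl) hF₀
  have hcoe := ssvmgRUnif_coe h ϖ
  refine ⟨fun r hr => (key r hr).1, fun r hr => ?_, Subtype.ext hy⟩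
  obtain ⟨r', hr', hrr'⟩ := (key r hr).2
  exact ⟨r', hr', hrr'.trans (congrArg (· * r') hcoe.symm)⟩

/-- every `γ ∈ ssInertiaE E N 𝔸` satisfies `Ssk2vFix`. -/
theorem ssgk_fix_of_inertia [IsDiscreteValuationRing ↥(s18dVal A E)] [CharZero ↥(s18dVal A E)]
    {ϖ : ↥(s18dVal A E)} (hϖ : Irreducible ϖ)
    (F₀ : IntermediateField E (LaurentSeries E)) (h : F₀ ≤ modularFunctionFieldFullC E N)
    (hF₀ : ∀ (s : E ≃ₐ[ℚ] E) (x : LaurentSeries E), x ∈ F₀ → coeffMap (s : E →+* E) x ∈ F₀)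
    (y : modularFunctionFieldFullC E N)
    (hy : ∀ s : E ≃ₐ[ℚ] E, coeffMap (s : E →+* E) (y : LaurentSeries E) = (y : LaurentSeries E))
    (γ : SemilinearAut E (modularFunctionFieldFullC E N)) (hγ : γ ∈ ssInertiaE E N A) :
    Ssk2vFix (ssvmgR ↥(s18dVal A E) h) (ssvmgRUnif h ϖ) y (SemilinearAut.toRingAut γ) := by
  obtain ⟨σ, hσ, hγσ⟩ := hγ
  have h1 : γ = ssdAut E N (σ.restrictNormal E) := hγσ.symm
  rw [h1]
  exact ssgk_fix_of_congr A E N hϖ F₀ h y (σ.restrictNormal E) (hF₀ _) (hy _)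
    (ssgk_congr_of_inertia A E hϖ σ hσ)

/-- the same for the inverse. -/
theorem ssgk_fix_symm_of_inertia [IsDiscreteValuationRing ↥(s18dVal A E)]
    [CharZero ↥(s18dVal A E)]
    {ϖ : ↥(s18dVal A E)} (hϖ : Irreducible ϖ)
    (F₀ : IntermediateField E (LaurentSeries E)) (h : F₀ ≤ modularFunctionFieldFullC E N)
    (hF₀ : ∀ (s : E ≃ₐ[ℚ] E) (x : LaurentSeries E), x ∈ F₀ → coeffMap (s : E →+* E) x ∈ F₀)
    (y : modularFunctionFieldFullC E N)
    (hy : ∀ s : E ≃ₐ[ℚ] E, coeffMap (s : E →+* E) (y : LaurentSeries E) = (y : LaurentSeries E))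
    (γ : SemilinearAut E (modularFunctionFieldFullC E N)) (hγ : γ ∈ ssInertiaE E N A) :
    Ssk2vFix (ssvmgR ↥(s18dVal A E) h) (ssvmgRUnif h ϖ) y (SemilinearAut.toRingAut γ).symm :=
  ssgk_fix_of_inertia A E N hϖ F₀ h hF₀ y hy γ⁻¹ (inv_mem hγ)

/-- `ssdAut E N τ` preserves the image of `𝔸 ∩ E` when `τ` preserves `𝔸 ∩ E`. -/
theorem ssgk_base_of_mem (τ : E ≃ₐ[ℚ] E) (a : ↥(s18dVal A E))
    (hmem : τ (a : E) ∈ s18dVal A E) :
    ∃ a' : ↥(s18dVal A E),
      ssdAut E N τ • algebraMap ↥(s18dVal A E) (modularFunctionFieldFullC E N) a =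
      algebraMap ↥(s18dVal A E) (modularFunctionFieldFullC E N) a' := by
  refine ⟨⟨_, hmem⟩, Subtype.ext ?_⟩
  have h2 := s18v_coe_algebraMap (modularFunctionFieldFullC E N) a
  have h3 := s18v_coe_algebraMap (modularFunctionFieldFullC E N)
    (⟨_, hmem⟩ : ↥(s18dVal A E))
  rw [h3, coe_ssdAut_smul, h2, coeffMap_algebraMap]
  rfl

/-- `γ ∈ ssInertiaE E N 𝔸` preserves the image of `𝔸 ∩ E`. -/
theorem ssgk_base_of_inertia (γ : SemilinearAut E (modularFunctionFieldFullC E N))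
    (hγ : γ ∈ ssInertiaE E N A) (a : ↥(s18dVal A E)) :
    ∃ a' : ↥(s18dVal A E), γ • algebraMap ↥(s18dVal A E) (modularFunctionFieldFullC E N) a =
      algebraMap ↥(s18dVal A E) (modularFunctionFieldFullC E N) a' := by
  obtain ⟨σ, hσ, hγσ⟩ := hγ
  have h1 : γ = ssdAut E N (σ.restrictNormal E) := hγσ.symm
  rw [h1]
  have hin := isInertial_of_mem_inertiaSubgroupIn A σ hσ
  have hcomm : ((σ.restrictNormal E (a : E) : E) : Qb) = σ (((a : E) : E) : Qb) :=
    AlgEquiv.restrictNormal_commutes σ E (a : E)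
  have ha' : (((a : E) : E) : Qb) ∈ A := a.2
  have hmem : σ.restrictNormal E (a : E) ∈ s18dVal A E := by
    change ((σ.restrictNormal E (a : E) : E) : Qb) ∈ A
    rw [hcomm]
    exact (hin.mem_iff _).mpr ha'
  exact ssgk_base_of_mem A E N (σ.restrictNormal E) a hmem

end Fermat.Agent.SS
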