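import Mathlib
import Fermat.Agent.SS.Geo.K2Inertia
import Fermat.Agent.SS.Val.ModMain

/-!
# Program S (S34), (K2) concrete part III : the fields `inertial` and `k2` of `SsGeo`

Level `N = M q`, `q ∤ M`; chart coordinate `t = ` the image in `F_E(M q)` of a coordinate
`t₀ ∈ F_E(M)` which is good for the Gauss valuation (`S18Coord`), integral with a pole modulo `ϖ`
(`S18VPole`) and has coefficients fixed by `Gal(E/ℚ)`.  Then for every `γ` in the image of the
inertia group : `γ ≡ id` on both chart rings modulo `ϖ` (C1) and the double difference of every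
`f ≠ 0` is `≡ 1 mod ϖ P_(ϖ)` (C2).   Prefix `ssgk_`.
-/

set_option autoImplicit false
set_option linter.unusedSectionVars false
set_option linter.unusedVariables false
set_option linter.style.haveILetI false
set_option synthInstance.maxHeartbeats 400000

noncomputable section

namespace Fermat.Agent.SS

open Polynomial ModularCurve AlgebraicCurve IntermediateField IsLocalRing Fermat.Agent.S18

local notation "Qb" => AlgebraicClosure ℚ

variable {q : ℕ} [Fact q.Prime] (𝔸 : ValuationSubring Qb) (E : IntermediateField ℚ Qb) [Normal ℚ E]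
  [IsDiscreteValuationRing ↥(s18dVal 𝔸 E)] [CharZero ↥(s18dVal 𝔸 E)]
variable (M : ℕ) [NeZero M]

/-- `F_E(M)` is stable under the coefficientwise action. -/
theorem ssgk_full_stable (s : E ≃ₐ[ℚ] E) (x : LaurentSeries E)
    (hx : x ∈ modularFunctionFieldFullC E M) :
    coeffMap (s : E →+* E) x ∈ modularFunctionFieldFullC E M :=
  s18dd_coeffMap_mem_full (s : E →+* E) M hx

/-- `j(q^q)` has rational coefficients. -/
theorem ssgk_Y_fixed (s : E ≃ₐ[ℚ] E) :
    haveI : NeZero q := ⟨(Fact.out : q.Prime).ne_zero⟩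
    coeffMap (s : E →+* E) ((ssvmmY E M q : modularFunctionFieldFullC E (M * q)) :
      LaurentSeries E) = ((ssvmmY E M q : modularFunctionFieldFullC E (M * q)) : LaurentSeries E) := by
  haveI : NeZero q := ⟨(Fact.out : q.Prime).ne_zero⟩
  rw [ssvmmY_coe, coeffMap_qExpand, coeffMap_jqModC]

/-- the action of `ssdAut` on an element with `Gal(E/ℚ)`-fixed coefficients. -/
theorem ssgk_smul_eq_of_fixed (N : ℕ) [NeZero N] (t : modularFunctionFieldFullC E N)
    (hfix : ∀ s : E ≃ₐ[ℚ] E, coeffMap (s : E →+* E) (t : LaurentSeries E) = (t : LaurentSeries E))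
    (γ : SemilinearAut E (modularFunctionFieldFullC E N)) (hγ : γ ∈ ssInertiaE E N 𝔸) :
    γ • t = t := by
  obtain ⟨σ, hσ, hγσ⟩ := hγ
  have h1 : γ = ssdAut E N (σ.restrictNormal E) := hγσ.symm
  rw [h1]
  exact Subtype.ext (hfix (σ.restrictNormal E))

variable [NeZero q]

set_option maxHeartbeats 4000000 in
/-- **(C1) + (C2)** : the fields `inertial` and `k2` of `SsGeo` at level `M q` for a chart coordinate
coming from level `M`. -/
theorem ssgk_inertial_k2 (hA : 𝔸.LiesOverPrime q) (hqM : ¬ q ∣ M)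
    (t₀ : modularFunctionFieldFullC E M) (τ₀ : LaurentSeries ↥(s18dVal 𝔸 E))
    (hpole : S18VPole (modularFunctionFieldFullC E M) t₀ τ₀)
    (hcoord : ∀ (ϖ : ↥(s18dVal 𝔸 E)) (hϖ : Irreducible ϖ),
      S18Coord hϖ (modularFunctionFieldFullC E M) t₀)
    (hfix : ∀ s : E ≃ₐ[ℚ] E,
      coeffMap (s : E →+* E) (t₀ : LaurentSeries E) = (t₀ : LaurentSeries E))
    (transc : Transcendental E (IntermediateField.inclusion (ssvmm_le E M q) t₀))
    [FiniteDimensional E⟮IntermediateField.inclusion (ssvmm_le E M q) t₀⟯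
      (modularFunctionFieldFullC E (M * q))] :
    (∀ ϖ : ↥(s18dVal 𝔸 E), Irreducible ϖ → ∀ γ ∈ ssInertiaE E (M * q) 𝔸,
      SsInertial ϖ (IntermediateField.inclusion (ssvmm_le E M q) t₀) γ ∧
        SsInertial ϖ (IntermediateField.inclusion (ssvmm_le E M q) t₀)⁻¹ γ) ∧
    (∀ (ϖ : ↥(s18dVal 𝔸 E)) (hϖ : Irreducible ϖ), ∀ σ ∈ ssInertiaE E (M * q) 𝔸,
      ∀ τ ∈ ssInertiaE E (M * q) 𝔸, ∀ f : modularFunctionFieldFullC E (M * q), f ≠ 0 →
        S18DvdGauss hϖ (IntermediateField.inclusion (ssvmm_le E M q) t₀) (ssnfDD σ τ f - 1)) := by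
  have key : ∀ (ϖ : ↥(s18dVal 𝔸 E)) (hϖ : Irreducible ϖ),
      (∀ γ ∈ ssInertiaE E (M * q) 𝔸,
        SsInertial ϖ (IntermediateField.inclusion (ssvmm_le E M q) t₀) γ ∧
          SsInertial ϖ (IntermediateField.inclusion (ssvmm_le E M q) t₀)⁻¹ γ) ∧
      (∀ σ ∈ ssInertiaE E (M * q) 𝔸, ∀ τ ∈ ssInertiaE E (M * q) 𝔸,
        ∀ f : modularFunctionFieldFullC E (M * q), f ≠ 0 →
          S18DvdGauss hϖ (IntermediateField.inclusion (ssvmm_le E M q) t₀)
            (ssnfDD σ τ f - 1)) := by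
    intro ϖ hϖ
    obtain ⟨Ξ, G, hamb⟩ := ssvmm_amb 𝔸 E M hA hqM hϖ
    have hR₁ := ssvmgR_loc_le (ssvmm_le E M q) hϖ t₀ τ₀ hpole
    have hR₂ := ssvmgR_le_intLoc (ssvmm_le E M q) hϖ t₀ (hcoord ϖ hϖ)
    have hϖR := ssvmgRUnif_coe (ssvmm_le E M q) ϖ
    have hfixγ := fun γ hγ => ssgk_fix_of_inertia 𝔸 E (M * q) hϖ (modularFunctionFieldFullC E M)
      (ssvmm_le E M q) (ssgk_full_stable E M) (ssvmmY E M q) (ssgk_Y_fixed E M) γ hγ
    have hfixγ' := fun γ hγ => ssgk_fix_symm_of_inertia 𝔸 E (M * q) hϖ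
      (modularFunctionFieldFullC E M)
      (ssvmm_le E M q) (ssgk_full_stable E M) (ssvmmY E M q) (ssgk_Y_fixed E M) γ hγ
    refine ⟨fun γ hγ => ?_, fun σ hσ τ hτ f hf => ?_⟩
    · exact ssk2v_inertial hϖ _ hR₁ hR₂ transc hamb hϖR γ (hfixγ γ hγ)
        (ssgk_smul_eq_of_fixed 𝔸 E (M * q) _ hfix γ hγ)
        (ssgk_base_of_inertia 𝔸 E (M * q) γ hγ)
    · exact ssk2v_dvdGauss hϖ _ hR₁ hR₂ hamb hϖR σ τ (hfixγ σ hσ) (hfixγ' σ hσ) (hfixγ τ hτ)
        (hfixγ' τ hτ) f hf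
  exact ⟨fun ϖ hϖ => (key ϖ hϖ).1, fun ϖ hϖ => (key ϖ hϖ).2⟩

end Fermat.Agent.SS
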