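import Mathlib
import Fermat.Agent.S18.T.Spec
import Fermat.Agent.S18.RH.Core
import Fermat.Agent.SS.NF.Defs

/-!
# Program S (S34), the concrete side : transfer of the local structure from the chart `t` to the
# chart `t⁻¹`, away from `t⁻¹ = 0`  (leaf L6 of SS-GERM)

`P = s18tInt A t`, `Q = s18tInt A t⁻¹`.  A closed point `𝔫'` of the chart `Q` with `t⁻¹ ∉ 𝔫'` is also a
closed point of the chart `P` : `ssglBack t 𝔫' = {x ∈ P | t⁻ᵏ x ∈ 𝔫' for some k}`, and every place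
centred at `𝔫'` (chart `t⁻¹`) is centred at (any maximal ideal containing) `ssglBack t 𝔫'` (chart `t`).
Hence `SsLocAt` at all closed points of the chart `t` gives `SsLocAt` at the closed points of the
chart `t⁻¹` outside the locus `t⁻¹ = 0` : `ssgl_locAt_inv`.  So, in the chart at infinity, germs are
only needed at the closed points containing `t⁻¹` (the cusps when `t = j`).
-/

set_option autoImplicit false
set_option linter.unusedSectionVars false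
set_option linter.unusedVariables false
set_option linter.style.haveILetI false

noncomputable section

namespace Fermat.Agent.SS

open Polynomial IntermediateField AlgebraicCurve Fermat.Agent.S18

universe u

variable {A : Type*} [CommRing A] [IsDomain A] [IsDiscreteValuationRing A] [CharZero A]
variable {L : Type*} [Field L] [Algebra A L] [IsFractionRing A L]
variable {F : Type u} [Field F] [Algebra A F] [Algebra L F] [IsScalarTower A L F]
variable {ϖ : A}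

/-- `t⁻¹` as an element of `Q = s18tInt A t⁻¹` -/
def ssglTinv (t : F) : ↥(s18tInt A t⁻¹) := ⟨t⁻¹, s18tc_self_mem_int t⁻¹⟩

/-- the closed point of the chart `t` under a closed point `𝔫'` of the chart `t⁻¹` :
`{x ∈ P | t⁻ᵏ x ∈ 𝔫' for some k}`. -/
def ssglBack (t : F) (ht0 : t ≠ 0) (𝔫' : Ideal ↥(s18tInt A t⁻¹)) : Ideal ↥(s18tInt A t) where
  carrier := {x | ∃ k : ℕ, ∃ y ∈ 𝔫', (y : F) = t⁻¹ ^ k * (x : F)}
  zero_mem' := ⟨0, 0, 𝔫'.zero_mem, by simp⟩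
  add_mem' := by
    rintro x₁ x₂ ⟨k₁, y₁, hy₁, e₁⟩ ⟨k₂, y₂, hy₂, e₂⟩
    refine ⟨k₁ + k₂, ssglTinv t ^ k₂ * y₁ + ssglTinv t ^ k₁ * y₂,
      𝔫'.add_mem (𝔫'.mul_mem_left _ hy₁) (𝔫'.mul_mem_left _ hy₂), ?_⟩
    push_cast
    rw [e₁, e₂]
    show (t⁻¹) ^ k₂ * ((t⁻¹) ^ k₁ * (x₁ : F)) + (t⁻¹) ^ k₁ * ((t⁻¹) ^ k₂ * (x₂ : F)) = _
    rw [pow_add]
    ring
  smul_mem' := by
    rintro c x ⟨k, y, hy, e⟩
    obtain ⟨kc, hkc⟩ := s18tc_exists_inv_pow_mul_mem (A := A) t ht0 c.2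
    refine ⟨kc + k, ⟨_, hkc⟩ * y, 𝔫'.mul_mem_left _ hy, ?_⟩
    push_cast
    rw [e, smul_eq_mul]
    push_cast
    rw [pow_add]
    ring

theorem mem_ssglBack {t : F} {ht0 : t ≠ 0} {𝔫' : Ideal ↥(s18tInt A t⁻¹)} {x : ↥(s18tInt A t)} :
    x ∈ ssglBack t ht0 𝔫' ↔ ∃ k : ℕ, ∃ y ∈ 𝔫', (y : F) = t⁻¹ ^ k * (x : F) := Iff.rfl

theorem ssgl_back_ne_top (t : F) (ht0 : t ≠ 0) (𝔫' : Ideal ↥(s18tInt A t⁻¹)) [h𝔫' : 𝔫'.IsPrime]
    (hunit : ssglTinv (A := A) t ∉ 𝔫') : ssglBack t ht0 𝔫' ≠ ⊤ := by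
  intro htop
  have h1 : (1 : ↥(s18tInt A t)) ∈ ssglBack t ht0 𝔫' := by rw [htop]; trivial
  obtain ⟨k, y, hy, e⟩ := h1
  apply hunit
  apply h𝔫'.mem_of_pow_mem k
  have : y = ssglTinv t ^ k := Subtype.ext (by
    rw [e]; push_cast; rw [mul_one]; rfl)
  rw [← this]
  exact hy

theorem ssgl_pi_mem_back (t : F) (ht0 : t ≠ 0) (𝔫' : Ideal ↥(s18tInt A t⁻¹))
    (hϖ𝔫' : sskPi ϖ t⁻¹ ∈ 𝔫') : sskPi ϖ t ∈ ssglBack t ht0 𝔫' :=
  ⟨0, sskPi ϖ t⁻¹, hϖ𝔫', by rw [pow_zero, one_mul]; rfl⟩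

/-- a valuation ring containing `L` and `t` contains `P = s18tInt A t`. -/
theorem ssgl_int_le_of_mem (t : F) (R : Place L F) (ht : t ∈ R.toValuationSubring) :
    s18tInt A t ≤ R.toValuationSubring.toSubring := by
  intro x hx
  rw [mem_s18tInt] at hx
  obtain ⟨p, hp, hpx⟩ := hx
  refine s18r_mem_of_monic_root R.toValuationSubring (algebraMap ↥(s18tChart A t) F) (fun c => ?_)
    x p hp hpx
  -- the chart ring `A[t]` lies in the valuation ring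
  have hle : s18tChart A t ≤
      ({ R.toValuationSubring.toSubring.toSubsemiring with
        algebraMap_mem' := fun a => by
          rw [IsScalarTower.algebraMap_apply A L F]
          exact R.algebraMap_mem' _ } : Subalgebra A F) := by
    unfold s18tChart
    rw [Algebra.adjoin_le_iff, Set.singleton_subset_iff]
    exact ht
  exact hle c.2

/-- an element of a valuation ring which is not a non-unit has its inverse in the ring -/
theorem ssgl_inv_mem {V : ValuationSubring F} {x : F} (hx : x ∈ V) (hnu : x ∉ V.nonunits) :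
    x⁻¹ ∈ V := by
  rw [ValuationSubring.mem_nonunits_iff, not_lt] at hnu
  rw [← ValuationSubring.valuation_le_one_iff] at hx ⊢
  have h1 : V.valuation x = 1 := le_antisymm hx hnu
  rw [map_inv₀, h1, inv_one]

/-- A PLACE CENTRED AT `𝔫'` IN THE CHART `t⁻¹`, `t⁻¹ ∉ 𝔫'`, IS CENTRED AT EVERY IDEAL CONTAINING
`ssglBack t 𝔫'` IN THE CHART `t`. -/
theorem ssgl_centred_back (t : F) (ht0 : t ≠ 0) (𝔫' : Ideal ↥(s18tInt A t⁻¹))
    (hunit : ssglTinv (A := A) t ∉ 𝔫') (𝔫 : Ideal ↥(s18tInt A t))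
    (h𝔫 : ssglBack t ht0 𝔫' ≤ 𝔫) (R : Place L F) (hR : SsCentredAt t⁻¹ 𝔫' R) :
    SsCentredAt t 𝔫 R := by
  obtain ⟨hQ, hc⟩ := hR
  have htinv : t⁻¹ ∈ R.toValuationSubring := hQ (s18tc_self_mem_int t⁻¹)
  have hnu : t⁻¹ ∉ R.toValuationSubring.nonunits := fun h => hunit (hc h)
  have ht : t ∈ R.toValuationSubring := by
    have := ssgl_inv_mem htinv hnu
    rwa [inv_inv] at this
  refine ⟨ssgl_int_le_of_mem t R ht, fun x hx => h𝔫 ?_⟩
  obtain ⟨k, hk⟩ := s18tc_exists_inv_pow_mul_mem (A := A) t ht0 x.2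
  refine ⟨k, ⟨_, hk⟩, hc ?_, rfl⟩
  show t⁻¹ ^ k * (x : F) ∈ R.toValuationSubring.nonunits
  have hx' : (x : F) ∈ R.toValuationSubring.nonunits := hx
  rw [ValuationSubring.mem_nonunits_iff] at hx' ⊢
  rw [map_mul]
  have h1 : R.toValuationSubring.valuation (t⁻¹ ^ k) ≤ 1 :=
    (ValuationSubring.valuation_le_one_iff _ _).mpr (pow_mem htinv k)
  calc R.toValuationSubring.valuation (t⁻¹ ^ k) * R.toValuationSubring.valuation (x : F)
      ≤ 1 * R.toValuationSubring.valuation (x : F) := by gcongr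
    _ < 1 := by rw [one_mul]; exact hx'

/-- (L6) CHART TRANSFER : the local structure at all closed points of the chart `t` gives the local
structure at the closed points of the chart `t⁻¹` away from `t⁻¹ = 0`. -/
theorem ssgl_locAt_inv (t : F) (ht0 : t ≠ 0) (σ τ : SemilinearAut L F)
    (h0 : ∀ 𝔫 : Ideal ↥(s18tInt A t), 𝔫.IsMaximal → sskPi ϖ t ∈ 𝔫 → SsLocAt t σ τ 𝔫)
    (𝔫' : Ideal ↥(s18tInt A t⁻¹)) (h𝔫' : 𝔫'.IsMaximal) (hϖ𝔫' : sskPi ϖ t⁻¹ ∈ 𝔫')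
    (hunit : ssglTinv (A := A) t ∉ 𝔫') :
    SsLocAt t⁻¹ σ τ 𝔫' := by
  haveI := h𝔫'.isPrime
  obtain ⟨𝔫, h𝔫max, h𝔫le⟩ := Ideal.exists_le_maximal _ (ssgl_back_ne_top t ht0 𝔫' hunit)
  have hϖ𝔫 : sskPi ϖ t ∈ 𝔫 := h𝔫le (ssgl_pi_mem_back t ht0 𝔫' hϖ𝔫')
  intro R hRr hRc
  have hRc' := ssgl_centred_back t ht0 𝔫' hunit 𝔫 h𝔫le R hRc
  rcases h0 𝔫 h𝔫max hϖ𝔫 R hRr hRc' with ⟨f, hf0, hf1, hf⟩ | h
  · exact Or.inl ⟨f, hf0, hf1, fun R' hR'c hne =>
      hf R' (ssgl_centred_back t ht0 𝔫' hunit 𝔫 h𝔫le R' hR'c) hne⟩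
  · exact Or.inr h

end Fermat.Agent.SS
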