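import Mathlib
import Fermat.Agent.S05.Inertia
import Fermat.Agent.SS.NF.Spec
import Fermat.Agent.SS.Loc.Germ
import Fermat.Agent.SS.Top.Spec

/-!
# Program S (S34), the concrete side : from germs to `SsGeo`

`SsGermAll N 𝔸 E t` : at every maximal ideal `𝔫 ∋ ϖ` WITH RESIDUE FIELD `A / ϖ` (`SsResRational`) of the
chart ring `s18tInt (𝔸 ∩ E) t` there is a
smooth or a crossing germ, invariant under the image `ssInertiaE E N 𝔸` of the inertia group.

`ssgeo_of_germs` : `transc`, `fin`, `inertial`, `k2` and germs on both charts give `SsGeo N 𝔸 E t`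
(the fields `loc0`, `locInf` come from `ssnf_locAt_of_germ`; the hypothesis `hbase` of that theorem
holds because the inertia group preserves `𝔸`).
-/

set_option autoImplicit false
set_option linter.unusedSectionVars false
set_option linter.unusedVariables false
set_option linter.style.haveILetI false
set_option synthInstance.maxHeartbeats 400000

noncomputable section

namespace Fermat.Agent.SS

open ModularCurve AlgebraicCurve IntermediateField Polynomial Fermat.Agent.S18

local notation "Qb" => AlgebraicClosure ℚ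

/-! ### residue field `A / ϖ` at a closed point carrying a rational place -/

section Abstract

universe u

variable {A : Type*} [CommRing A] [IsDomain A] [IsDiscreteValuationRing A] [CharZero A]
variable {L : Type*} [Field L] [Algebra A L] [IsFractionRing A L]
variable {F : Type u} [Field F] [Algebra A F] [Algebra L F] [IsScalarTower A L F]
variable {ϖ : A}

/-- the closed point `𝔫` of the chart `t` has residue field `A / ϖ` : every element of `P` is
congruent to a constant modulo `𝔫`. -/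
def SsResRational (t : F) (𝔫 : Ideal ↥(s18tInt A t)) : Prop :=
  ∀ x : ↥(s18tInt A t), ∃ a : A, ∃ p ∈ 𝔫, (x : F) = algebraMap A F a + (p : F)

/-- a closed point at which a rational place is centred has residue field `A / ϖ`. -/
theorem ssgl_res_of_place {t : F} {𝔫 : Ideal ↥(s18tInt A t)} [𝔫.IsPrime] (hϖ : Irreducible ϖ)
    (hϖ𝔫 : sskPi ϖ t ∈ 𝔫) (R : Place L F) (hRr : SsRational R) (hRc : SsCentredAt t 𝔫 R) :
    SsResRational t 𝔫 := by
  have hR := ssl_point_of_place hϖ hϖ𝔫 R hRr hRc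
  intro x
  have hx : (x : F) ∈ ssLocRing t 𝔫 := ssl_int_le_locRing t 𝔫 x.2
  set a := sslEv hR ⟨x, hx⟩ with ha
  have hspec := sslEv_spec hR (⟨x, hx⟩ : ↥(ssLocRing t 𝔫))
  refine ⟨a, ⟨(x : F) - algebraMap A F a,
    Subring.sub_mem _ x.2 (s18tc_algebraMap_mem_int t a)⟩, ?_, by simp⟩
  apply hRc.2
  show (x : F) - algebraMap A F a ∈ R.toValuationSubring.nonunits
  rw [ValuationSubring.mem_nonunits_iff]
  exact hspec

end Abstract

variable (N : ℕ) [NeZero N] (A : ValuationSubring Qb) (E : IntermediateField ℚ Qb) [Normal ℚ E]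

/-- the inertia group preserves `𝔸 ∩ E` -/
theorem ssgl_restrict_mem {σ : Qb ≃ₐ[ℚ] Qb} (hσ : σ ∈ A.inertiaSubgroupIn ℚ)
    (a : ↥(s18dVal A E)) : σ.restrictNormal E (a : E) ∈ s18dVal A E := by
  have h := Fermat.Agent.S05.isInertial_of_mem_inertiaSubgroupIn A σ hσ
  show algebraMap E Qb (σ.restrictNormal E (a : E)) ∈ A
  rw [AlgEquiv.restrictNormal_commutes]
  exact (h.mem_iff _).mpr a.2

/-- the hypothesis `hbase` of `ssnf_locAt_of_germ` for the image of inertia -/
theorem ssgl_hbase [IsDiscreteValuationRing ↥(s18dVal A E)] [CharZero ↥(s18dVal A E)]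
    (γ : SemilinearAut E (modularFunctionFieldFullC E N)) (hγ : γ ∈ ssInertiaE E N A)
    (a : ↥(s18dVal A E)) :
    ∃ a' : ↥(s18dVal A E),
      γ • algebraMap ↥(s18dVal A E) (modularFunctionFieldFullC E N) a =
        algebraMap ↥(s18dVal A E) (modularFunctionFieldFullC E N) a' := by
  obtain ⟨σ, hσ, rfl⟩ := hγ
  refine ⟨⟨σ.restrictNormal E (a : E), ssgl_restrict_mem A E hσ a⟩, ?_⟩
  rw [IsScalarTower.algebraMap_apply ↥(s18dVal A E) E (modularFunctionFieldFullC E N),
    IsScalarTower.algebraMap_apply ↥(s18dVal A E) E (modularFunctionFieldFullC E N),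
    SemilinearAut.smul_algebraMap]
  rfl

/-- germs at all closed points of the chart `t` over `ϖ` WITH RESIDUE FIELD `A / ϖ`
(`SsResRational`; the other closed points carry no rational place and do not matter). -/
def SsGermAll [IsDiscreteValuationRing ↥(s18dVal A E)] [CharZero ↥(s18dVal A E)]
    (t : modularFunctionFieldFullC E N) : Prop :=
  ∀ ϖ : ↥(s18dVal A E), Irreducible ϖ →
    ∀ 𝔫 : Ideal ↥(s18tInt ↥(s18dVal A E) t), 𝔫.IsMaximal → sskPi ϖ t ∈ 𝔫 →
      SsResRational t 𝔫 →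
      SsGermSmooth ϖ t (ssInertiaE E N A) 𝔫 ∨ SsGermCross ϖ t (ssInertiaE E N A) 𝔫

/-- THE CONCRETE SIDE from its four inputs : coordinate, (C1), (C2) and germs on both charts. -/
theorem ssgeo_of_germs [IsDiscreteValuationRing ↥(s18dVal A E)] [CharZero ↥(s18dVal A E)]
    (t : modularFunctionFieldFullC E N) (transc : Transcendental E t)
    (fin : FiniteDimensional E⟮t⟯ (modularFunctionFieldFullC E N))
    (inertial : ∀ ϖ : ↥(s18dVal A E), Irreducible ϖ → ∀ γ ∈ ssInertiaE E N A,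
      SsInertial ϖ t γ ∧ SsInertial ϖ t⁻¹ γ)
    (k2 : ∀ (ϖ : ↥(s18dVal A E)) (hϖ : Irreducible ϖ), ∀ σ ∈ ssInertiaE E N A,
      ∀ τ ∈ ssInertiaE E N A, ∀ f : modularFunctionFieldFullC E N, f ≠ 0 →
        S18DvdGauss hϖ t (ssnfDD σ τ f - 1))
    (germ0 : SsGermAll N A E t) (germInf : SsGermAll N A E t⁻¹) :
    SsGeo N A E t := by
  haveI := fin
  have transc' : Transcendental E t⁻¹ := by
    intro h
    apply transc
    have := h.inv
    rwa [inv_inv] at this
  haveI finInf : FiniteDimensional E⟮t⁻¹⟯ (modularFunctionFieldFullC E N) := by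
    have hEq : E⟮t⁻¹⟯ = E⟮t⟯ := by
      apply le_antisymm
      · rw [IntermediateField.adjoin_simple_le_iff]
        exact inv_mem (IntermediateField.mem_adjoin_simple_self E t)
      · rw [IntermediateField.adjoin_simple_le_iff]
        have := inv_mem (IntermediateField.mem_adjoin_simple_self E t⁻¹)
        rwa [inv_inv] at this
    rw [hEq]
    exact fin
  refine ⟨transc, fin, inertial, k2, ?_, ?_⟩
  · intro ϖ hϖ σ hσ τ hτ 𝔫 h𝔫 hϖ𝔫 R hRr hRc
    haveI := h𝔫.isPrime
    exact ssnf_locAt_of_germ hϖ t transc (ssInertiaE E N A)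
      (fun γ hγ => (inertial ϖ hϖ γ hγ).1) (fun γ hγ a => ssgl_hbase N A E γ hγ a)
      σ τ hσ hτ 𝔫 h𝔫 hϖ𝔫 (germ0 ϖ hϖ 𝔫 h𝔫 hϖ𝔫 (ssgl_res_of_place hϖ hϖ𝔫 R hRr hRc)) R hRr hRc
  · intro ϖ hϖ σ hσ τ hτ 𝔫 h𝔫 hϖ𝔫 R hRr hRc
    haveI := h𝔫.isPrime
    exact ssnf_locAt_of_germ hϖ t⁻¹ transc' (ssInertiaE E N A)
      (fun γ hγ => (inertial ϖ hϖ γ hγ).2) (fun γ hγ a => ssgl_hbase N A E γ hγ a)
      σ τ hσ hτ 𝔫 h𝔫 hϖ𝔫 (germInf ϖ hϖ 𝔫 h𝔫 hϖ𝔫 (ssgl_res_of_place hϖ hϖ𝔫 R hRr hRc)) R hRr hRc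

end Fermat.Agent.SS
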