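import Mathlib
import Fermat.Agent.SS.Geo.Loc
import Fermat.Agent.SS.Geo.ChartInv

/-!
# Program S (S34), the concrete side : from germs to `SsGeo`, refined

`ssgeo_of_germs'` : as `ssgeo_of_germs`, but in the chart `t⁻¹` germs are only asked at the closed
points containing `t⁻¹` (`SsGermCusp`); the other closed points of the chart `t⁻¹` come from the
chart `t` by `ssgl_locAt_inv`.
-/

set_option autoImplicit false
set_option linter.unusedSectionVars false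
set_option linter.unusedVariables false
set_option linter.style.haveILetI false
set_option synthInstance.maxHeartbeats 400000

noncomputable section

namespace Fermat.Agent.SS

open ModularCurve AlgebraicCurve IntermediateField Polynomial Fermat.Agent.S18

local notation "Qb" => AlgebraicClosure ℚ

variable (N : ℕ) [NeZero N] (A : ValuationSubring Qb) (E : IntermediateField ℚ Qb) [Normal ℚ E]

/-- germs at the closed points of the chart `t⁻¹` over `ϖ` CONTAINING `t⁻¹`, with residue field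
`A / ϖ`. -/
def SsGermCusp [IsDiscreteValuationRing ↥(s18dVal A E)] [CharZero ↥(s18dVal A E)]
    (t : modularFunctionFieldFullC E N) : Prop :=
  ∀ ϖ : ↥(s18dVal A E), Irreducible ϖ →
    ∀ 𝔫 : Ideal ↥(s18tInt ↥(s18dVal A E) t⁻¹), 𝔫.IsMaximal → sskPi ϖ t⁻¹ ∈ 𝔫 →
      ssglTinv t ∈ 𝔫 → SsResRational t⁻¹ 𝔫 →
      SsGermSmooth ϖ t⁻¹ (ssInertiaE E N A) 𝔫 ∨ SsGermCross ϖ t⁻¹ (ssInertiaE E N A) 𝔫

theorem ssgl_cusp_of_all [IsDiscreteValuationRing ↥(s18dVal A E)] [CharZero ↥(s18dVal A E)]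
    (t : modularFunctionFieldFullC E N) (h : SsGermAll N A E t⁻¹) : SsGermCusp N A E t :=
  fun ϖ hϖ 𝔫 h𝔫 hϖ𝔫 _ hres => h ϖ hϖ 𝔫 h𝔫 hϖ𝔫 hres

/-- THE CONCRETE SIDE, refined : coordinate, (C1), (C2), germs on the chart `t` and germs at the
closed points `∋ t⁻¹` of the chart `t⁻¹`. -/
theorem ssgeo_of_germs' [IsDiscreteValuationRing ↥(s18dVal A E)] [CharZero ↥(s18dVal A E)]
    (t : modularFunctionFieldFullC E N) (transc : Transcendental E t)
    (fin : FiniteDimensional E⟮t⟯ (modularFunctionFieldFullC E N))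
    (inertial : ∀ ϖ : ↥(s18dVal A E), Irreducible ϖ → ∀ γ ∈ ssInertiaE E N A,
      SsInertial ϖ t γ ∧ SsInertial ϖ t⁻¹ γ)
    (k2 : ∀ (ϖ : ↥(s18dVal A E)) (hϖ : Irreducible ϖ), ∀ σ ∈ ssInertiaE E N A,
      ∀ τ ∈ ssInertiaE E N A, ∀ f : modularFunctionFieldFullC E N, f ≠ 0 →
        S18DvdGauss hϖ t (ssnfDD σ τ f - 1))
    (germ0 : SsGermAll N A E t) (germInf : SsGermCusp N A E t) :
    SsGeo N A E t := by
  haveI := fin
  have ht0 : t ≠ 0 := by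
    rintro rfl
    exact transc (isAlgebraic_zero)
  have transc' : Transcendental E t⁻¹ := by
    intro h
    apply transc
    have := h.inv
    rwa [inv_inv] at this
  haveI finInf : FiniteDimensional E⟮t⁻¹⟯ (modularFunctionFieldFullC E N) := by
    have hEq : E⟮t⁻¹⟯ = E⟮t⟯ := by
      apply le_antisymm
      · rw [IntermediateField.adjoin_simple_le_iff]
        exact inv_mem (IntermediateField.mem_adjoin_simple_self E t)
      · rw [IntermediateField.adjoin_simple_le_iff]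
        have := inv_mem (IntermediateField.mem_adjoin_simple_self E t⁻¹)
        rwa [inv_inv] at this
    rw [hEq]
    exact fin
  have loc0 : ∀ ϖ : ↥(s18dVal A E), Irreducible ϖ → ∀ σ ∈ ssInertiaE E N A,
      ∀ τ ∈ ssInertiaE E N A, ∀ 𝔫 : Ideal ↥(s18tInt ↥(s18dVal A E) t), 𝔫.IsMaximal →
      sskPi ϖ t ∈ 𝔫 → SsLocAt t σ τ 𝔫 := by
    intro ϖ hϖ σ hσ τ hτ 𝔫 h𝔫 hϖ𝔫 R hRr hRc
    haveI := h𝔫.isPrime
    exact ssnf_locAt_of_germ hϖ t transc (ssInertiaE E N A)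
      (fun γ hγ => (inertial ϖ hϖ γ hγ).1) (fun γ hγ a => ssgl_hbase N A E γ hγ a)
      σ τ hσ hτ 𝔫 h𝔫 hϖ𝔫 (germ0 ϖ hϖ 𝔫 h𝔫 hϖ𝔫 (ssgl_res_of_place hϖ hϖ𝔫 R hRr hRc)) R hRr hRc
  refine ⟨transc, fin, inertial, k2, loc0, ?_⟩
  intro ϖ hϖ σ hσ τ hτ 𝔫 h𝔫 hϖ𝔫
  by_cases hcusp : ssglTinv t ∈ 𝔫
  · intro R hRr hRc
    haveI := h𝔫.isPrime
    exact ssnf_locAt_of_germ hϖ t⁻¹ transc' (ssInertiaE E N A)
      (fun γ hγ => (inertial ϖ hϖ γ hγ).2) (fun γ hγ a => ssgl_hbase N A E γ hγ a)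
      σ τ hσ hτ 𝔫 h𝔫 hϖ𝔫
      (germInf ϖ hϖ 𝔫 h𝔫 hϖ𝔫 hcusp (ssgl_res_of_place hϖ hϖ𝔫 R hRr hRc)) R hRr hRc
  · exact ssgl_locAt_inv (ϖ := ϖ) t ht0 σ τ (loc0 ϖ hϖ σ hσ τ hτ) 𝔫 h𝔫 hϖ𝔫 hcusp

end Fermat.Agent.SS
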