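import Mathlib
import Fermat.Agent.SS.Dict.Place
import Fermat.Agent.G.Red.InstSmall

/-!
# Program S, concrete side, `q ∈ {2, 3}` : the chart coordinate `h_a`

For `a ∈ {2, 3}`, `a ∣ N` : the Hauptmodul `h_a` of `Γ₀(a)` as an element `ssgH E N a` of the `E`-form
`F_E(N)`; it is a separating generator (`ssg_isSepGen_h`), so
`Transcendental E (ssgH …)` and `FiniteDimensional E⟮ssgH …⟯ F_E(N)` (the fields `transc`, `fin` of
`SsGeo` for `t = h_a`).  Also `ssg_isSepGen_j` for the coordinate `j` (all `N`).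
-/

set_option autoImplicit false
set_option linter.unusedSectionVars false
set_option linter.unusedVariables false
set_option linter.style.haveILetI false
set_option synthInstance.maxHeartbeats 400000

noncomputable section

namespace Fermat.Agent.SS

open ModularCurve AlgebraicCurve IntermediateField Fermat.Agent.S18 Fermat.Agent.S24
  Fermat.Agent.G

variable (E : IntermediateField ℚ (AlgebraicClosure ℚ)) (N : ℕ) [NeZero N]

/-- `j` is a separating generator of the `E`-form -/
theorem ssg_isSepGen_j : IsSepGen E (ssdJ E N) := by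
  haveI := ssd_finiteDimensional_j E N
  refine ⟨ssd_transcendental_j E N, inferInstance, ?_⟩
  haveI : CharZero E⟮ssdJ E N⟯ :=
    charZero_of_injective_algebraMap (algebraMap ℚ E⟮ssdJ E N⟯).injective
  exact Algebra.IsAlgebraic.isSeparable_of_perfectField

/-- the Hauptmodul `h_a` of `Γ₀(a)`, `a ∈ {2,3}`, `a ∣ N`, in the `E`-form `F_E(N)` -/
def ssgH (a : ℕ) [NeZero a] (ha : a = 2 ∨ a = 3) (haN : a ∣ N) : modularFunctionFieldFullC E N :=
  ⟨s18hq a (s18hExp a) E, by
    have h := grdis_mem_h a ha N haN E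
    rwa [grdis_grdSer_hq] at h⟩

@[simp]
theorem coe_ssgH (a : ℕ) [NeZero a] (ha : a = 2 ∨ a = 3) (haN : a ∣ N) :
    ((ssgH E N a ha haN : modularFunctionFieldFullC E N) : LaurentSeries E)
      = s18hq a (s18hExp a) E := rfl

/-- `h_a` is a separating generator of the `E`-form -/
theorem ssg_isSepGen_h (a : ℕ) [NeZero a] (ha : a = 2 ∨ a = 3) (haN : a ∣ N) :
    IsSepGen E (ssgH E N a ha haN) :=
  grdis_sep_h (modularFunctionFieldFullC E N) a ha (jqModC_mem_full E N) (ssgH E N a ha haN).2
    (ssg_isSepGen_j E N)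

theorem ssg_transcendental_h (a : ℕ) [NeZero a] (ha : a = 2 ∨ a = 3) (haN : a ∣ N) :
    Transcendental E (ssgH E N a ha haN) :=
  (ssg_isSepGen_h E N a ha haN).transcendental

theorem ssg_finiteDimensional_h (a : ℕ) [NeZero a] (ha : a = 2 ∨ a = 3) (haN : a ∣ N) :
    FiniteDimensional E⟮ssgH E N a ha haN⟯ (modularFunctionFieldFullC E N) :=
  (ssg_isSepGen_h E N a ha haN).finite

end Fermat.Agent.SS
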