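import Mathlib
import Fermat.Agent.SS.Geo.K2Main
import Fermat.Agent.SS.Geo.Loc2
import Fermat.Agent.SS.Geo.SmallCoord
import Fermat.Agent.S18.H.Coord
import Fermat.Agent.S18.H.Ident
import Fermat.Agent.S18.Core.Spec

/-!
# Program S (S34), the concrete side for the chart coordinate `t = h_a` at level `M q`,
`q ∈ {2, 3}`, `a = 5 - q`, `a ∣ M`

`ssgk_inertial_k2_h` : the fields `inertial`, `k2` of `SsGeo (M q) 𝔸 E h_a`;
`ssgeo_h_of_germs` : `SsGeo (M q) 𝔸 E h_a` from germs on both charts.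
-/

set_option autoImplicit false
set_option linter.unusedSectionVars false
set_option linter.unusedVariables false
set_option linter.style.haveILetI false
set_option synthInstance.maxHeartbeats 400000

noncomputable section

namespace Fermat.Agent.SS

open Polynomial ModularCurve AlgebraicCurve IntermediateField IsLocalRing Fermat.Agent.S18

local notation "Qb" => AlgebraicClosure ℚ

variable {q : ℕ} [Fact q.Prime] [NeZero q] (𝔸 : ValuationSubring Qb)
  (E : IntermediateField ℚ Qb) [Normal ℚ E]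
  [IsDiscreteValuationRing ↥(s18dVal 𝔸 E)] [CharZero ↥(s18dVal 𝔸 E)]
variable (M : ℕ) [NeZero M] (a : ℕ) [NeZero a] (ha : a = 2 ∨ a = 3) (haM : a ∣ M)

/-- `h_a` at level `M q` is the image of `h_a` at level `M`. -/
theorem ssgk_incl_h :
    IntermediateField.inclusion (ssvmm_le E M q) (ssgH E M a ha haM) =
      ssgH E (M * q) a ha (Dvd.dvd.mul_right haM q) :=
  Subtype.ext rfl

set_option maxHeartbeats 1000000 in
/-- (C1) + (C2) for `t = h_a` at level `M q`. -/
theorem ssgk_inertial_k2_h (hA : 𝔸.LiesOverPrime q) (hqM : ¬ q ∣ M) :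
    (∀ ϖ : ↥(s18dVal 𝔸 E), Irreducible ϖ → ∀ γ ∈ ssInertiaE E (M * q) 𝔸,
      SsInertial ϖ (ssgH E (M * q) a ha (Dvd.dvd.mul_right haM q)) γ ∧
        SsInertial ϖ (ssgH E (M * q) a ha (Dvd.dvd.mul_right haM q))⁻¹ γ) ∧
    (∀ (ϖ : ↥(s18dVal 𝔸 E)) (hϖ : Irreducible ϖ), ∀ σ ∈ ssInertiaE E (M * q) 𝔸,
      ∀ τ ∈ ssInertiaE E (M * q) 𝔸, ∀ f : modularFunctionFieldFullC E (M * q), f ≠ 0 →
        S18DvdGauss hϖ (ssgH E (M * q) a ha (Dvd.dvd.mul_right haM q)) (ssnfDD σ τ f - 1)) := by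
  have htr : Transcendental E
      (IntermediateField.inclusion (ssvmm_le E M q) (ssgH E M a ha haM)) := by
    rw [ssgk_incl_h]
    exact ssg_transcendental_h E (M * q) a ha _
  haveI hfd : FiniteDimensional
      E⟮IntermediateField.inclusion (ssvmm_le E M q) (ssgH E M a ha haM)⟯
      (modularFunctionFieldFullC E (M * q)) := by
    rw [ssgk_incl_h]
    exact ssg_finiteDimensional_h E (M * q) a ha _
  have h := ssgk_inertial_k2 𝔸 E M hA hqM (ssgH E M a ha haM)
    (s18hq a (s18hExp a) ↥(s18dVal 𝔸 E))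
    (s18hk_pole _ a (s18hExp a) (ssgH E M a ha haM).2)
    (fun ϖ hϖ => s18hk_coord hϖ a ha M s18h_identity_two s18h_identity_three
      (ssgH E M a ha haM).2 (s18v_coord_j hϖ (s18d_natCast_mem 𝔸 E hA) M hqM))
    (fun s => s18hk_coeffMap_hq _ a (s18hExp a)) htr
  rw [ssgk_incl_h] at h
  exact h

/-- `SsGeo (M q) 𝔸 E h_a` from germs on both charts. -/
theorem ssgeo_h_of_germs (hA : 𝔸.LiesOverPrime q) (hqM : ¬ q ∣ M)
    (germ0 : SsGermAll (M * q) 𝔸 E (ssgH E (M * q) a ha (Dvd.dvd.mul_right haM q)))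
    (germInf : SsGermCusp (M * q) 𝔸 E (ssgH E (M * q) a ha (Dvd.dvd.mul_right haM q))) :
    SsGeo (M * q) 𝔸 E (ssgH E (M * q) a ha (Dvd.dvd.mul_right haM q)) :=
  ssgeo_of_germs' (M * q) 𝔸 E _ (ssg_transcendental_h E (M * q) a ha _)
    (ssg_finiteDimensional_h E (M * q) a ha _) (ssgk_inertial_k2_h 𝔸 E M a ha haM hA hqM).1
    (ssgk_inertial_k2_h 𝔸 E M a ha haM hA hqM).2 germ0 germInf

end Fermat.Agent.SS
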