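import Mathlib
import Fermat.Agent.SS.Geo.K2Main
import Fermat.Agent.SS.Geo.Loc2
import Fermat.Agent.SS.Dict.Place

/-!
# Program S (S34), the concrete side for the chart coordinate `t = j` at level `M q`

`ssgk_inertial_k2_j` : the fields `inertial`, `k2` of `SsGeo (M q) 𝔸 E j` (every prime `q ∤ M`);
`ssgeo_j_of_germs` : `SsGeo (M q) 𝔸 E j` from germs on the finite chart and at the cusps.
-/

set_option autoImplicit false
set_option linter.unusedSectionVars false
set_option linter.unusedVariables false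
set_option linter.style.haveILetI false
set_option synthInstance.maxHeartbeats 400000

noncomputable section

namespace Fermat.Agent.SS

open Polynomial ModularCurve AlgebraicCurve IntermediateField IsLocalRing Fermat.Agent.S18

local notation "Qb" => AlgebraicClosure ℚ

variable {q : ℕ} [Fact q.Prime] [NeZero q] (𝔸 : ValuationSubring Qb)
  (E : IntermediateField ℚ Qb) [Normal ℚ E]
  [IsDiscreteValuationRing ↥(s18dVal 𝔸 E)] [CharZero ↥(s18dVal 𝔸 E)]
variable (M : ℕ) [NeZero M]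

/-- `j` at level `M q` is the image of `j` at level `M`. -/
theorem ssgk_incl_j :
    IntermediateField.inclusion (ssvmm_le E M q) (ssdJ E M) = ssdJ E (M * q) :=
  Subtype.ext rfl

set_option maxHeartbeats 1000000 in
/-- (C1) + (C2) for `t = j` at level `M q`. -/
theorem ssgk_inertial_k2_j (hA : 𝔸.LiesOverPrime q) (hqM : ¬ q ∣ M) :
    (∀ ϖ : ↥(s18dVal 𝔸 E), Irreducible ϖ → ∀ γ ∈ ssInertiaE E (M * q) 𝔸,
      SsInertial ϖ (ssdJ E (M * q)) γ ∧ SsInertial ϖ (ssdJ E (M * q))⁻¹ γ) ∧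
    (∀ (ϖ : ↥(s18dVal 𝔸 E)) (hϖ : Irreducible ϖ), ∀ σ ∈ ssInertiaE E (M * q) 𝔸,
      ∀ τ ∈ ssInertiaE E (M * q) 𝔸, ∀ f : modularFunctionFieldFullC E (M * q), f ≠ 0 →
        S18DvdGauss hϖ (ssdJ E (M * q)) (ssnfDD σ τ f - 1)) := by
  have htr : Transcendental E (IntermediateField.inclusion (ssvmm_le E M q) (ssdJ E M)) := by
    rw [ssgk_incl_j]
    exact ssd_transcendental_j E (M * q)
  haveI hfd : FiniteDimensional E⟮IntermediateField.inclusion (ssvmm_le E M q) (ssdJ E M)⟯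
      (modularFunctionFieldFullC E (M * q)) := by
    rw [ssgk_incl_j]
    exact ssd_finiteDimensional_j E (M * q)
  have h := ssgk_inertial_k2 𝔸 E M hA hqM (ssdJ E M) (jqModC ↥(s18dVal 𝔸 E)) (s18v_pole_j M)
    (fun ϖ hϖ => s18v_coord_j' hϖ (s18d_natCast_mem 𝔸 E hA) M hqM)
    (fun s => coeffMap_jqModC _) htr
  rw [ssgk_incl_j] at h
  exact h

/-- `SsGeo (M q) 𝔸 E j` from germs on the finite chart and at the cusps. -/
theorem ssgeo_j_of_germs (hA : 𝔸.LiesOverPrime q) (hqM : ¬ q ∣ M)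
    (germ0 : SsGermAll (M * q) 𝔸 E (ssdJ E (M * q)))
    (germInf : SsGermCusp (M * q) 𝔸 E (ssdJ E (M * q))) :
    SsGeo (M * q) 𝔸 E (ssdJ E (M * q)) :=
  ssgeo_of_germs' (M * q) 𝔸 E (ssdJ E (M * q)) (ssd_transcendental_j E (M * q))
    (ssd_finiteDimensional_j E (M * q)) (ssgk_inertial_k2_j 𝔸 E M hA hqM).1
    (ssgk_inertial_k2_j 𝔸 E M hA hqM).2 germ0 germInf

end Fermat.Agent.SS
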