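import Mathlib
import Fermat.Agent.SS.Geo.K2J
import Fermat.Agent.SS.Geo.K2H
import Fermat.Agent.SS.Top.Final

/-!
# Program S (S34) : THE GERM TARGET and the reduction of S34 to it

`SsGermJ`, `SsGermH` : what (GERM) has to deliver : smooth / crossing germs at the closed points
(with residue field `A / ϖ`) of the finite chart and at the cusps of the chart at infinity
(`SsGermCusp`, `SS/Geo/Loc2.lean`) of the coordinate `j` (`q ≥ 5`) resp. `h_a`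
(`q ∈ {2,3}`, `a = 5 - q`, `a ∣ M`) at level `M q`, `q ∤ M`, for all big enough number fields.
`ss_geoAll_of_germs : SsGermJ → SsGermH → SsGeoAll`.
-/

set_option autoImplicit false
set_option linter.unusedSectionVars false
set_option linter.unusedVariables false
set_option linter.style.haveILetI false
set_option synthInstance.maxHeartbeats 400000

noncomputable section

namespace Fermat.Agent.SS

open Polynomial ModularCurve AlgebraicCurve IntermediateField IsLocalRing Fermat.Agent.S18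

local notation "Qb" => AlgebraicClosure ℚ

/-- (GERM) for the coordinate `j`, `q ≥ 5`. -/
def SsGermJ : Prop :=
  ∀ (M : ℕ) [NeZero M] (q : ℕ) [Fact q.Prime] [NeZero q], ¬ q ∣ M → 5 ≤ q →
    ∀ 𝔸 : ValuationSubring Qb, 𝔸.LiesOverPrime q →
      ∃ (E₁ : IntermediateField ℚ Qb) (_ : FiniteDimensional ℚ E₁),
        ∀ (E : IntermediateField ℚ Qb) [FiniteDimensional ℚ E] [Normal ℚ E]
          [IsDiscreteValuationRing ↥(s18dVal 𝔸 E)] [CharZero ↥(s18dVal 𝔸 E)], E₁ ≤ E →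
          SsGermAll (M * q) 𝔸 E (ssdJ E (M * q)) ∧ SsGermCusp (M * q) 𝔸 E (ssdJ E (M * q))

/-- (GERM) for the coordinate `h_a`, `q ∈ {2, 3}`, `a = 5 - q`, `a ∣ M`. -/
def SsGermH : Prop :=
  ∀ (M : ℕ) [NeZero M] (q : ℕ) [Fact q.Prime] [NeZero q] (a : ℕ) [NeZero a]
    (ha : a = 2 ∨ a = 3) (haM : a ∣ M), ((q = 2 ∧ a = 3) ∨ (q = 3 ∧ a = 2)) → ¬ q ∣ M →
    ∀ 𝔸 : ValuationSubring Qb, 𝔸.LiesOverPrime q →
      ∃ (E₁ : IntermediateField ℚ Qb) (_ : FiniteDimensional ℚ E₁),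
        ∀ (E : IntermediateField ℚ Qb) [FiniteDimensional ℚ E] [Normal ℚ E]
          [IsDiscreteValuationRing ↥(s18dVal 𝔸 E)] [CharZero ↥(s18dVal 𝔸 E)], E₁ ≤ E →
          SsGermAll (M * q) 𝔸 E (ssgH E (M * q) a ha (Dvd.dvd.mul_right haM q)) ∧
            SsGermCusp (M * q) 𝔸 E (ssgH E (M * q) a ha (Dvd.dvd.mul_right haM q))

/-- `q ‖ N` : `N = M q` with `q ∤ M`. -/
theorem ssgf_exists_level {N q : ℕ} (hN : N ≠ 0) (hqN : q ∣ N) (hq2 : ¬ q ^ 2 ∣ N) :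
    ∃ M : ℕ, N = M * q ∧ M ≠ 0 ∧ ¬ q ∣ M := by
  obtain ⟨M, rfl⟩ := hqN
  refine ⟨M, Nat.mul_comm q M, fun h => hN (by rw [h, mul_zero]), fun h => hq2 ?_⟩
  rw [pow_two]
  exact Nat.mul_dvd_mul_left q h

/-- **S34 is reduced to (GERM).** -/
theorem ss_geoAll_of_germs (hJ : SsGermJ) (hH : SsGermH) : SsGeoAll := by
  intro N _ q hq hqN hq2 hcase
  obtain ⟨M, rfl, hM0, hqM⟩ := ssgf_exists_level (NeZero.ne N) hqN hq2
  haveI : NeZero M := ⟨hM0⟩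
  haveI : Fact q.Prime := ⟨hq⟩
  haveI : NeZero q := ⟨hq.ne_zero⟩
  intro 𝔸 h𝔸
  rcases hcase with h5 | ⟨rfl, h3⟩ | ⟨rfl, h2⟩
  · obtain ⟨E₁, hE₁, hE⟩ := hJ M q hqM h5 𝔸 h𝔸
    refine ⟨E₁, hE₁, fun E _ _ _ _ hle => ⟨ssdJ E (M * q), ?_⟩⟩
    obtain ⟨g0, gInf⟩ := hE E hle
    exact ssgeo_j_of_germs 𝔸 E M h𝔸 hqM g0 gInf
  · have h3M : 3 ∣ M := (Nat.Coprime.dvd_mul_right (by norm_num : Nat.Coprime 3 2)).mp h3
    obtain ⟨E₁, hE₁, hE⟩ := hH M 2 3 (Or.inr rfl) h3M (Or.inl ⟨rfl, rfl⟩) hqM 𝔸 h𝔸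
    refine ⟨E₁, hE₁, fun E _ _ _ _ hle => ⟨ssgH E (M * 2) 3 (Or.inr rfl) (Dvd.dvd.mul_right h3M 2), ?_⟩⟩
    obtain ⟨g0, gInf⟩ := hE E hle
    exact ssgeo_h_of_germs 𝔸 E M 3 (Or.inr rfl) h3M h𝔸 hqM g0 gInf
  · have h2M : 2 ∣ M := (Nat.Coprime.dvd_mul_right (by norm_num : Nat.Coprime 2 3)).mp h2
    obtain ⟨E₁, hE₁, hE⟩ := hH M 3 2 (Or.inl rfl) h2M (Or.inr ⟨rfl, rfl⟩) hqM 𝔸 h𝔸
    refine ⟨E₁, hE₁, fun E _ _ _ _ hle => ⟨ssgH E (M * 3) 2 (Or.inl rfl) (Dvd.dvd.mul_right h2M 3), ?_⟩⟩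
    obtain ⟨g0, gInf⟩ := hE E hle
    exact ssgeo_h_of_germs 𝔸 E M 2 (Or.inl rfl) h2M h𝔸 hqM g0 gInf

end Fermat.Agent.SS
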