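import Mathlib
import Fermat.Agent.S18.T.Spec

/-!
# Program S (S34), the concrete side : NO CUSP IS A CROSSING (leaf L8 of SS-GERM)

Chart at infinity : `s = t⁻¹`, `Q = s18tInt A s`, `y` the generator of the level-`q M` field over the
level-`M` field (`y = j(qτ)` for `t = j`), with its equation `∑ ξᵢ(t) yⁱ = 0`, `ξᵢ = aeval t (p i)`,
`p (q+1) = 1`, and the two congruences `y ≡ t^q mod 𝔪_{V₁}`, `y^q ≡ t mod 𝔪_{V₂}`.

The plane model `(u - s^q)(s - u^q) ≡ 0` (`u = y⁻¹`) HAS a crossing at `s = u = 0`; the two cusps are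
separated in the normalisation `Q` by the function `f = s^q y = y / t^q` :

* `ssgc_sep_mem` : `f ∈ Q` as soon as `deg p i ≤ q (q + 1 - i)` for `i ≤ q`
  (for `i = q` this is `deg ξ_q ≤ q`, the trace; for `i < q` it follows from `deg ξᵢ ≤ q + 1`);
* `ssgc_no_cross` : `f ≡ 1 mod 𝔭₁`, `f^q ≡ s^(q²-1) mod 𝔭₂`, hence a prime `𝔫' ∋ s` of `Q` cannot
  contain both `𝔭₁ = Q ∩ 𝔪_{V₁}` and `𝔭₂ = Q ∩ 𝔪_{V₂}`.
-/

set_option autoImplicit false
set_option linter.unusedSectionVars false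
set_option linter.unusedVariables false
set_option linter.style.haveILetI false

noncomputable section

namespace Fermat.Agent.SS

open Polynomial Fermat.Agent.S18

variable {A : Type*} [CommRing A]
variable {F : Type*} [Field F] [Algebra A F]

/-- `aeval s⁻¹ p * s^N = aeval s (reflect N p)` for `deg p ≤ N`. -/
theorem ssgc_aeval_inv_mul_pow (s : F) (hs : s ≠ 0) (N : ℕ) (p : A[X]) (hp : p.natDegree ≤ N) :
    aeval s⁻¹ p * s ^ N = aeval s (reflect N p) := by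
  haveI : Invertible (s⁻¹) := invertibleOfNonzero (inv_ne_zero hs)
  have h := eval₂_reflect_mul_pow (algebraMap A F) (s⁻¹) N p hp
  rw [invOf_eq_inv, inv_inv] at h
  rw [aeval_def, aeval_def, ← h, mul_assoc, ← mul_pow, inv_mul_cancel₀ hs, one_pow, mul_one]

/-- `f = s^q y` is integral over `A[s]`. -/
theorem ssgc_sep_mem (s y : F) (hs : s ≠ 0) (q : ℕ) (p : ℕ → A[X])
    (hrel : ∑ i ∈ Finset.range (q + 2), aeval s⁻¹ (p i) * y ^ i = 0)
    (hmonic : p (q + 1) = 1)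
    (hdeg : ∀ i, i ≤ q → (p i).natDegree ≤ q * (q + 1 - i)) :
    s ^ q * y ∈ s18tInt A s := by
  -- the coefficients
  set r : ℕ → A[X] := fun i => reflect (q * (q + 1 - i)) (p i) with hr
  have hdeg' : ∀ i, i ≤ q + 1 → (p i).natDegree ≤ q * (q + 1 - i) := by
    intro i hi
    rcases Nat.lt_or_ge i (q + 1) with h | h
    · exact hdeg i (by omega)
    · have : i = q + 1 := by omega
      rw [this, hmonic, natDegree_one]
      exact Nat.zero_le _
  have hterm : ∀ i, i ≤ q + 1 →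
      aeval s⁻¹ (p i) * y ^ i * s ^ (q * (q + 1)) = aeval s (r i) * (s ^ q * y) ^ i := by
    intro i hi
    have e : q * (q + 1) = q * (q + 1 - i) + q * i := by
      rw [← Nat.mul_add]
      congr 1
      omega
    rw [hr]
    simp only
    rw [← ssgc_aeval_inv_mul_pow s hs _ (p i) (hdeg' i hi), e, pow_add, mul_pow, ← pow_mul]
    ring
  have hsum : ∑ i ∈ Finset.range (q + 2), aeval s (r i) * (s ^ q * y) ^ i = 0 := by
    have h0 : (∑ i ∈ Finset.range (q + 2), aeval s⁻¹ (p i) * y ^ i) * s ^ (q * (q + 1)) = 0 := by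
      rw [hrel, zero_mul]
    rw [Finset.sum_mul] at h0
    rw [← h0]
    refine Finset.sum_congr rfl fun i hi => ?_
    rw [Finset.mem_range] at hi
    exact (hterm i (by omega)).symm
  have hr1 : aeval s (r (q + 1)) = 1 := by
    rw [hr]
    simp only
    rw [hmonic, Nat.sub_self, Nat.mul_zero]
    have : reflect 0 (1 : A[X]) = 1 := by
      rw [← C_1, reflect_C, pow_zero, mul_one]
    rw [this, map_one]
  -- the monic polynomial over `A[s]`
  let b : ℕ → ↥(s18tChart A s) := fun i => ⟨aeval s (r i), s18tb_aeval_mem_chart s (r i)⟩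
  let low : (↥(s18tChart A s))[X] := ∑ i ∈ Finset.range (q + 1), C (b i) * X ^ i
  have hlow : low.degree < ((q + 1 : ℕ) : WithBot ℕ) := by
    refine lt_of_le_of_lt (degree_sum_le _ _) ?_
    rw [Finset.sup_lt_iff (WithBot.bot_lt_coe _)]
    intro i hi
    rw [Finset.mem_range] at hi
    refine lt_of_le_of_lt (degree_C_mul_X_pow_le i (b i)) ?_
    exact_mod_cast hi
  refine ⟨X ^ (q + 1) + low, monic_X_pow_add hlow, ?_⟩
  rw [eval₂_add, eval₂_X_pow, eval₂_finsetSum]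
  rw [Finset.sum_range_succ, hr1, one_mul] at hsum
  rw [add_comm]
  rw [← hsum]
  congr 1
  refine Finset.sum_congr rfl fun i _ => ?_
  rw [eval₂_mul, eval₂_C, eval₂_X_pow]
  rfl

variable [IsDomain A] [IsDiscreteValuationRing A] [CharZero A]

/-- NO CUSP IS A CROSSING : a prime `𝔫' ∋ s` of `Q = s18tInt A s` does not contain both
`Q ∩ 𝔪_{V₁}` and `Q ∩ 𝔪_{V₂}`. -/
theorem ssgc_no_cross (s y : F) (q : ℕ) (hq : 2 ≤ q) (hs0 : s ≠ 0) (V₁ V₂ : ValuationSubring F)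
    (hQ₁ : ∀ x ∈ s18tInt A s, x ∈ V₁) (hQ₂ : ∀ x ∈ s18tInt A s, x ∈ V₂)
    (hf : s ^ q * y ∈ s18tInt A s)
    (h₁ : y - (s⁻¹) ^ q ∈ V₁.nonunits) (h₂ : y ^ q - s⁻¹ ∈ V₂.nonunits)
    (𝔫' : Ideal ↥(s18tInt A s)) [h𝔫' : 𝔫'.IsPrime]
    (hs : (⟨s, s18tc_self_mem_int s⟩ : ↥(s18tInt A s)) ∈ 𝔫')
    (h𝔭₁ : ∀ x : ↥(s18tInt A s), (x : F) ∈ V₁.nonunits → x ∈ 𝔫')
    (h𝔭₂ : ∀ x : ↥(s18tInt A s), (x : F) ∈ V₂.nonunits → x ∈ 𝔫') : False := by
  have hsQ : s ∈ s18tInt A s := s18tc_self_mem_int s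
  set S : ↥(s18tInt A s) := ⟨s, hsQ⟩ with hS
  set f : ↥(s18tInt A s) := ⟨s ^ q * y, hf⟩ with hfdef
  have nu_mul : ∀ (V : ValuationSubring F) {a b : F}, a ∈ V → b ∈ V.nonunits →
      a * b ∈ V.nonunits := by
    intro V a b ha hb
    rw [V.mem_nonunits_iff] at hb ⊢
    rw [map_mul]
    have ha' := (V.valuation_le_one_iff a).mpr ha
    calc V.valuation a * V.valuation b ≤ 1 * V.valuation b := mul_le_mul_left ha' _
      _ = V.valuation b := one_mul _
      _ < 1 := hb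
  -- `f - 1 ∈ 𝔭₁`
  have h1 : f - 1 ∈ 𝔫' := by
    apply h𝔭₁
    have e : ((f - 1 : ↥(s18tInt A s)) : F) = s ^ q * (y - (s⁻¹) ^ q) := by
      push_cast
      rw [hfdef, mul_sub, ← mul_pow, mul_inv_cancel₀ hs0, one_pow]
    rw [e]
    exact nu_mul V₁ (pow_mem (hQ₁ s hsQ) q) h₁
  -- `f^q - s^(q²-1) ∈ 𝔭₂`
  have h2 : f ^ q - S ^ (q * q - 1) ∈ 𝔫' := by
    apply h𝔭₂
    have hqq : q * q = (q * q - 1) + 1 := by
      have : 1 ≤ q * q := Nat.one_le_iff_ne_zero.mpr (by positivity)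
      omega
    have e : ((f ^ q - S ^ (q * q - 1) : ↥(s18tInt A s)) : F) = s ^ (q * q) * (y ^ q - s⁻¹) := by
      push_cast
      rw [hfdef, hS]
      simp only
      rw [mul_sub, mul_pow, ← pow_mul]
      congr 1
      conv_rhs => rw [hqq, pow_succ, mul_assoc, mul_inv_cancel₀ hs0, mul_one]
    rw [e]
    exact nu_mul V₂ (pow_mem (hQ₂ s hsQ) _) h₂
  have hSpow : S ^ (q * q - 1) ∈ 𝔫' := by
    apply 𝔫'.pow_mem_of_mem hs
    have : 4 ≤ q * q := by nlinarith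
    omega
  have hfq : f ^ q ∈ 𝔫' := by
    have := 𝔫'.add_mem h2 hSpow
    rwa [sub_add_cancel] at this
  have hf𝔫 : f ∈ 𝔫' := h𝔫'.mem_of_pow_mem q hfq
  have h1' : (1 : ↥(s18tInt A s)) ∈ 𝔫' := by
    have := 𝔫'.sub_mem hf𝔫 h1
    rwa [sub_sub_cancel] at this
  exact h𝔫'.ne_top ((Ideal.eq_top_iff_one _).mpr h1')

end Fermat.Agent.SS
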