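import Mathlib
import Fermat.Agent.S18.T.Spec
import Fermat.Agent.SS.Loc.Ring
import Fermat.Agent.SS.Geo.CuspSep

/-!
# Program S (S34), the concrete side : THE CUSPS ARE REGULAR FOR `y⁻¹` (leaf L7 of SS-GERM, abstract half)

Chart at infinity : `s = t⁻¹`, `Q = s18tInt A s`, `y` the generator of the level-`q M` field over the
level-`M` field, with its equation `∑ ξᵢ(t) yⁱ = 0`, `ξᵢ = aeval t (p i) = aeval s⁻¹ (p i)`,
`p (q+1) = 1`, `deg p i ≤ q + 1`, and the coefficient of `t^(q+1)` in `ξ₀` a unit of `A`.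

Multiplying by `s^(q+1) y^(-(q+1))` : `u = y⁻¹` is a root of `∑ cᵢ(s) U^(q+1-i)`,
`cᵢ(s) = s^(q+1) ξᵢ(1/s) = aeval s (reflect (q+1) (p i)) ∈ A[s]`, and `c₀(s)` has a unit constant term,
so `c₀(s) ∉ 𝔫'` for every prime `𝔫' ∋ s` of `Q`. Hence `c₀(s) u` is integral over `A[s]`, i.e.
`u ∈ Q_𝔫' = ssLocRing s 𝔫'`; as `Q_𝔫'` is integrally closed in `F`, the whole integral closure of
`A[y⁻¹]` in `F` lies in `Q_𝔫'`.

* `ssgcl_locRing_intClosed` : `ssLocRing t 𝔫` is integrally closed in `F`;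
* `ssgcl_lead_not_mem`      : `c₀(s) ∉ 𝔫'`;
* `ssgcl_lead_mul_inv_mem`  : `c₀(s) y⁻¹ ∈ Q`;
* `ssgcl_inv_mem_locRing`   : `y⁻¹ ∈ ssLocRing s 𝔫'`;
* `ssgcl_adjoin_le_locRing` : `A[y⁻¹] ⊆ ssLocRing s 𝔫'`;
* `ssgcl_integral_mem_locRing` : the integral closure of `A[y⁻¹]` in `F` lies in `ssLocRing s 𝔫'`.
-/

set_option autoImplicit false
set_option linter.unusedSectionVars false
set_option linter.unusedVariables false
set_option linter.style.haveILetI false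

noncomputable section

namespace Fermat.Agent.SS

open Polynomial Fermat.Agent.S18

universe u

variable {A : Type*} [CommRing A] [IsDomain A] [IsDiscreteValuationRing A] [CharZero A]
variable {F : Type u} [Field F] [Algebra A F]

/-- `P_𝔫 = ssLocRing t 𝔫` is integrally closed in `F`. -/
theorem ssgcl_locRing_intClosed (t : F) (𝔫 : Ideal ↥(s18tInt A t)) [h𝔫 : 𝔫.IsPrime] {x : F}
    (hx : IsIntegral ↥(ssLocRing t 𝔫) x) : x ∈ ssLocRing t 𝔫 := by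
  haveI : IsScalarTower ↥(s18tInt A t) ↥(ssLocRing t 𝔫) F :=
    IsScalarTower.of_algebraMap_eq (fun _ => rfl)
  obtain ⟨⟨m, hm⟩, hmx⟩ :=
    IsIntegral.exists_multiple_integral_of_isLocalization 𝔫.primeCompl x hx
  refine ⟨m, hm, ?_⟩
  have hmx' : IsIntegral ↥(s18tInt A t) ((m : F) * x) := hmx
  rw [mem_s18tInt]
  have hz' : IsIntegral ↥(integralClosure ↥(s18tChart A t) F) ((m : F) * x) := hmx'
  exact isIntegral_trans (A := ↥(integralClosure ↥(s18tChart A t) F)) _ hz'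

/-- constants lie in `Q` -/
theorem ssgcl_algebraMap_mem_int (s : F) (a : A) : algebraMap A F a ∈ s18tInt A s :=
  s18ta_chart_le_int s (Subalgebra.algebraMap_mem _ a)

/-- values of polynomials at `s` lie in `Q` -/
theorem ssgcl_aeval_mem_int (s : F) (g : A[X]) : aeval s g ∈ s18tInt A s :=
  s18ta_chart_le_int s (s18tb_aeval_mem_chart s g)

/-- a polynomial in `s` with unit constant term lies in no prime `𝔫' ∋ s` of `Q` -/
theorem ssgcl_lead_not_mem (s : F) (g : A[X]) (hg : IsUnit (g.coeff 0))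
    (𝔫' : Ideal ↥(s18tInt A s)) [h𝔫' : 𝔫'.IsPrime]
    (hs : (⟨s, s18tc_self_mem_int s⟩ : ↥(s18tInt A s)) ∈ 𝔫') :
    (⟨aeval s g, ssgcl_aeval_mem_int s g⟩ : ↥(s18tInt A s)) ∉ 𝔫' := by
  intro hmem
  obtain ⟨a', ha'⟩ := hg.exists_right_inv
  set S : ↥(s18tInt A s) := ⟨s, s18tc_self_mem_int s⟩ with hS
  set G : ↥(s18tInt A s) := ⟨aeval s g.divX, ssgcl_aeval_mem_int s g.divX⟩ with hG
  set a₀ : ↥(s18tInt A s) := ⟨algebraMap A F (g.coeff 0), ssgcl_algebraMap_mem_int s _⟩ with ha₀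
  set b₀ : ↥(s18tInt A s) := ⟨algebraMap A F a', ssgcl_algebraMap_mem_int s _⟩ with hb₀
  have hdecomp : (⟨aeval s g, ssgcl_aeval_mem_int s g⟩ : ↥(s18tInt A s)) = S * G + a₀ := by
    apply Subtype.ext
    push_cast
    rw [hS, hG, ha₀]
    simp only
    conv_lhs => rw [← X_mul_divX_add g]
    rw [map_add, map_mul, aeval_X, aeval_C]
  have h1 : a₀ ∈ 𝔫' := by
    have : a₀ = (⟨aeval s g, ssgcl_aeval_mem_int s g⟩ : ↥(s18tInt A s)) - S * G := by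
      rw [hdecomp]; ring
    rw [this]
    exact 𝔫'.sub_mem hmem (𝔫'.mul_mem_right _ hs)
  have h2 : a₀ * b₀ = 1 := by
    apply Subtype.ext
    push_cast
    rw [ha₀, hb₀]
    simp only
    rw [← map_mul, ha', map_one]
  have h3 : (1 : ↥(s18tInt A s)) ∈ 𝔫' := by
    rw [← h2]
    exact 𝔫'.mul_mem_right _ h1
  exact h𝔫'.ne_top ((Ideal.eq_top_iff_one _).mpr h3)

/-- the equation of `y` over `A[t]`, cleared of denominators : `∑ cᵢ(s) yⁱ = 0`,
`cᵢ(s) = aeval s (reflect (q+1) (p i))` -/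
theorem ssgcl_rel_reflect (s y : F) (hs0 : s ≠ 0) (q : ℕ) (p : ℕ → A[X])
    (hrel : ∑ i ∈ Finset.range (q + 2), aeval s⁻¹ (p i) * y ^ i = 0)
    (hdeg : ∀ i, (p i).natDegree ≤ q + 1) :
    ∑ i ∈ Finset.range (q + 2), aeval s (reflect (q + 1) (p i)) * y ^ i = 0 := by
  have h0 : (∑ i ∈ Finset.range (q + 2), aeval s⁻¹ (p i) * y ^ i) * s ^ (q + 1) = 0 := by
    rw [hrel, zero_mul]
  rw [Finset.sum_mul] at h0
  rw [← h0]
  refine Finset.sum_congr rfl fun i _ => ?_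
  rw [← ssgc_aeval_inv_mul_pow s hs0 (q + 1) (p i) (hdeg i)]
  ring

/-- `c₀(s) y⁻¹` is integral over `A[s]` -/
theorem ssgcl_lead_mul_inv_mem (s y : F) (hs0 : s ≠ 0) (q : ℕ) (p : ℕ → A[X])
    (hrel : ∑ i ∈ Finset.range (q + 2), aeval s⁻¹ (p i) * y ^ i = 0)
    (hdeg : ∀ i, (p i).natDegree ≤ q + 1) :
    aeval s (reflect (q + 1) (p 0)) * y⁻¹ ∈ s18tInt A s := by
  rcases eq_or_ne y 0 with hy | hy
  · rw [hy, inv_zero, mul_zero]
    exact Subring.zero_mem _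
  set r : ℕ → A[X] := fun i => reflect (q + 1) (p i) with hr
  have hsum : ∑ i ∈ Finset.range (q + 2), aeval s (r i) * y ^ i = 0 :=
    ssgcl_rel_reflect s y hs0 q p hrel hdeg
  set u : F := y⁻¹ with hu
  set c₀ : F := aeval s (r 0) with hc₀
  have key : ∀ (k i : ℕ) (a b : F),
      b ^ (k + i) * u ^ (k + i + 1) * (a * y ^ (i + 1)) = a * b ^ i * (b * u) ^ k := by
    intro k i a b
    have h1 : u ^ (i + 1) * y ^ (i + 1) = 1 := by
      rw [← mul_pow, hu, inv_mul_cancel₀ hy, one_pow]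
    calc b ^ (k + i) * u ^ (k + i + 1) * (a * y ^ (i + 1))
        = a * b ^ i * (b * u) ^ k * (u ^ (i + 1) * y ^ (i + 1)) := by ring
      _ = a * b ^ i * (b * u) ^ k := by rw [h1, mul_one]
  -- the monic equation of `c₀ u`
  have heq : (c₀ * u) ^ (q + 1)
      + ∑ i ∈ Finset.range (q + 1), aeval s (r (i + 1)) * c₀ ^ i * (c₀ * u) ^ (q - i) = 0 := by
    have h0 : c₀ ^ q * u ^ (q + 1) * (∑ i ∈ Finset.range (q + 2), aeval s (r i) * y ^ i) = 0 := by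
      rw [hsum, mul_zero]
    rw [Finset.sum_range_succ', mul_add, Finset.mul_sum, ← hc₀] at h0
    rw [← h0, add_comm]
    congr 1
    · refine Finset.sum_congr rfl fun i hi => ?_
      rw [Finset.mem_range] at hi
      obtain ⟨k, hk⟩ : ∃ k, q = k + i := ⟨q - i, by omega⟩
      have hk' : q - i = k := by omega
      rw [hk', hk]
      exact (key k i _ _).symm
    · rw [pow_zero, mul_one, mul_pow]
      ring
  -- the monic polynomial over `A[s]`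
  let b : ℕ → ↥(s18tChart A s) := fun i => ⟨aeval s (r i), s18tb_aeval_mem_chart s (r i)⟩
  let low : (↥(s18tChart A s))[X] :=
    ∑ i ∈ Finset.range (q + 1), C (b (i + 1) * b 0 ^ i) * X ^ (q - i)
  have hlow : low.degree < ((q + 1 : ℕ) : WithBot ℕ) := by
    refine lt_of_le_of_lt (degree_sum_le _ _) ?_
    rw [Finset.sup_lt_iff (WithBot.bot_lt_coe _)]
    intro i hi
    rw [Finset.mem_range] at hi
    refine lt_of_le_of_lt (degree_C_mul_X_pow_le (q - i) _) ?_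
    exact_mod_cast (by omega : q - i < q + 1)
  rw [mem_s18tInt]
  refine ⟨X ^ (q + 1) + low, monic_X_pow_add hlow, ?_⟩
  rw [eval₂_add, eval₂_X_pow, eval₂_finsetSum]
  rw [← heq]
  congr 1
  refine Finset.sum_congr rfl fun i _ => ?_
  rw [eval₂_mul, eval₂_C, eval₂_X_pow]
  rfl

/-- `y⁻¹ ∈ Q_𝔫'` for every prime `𝔫' ∋ s` of `Q` -/
theorem ssgcl_inv_mem_locRing (s y : F) (hs0 : s ≠ 0) (q : ℕ) (p : ℕ → A[X])
    (hrel : ∑ i ∈ Finset.range (q + 2), aeval s⁻¹ (p i) * y ^ i = 0)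
    (hdeg : ∀ i, (p i).natDegree ≤ q + 1)
    (hlead : IsUnit ((p 0).coeff (q + 1)))
    (𝔫' : Ideal ↥(s18tInt A s)) [h𝔫' : 𝔫'.IsPrime]
    (hs : (⟨s, s18tc_self_mem_int s⟩ : ↥(s18tInt A s)) ∈ 𝔫') :
    y⁻¹ ∈ ssLocRing s 𝔫' := by
  have hc : IsUnit ((reflect (q + 1) (p 0)).coeff 0) := by
    rw [coeff_reflect, revAt_le (Nat.zero_le _), Nat.sub_zero]
    exact hlead
  exact ⟨⟨aeval s (reflect (q + 1) (p 0)), ssgcl_aeval_mem_int s _⟩,
    ssgcl_lead_not_mem s _ hc 𝔫' hs, ssgcl_lead_mul_inv_mem s y hs0 q p hrel hdeg⟩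

/-- `A[y⁻¹] ⊆ Q_𝔫'` -/
theorem ssgcl_adjoin_le_locRing (s y : F) (hs0 : s ≠ 0) (q : ℕ) (p : ℕ → A[X])
    (hrel : ∑ i ∈ Finset.range (q + 2), aeval s⁻¹ (p i) * y ^ i = 0)
    (hdeg : ∀ i, (p i).natDegree ≤ q + 1)
    (hlead : IsUnit ((p 0).coeff (q + 1)))
    (𝔫' : Ideal ↥(s18tInt A s)) [h𝔫' : 𝔫'.IsPrime]
    (hs : (⟨s, s18tc_self_mem_int s⟩ : ↥(s18tInt A s)) ∈ 𝔫') :
    ∀ z ∈ Algebra.adjoin A {y⁻¹}, z ∈ ssLocRing s 𝔫' := by
  intro z hz
  induction hz using Algebra.adjoin_induction with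
  | mem x hx =>
    rw [Set.mem_singleton_iff] at hx
    rw [hx]
    exact ssgcl_inv_mem_locRing s y hs0 q p hrel hdeg hlead 𝔫' hs
  | algebraMap a => exact ssl_int_le_locRing s 𝔫' (ssgcl_algebraMap_mem_int s a)
  | add x y _ _ hx hy => exact Subring.add_mem _ hx hy
  | mul x y _ _ hx hy => exact Subring.mul_mem _ hx hy

/-- L7 (abstract half) : THE INTEGRAL CLOSURE OF `A[y⁻¹]` IN `F` LIES IN `Q_𝔫'` for every prime
`𝔫' ∋ s` of `Q = s18tInt A s`. -/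
theorem ssgcl_integral_mem_locRing (s y : F) (hs0 : s ≠ 0) (q : ℕ) (p : ℕ → A[X])
    (hrel : ∑ i ∈ Finset.range (q + 2), aeval s⁻¹ (p i) * y ^ i = 0)
    (hmonic : p (q + 1) = 1)
    (hdeg : ∀ i, (p i).natDegree ≤ q + 1)
    (hlead : IsUnit ((p 0).coeff (q + 1)))
    (𝔫' : Ideal ↥(s18tInt A s)) [h𝔫' : 𝔫'.IsPrime]
    (hs : (⟨s, s18tc_self_mem_int s⟩ : ↥(s18tInt A s)) ∈ 𝔫') :
    ∀ x : F, IsIntegral (Algebra.adjoin A {y⁻¹}) x → x ∈ ssLocRing s 𝔫' := by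
  intro x hx
  have hle := ssgcl_adjoin_le_locRing s y hs0 q p hrel hdeg hlead 𝔫' hs
  let f : ↥(Algebra.adjoin A {y⁻¹}) →+* ↥(ssLocRing s 𝔫') :=
    (Algebra.adjoin A {y⁻¹}).val.toRingHom.codRestrict (ssLocRing s 𝔫') (fun z => hle z z.2)
  have hf : (algebraMap ↥(ssLocRing s 𝔫') F).comp f = algebraMap ↥(Algebra.adjoin A {y⁻¹}) F :=
    RingHom.ext fun _ => rfl
  apply ssgcl_locRing_intClosed s 𝔫'
  obtain ⟨P, hP, hPx⟩ := hx
  refine ⟨P.map f, hP.map f, ?_⟩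
  rw [eval₂_map, hf]
  exact hPx

end Fermat.Agent.SS
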