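import Mathlib
import Fermat.Agent.SS.Geo.Fixed
import Fermat.Agent.SS.Geo.SmallCoord
import Fermat.Agent.SS.Germ.Levels
import Fermat.Agent.S18.RH.Small

/-!
# Program S (S34), the concrete side : THE TWO LEVELS `(𝔸 ∩ E₀, F_{E₀}(N)) → (𝔸 ∩ E, F_E(N))`
as an instance of `SsgaLevel` (`SS/Germ/Levels.lean`)

`E₀ = ssgfE0 𝔸 E` the inertia field (`SS/Geo/Fixed.lean`).

* `ssgfIotaLvl 𝔸 E (h : M ∣ N) : F_{E₀}(M) →+* F_E(N)` : coefficientwise base change + change of level;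
* `ssgf_level` : the generic instance of `SsgaLevel` for a coordinate `t₀` with `ι t₀ = t`;
* `ssgf_level_j`, `ssgf_level_h` : the instances for `t = j` and `t = h_a`, `SsgaLevel.inv` for `t⁻¹`;
* `ssgf_fixed_lvl`, `ssgf_hres'` : the hypotheses `hG`, `hres` of `ssga_germCross_of_levels`.
-/

set_option autoImplicit false
set_option linter.unusedSectionVars false
set_option linter.unusedVariables false
set_option synthInstance.maxHeartbeats 400000

noncomputable section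

namespace Fermat.Agent.SS

open ModularCurve AlgebraicCurve IntermediateField Fermat.Agent.S18

local notation "Qb" => AlgebraicClosure ℚ

variable (A : ValuationSubring Qb) (E : IntermediateField ℚ Qb)

/-! ### change of level -/

section Lvl

variable {M N : ℕ} [NeZero M] [NeZero N]

/-- coefficientwise base change and change of level `F_{E₀}(M) → F_E(N)`, `M ∣ N`. -/
def ssgfIotaLvl (h : M ∣ N) :
    modularFunctionFieldFullC (ssgfE0 A E) M →+* modularFunctionFieldFullC E N where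
  toFun x := ⟨coeffMap (ssgfIncl A E) (x : LaurentSeries (ssgfE0 A E)),
    full_degeneracyC_le E h (s18dd_coeffMap_mem_full _ M x.2)⟩
  map_one' := Subtype.ext (map_one (coeffMap (ssgfIncl A E)))
  map_mul' x y := Subtype.ext (map_mul (coeffMap (ssgfIncl A E)) _ _)
  map_zero' := Subtype.ext (map_zero (coeffMap (ssgfIncl A E)))
  map_add' x y := Subtype.ext (map_add (coeffMap (ssgfIncl A E)) _ _)

@[simp]
theorem ssgfIotaLvl_coe (h : M ∣ N) (x : modularFunctionFieldFullC (ssgfE0 A E) M) :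
    ((ssgfIotaLvl A E h x : modularFunctionFieldFullC E N) : LaurentSeries E) =
      coeffMap (ssgfIncl A E) (x : LaurentSeries (ssgfE0 A E)) := rfl

theorem ssgfIotaLvl_injective (h : M ∣ N) : Function.Injective (ssgfIotaLvl A E h) :=
  (ssgfIotaLvl A E h).injective

theorem ssgfIotaLvl_refl (x : modularFunctionFieldFullC (ssgfE0 A E) N) :
    ssgfIotaLvl A E (dvd_refl N) x = ssgfIota A E N x := rfl

/-- `ι_{M,N}` is compatible with the structure maps of `𝔸 ∩ E₀`, `𝔸 ∩ E`. -/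
theorem ssgfIotaLvl_compat (h : M ∣ N) (a : ↥(s18dVal A (ssgfE0 A E))) :
    ssgfIotaLvl A E h (algebraMap ↥(s18dVal A (ssgfE0 A E))
        (modularFunctionFieldFullC (ssgfE0 A E) M) a) =
      algebraMap ↥(s18dVal A E) (modularFunctionFieldFullC E N) (ssgfJ A E a) := by
  rw [IsScalarTower.algebraMap_apply ↥(s18dVal A (ssgfE0 A E)) (ssgfE0 A E)
      (modularFunctionFieldFullC (ssgfE0 A E) M),
    IsScalarTower.algebraMap_apply ↥(s18dVal A E) E (modularFunctionFieldFullC E N)]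
  apply Subtype.ext
  show coeffMap (ssgfIncl A E) (algebraMap (ssgfE0 A E) (LaurentSeries (ssgfE0 A E))
      (algebraMap ↥(s18dVal A (ssgfE0 A E)) (ssgfE0 A E) a)) =
    algebraMap E (LaurentSeries E) (algebraMap ↥(s18dVal A E) E (ssgfJ A E a))
  rw [s18dd_coeffMap_algebraMap]
  rfl

/-- the image of `F_{E₀}(M)` in `F_E(N)` is fixed pointwise by the inertia group. -/
theorem ssgf_fixed_lvl [Normal ℚ E] (h : M ∣ N)
    (γ : SemilinearAut E (modularFunctionFieldFullC E N)) (hγ : γ ∈ ssInertiaE E N A)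
    (x : modularFunctionFieldFullC (ssgfE0 A E) M) :
    γ • ssgfIotaLvl A E h x = ssgfIotaLvl A E h x := by
  obtain ⟨σ, hσ, rfl⟩ := hγ
  apply Subtype.ext
  show coeffMap ((σ.restrictNormal E : E ≃ₐ[ℚ] E) : E →+* E)
      (coeffMap (ssgfIncl A E) (x : LaurentSeries (ssgfE0 A E))) =
    coeffMap (ssgfIncl A E) (x : LaurentSeries (ssgfE0 A E))
  rw [coeffMap_coeffMap]
  exact coeffMap_congr (RingHom.ext fun c => ssgf_restrict_incl A E hσ c) _

end Lvl

/-! ### the instance of `SsgaLevel` -/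

section Level

variable (N : ℕ) [NeZero N]
variable [FiniteDimensional ℚ E]
variable [IsDiscreteValuationRing ↥(s18dVal A E)] [CharZero ↥(s18dVal A E)]
variable [IsDiscreteValuationRing ↥(s18dVal A (ssgfE0 A E))] [CharZero ↥(s18dVal A (ssgfE0 A E))]

/-- THE TWO LEVELS for a coordinate `t₀ ∈ F_{E₀}(N)` with image `t ∈ F_E(N)`. -/
theorem ssgf_level {ϖ : ↥(s18dVal A E)} (hϖ : Irreducible ϖ)
    {ϖ₀ : ↥(s18dVal A (ssgfE0 A E))} (hϖ₀ : ¬ IsUnit ϖ₀)
    (t₀ : modularFunctionFieldFullC (ssgfE0 A E) N) (t : modularFunctionFieldFullC E N)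
    (ht : ssgfIota A E N t₀ = t) :
    SsgaLevel (ssgfJ A E) (ssgfIota A E N) ϖ₀ ϖ t₀ t :=
  ⟨fun a => ssgfIota_compat A E N a, ht, ssgf_unif A E hϖ hϖ₀⟩

/-- the two levels for `t = j`. -/
theorem ssgf_level_j {ϖ : ↥(s18dVal A E)} (hϖ : Irreducible ϖ)
    {ϖ₀ : ↥(s18dVal A (ssgfE0 A E))} (hϖ₀ : ¬ IsUnit ϖ₀) :
    SsgaLevel (ssgfJ A E) (ssgfIota A E N) ϖ₀ ϖ
      (⟨jqModC (ssgfE0 A E), jqModC_mem_full (ssgfE0 A E) N⟩ :
        modularFunctionFieldFullC (ssgfE0 A E) N)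
      (⟨jqModC E, jqModC_mem_full E N⟩ : modularFunctionFieldFullC E N) :=
  ssgf_level A E N hϖ hϖ₀ _ _ (by
    apply Subtype.ext
    rw [ssgfIota_coe]
    exact coeffMap_jqModC (ssgfIncl A E))

/-- the two levels for `t = h_a`, `a ∈ {2, 3}`, `a ∣ N`. -/
theorem ssgf_level_h {ϖ : ↥(s18dVal A E)} (hϖ : Irreducible ϖ)
    {ϖ₀ : ↥(s18dVal A (ssgfE0 A E))} (hϖ₀ : ¬ IsUnit ϖ₀)
    (a : ℕ) [NeZero a] (ha : a = 2 ∨ a = 3) (haN : a ∣ N) :
    SsgaLevel (ssgfJ A E) (ssgfIota A E N) ϖ₀ ϖ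
      (ssgH (ssgfE0 A E) N a ha haN) (ssgH E N a ha haN) :=
  ssgf_level A E N hϖ hϖ₀ _ _ (by
    apply Subtype.ext
    rw [ssgfIota_coe, coe_ssgH, coe_ssgH]
    exact s18rs_coeffMap_hq (ssgfIncl A E) a (s18hExp a))

end Level

/-- the two levels for `t⁻¹` (generic). -/
theorem SsgaLevel.inv {A₁ : Type*} [CommRing A₁] {F₁ : Type*} [Field F₁] [Algebra A₁ F₁]
    {A₂ : Type*} [CommRing A₂] {F₂ : Type*} [Field F₂] [Algebra A₂ F₂]
    {j : A₂ →+* A₁} {ι : F₂ →+* F₁} {ϖ₂ : A₂} {ϖ₁ : A₁} {t₂ : F₂} {t₁ : F₁}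
    (h : SsgaLevel j ι ϖ₂ ϖ₁ t₂ t₁) : SsgaLevel j ι ϖ₂ ϖ₁ t₂⁻¹ t₁⁻¹ :=
  ⟨h.compat, by rw [map_inv₀, h.coord], h.unif⟩

end Fermat.Agent.SS
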