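import Mathlib

/-!
# Program S (S34), the concrete side, `q ∈ {2, 3}` : THE NEWTON POLYGON OF THE MODULAR POLYNOMIAL
AND THE TYPE OF A CUSP (abstract part, Mathlib only)

`v` a valuation of a field `F`, `≤ 1` on the image of a ring `A`.

* `ssgn_val_aeval_le`, `ssgn_val_aeval_eq`, `ssgn_val_aeval_small` : the valuation of `p(x)`,
  `p ∈ A[X]`, for `v x ≥ 1`, `v x > 1` (unit leading coefficient), `v x < 1` (unit constant term);
* `SsgnModPoly A F j y q Φ` : `Φ ∈ A[X][Y]` is monic of degree `q + 1` in `Y`, `Φ(j, y) = 0`,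
  `deg_X Φ₀ = q + 1`, `deg_X Φ_q = q` (unit leading coefficients), `deg_X Φ_i ≤ q` for `1 ≤ i ≤ q`
  (the shape of the classical modular polynomial `Φ_q(j, j(qτ)) = 0`);
* `ssgn_newton` : if `v j > 1` then `v y = (v j)^q` or `(v y)^q = v j`;
* `ssgn_int_of_le` : if `v j ≤ 1` then `v y ≤ 1`;
* `ssgn_cusp_zero`, `ssgn_cusp_infty` : for a Hauptmodul `h` with `j h^a = R₁(h)`, `j_a h = R₂(h)`
  (`R₁, R₂` monic of degree `a + 1` with unit constant terms, `a ≠ q`) and the same relations for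
  `(j_q, j_{aq}, h_q)` : `v h < 1 → v h_q < 1` and `v h > 1 → v h_q > 1`;
* `ssgn_le_one`, `ssgn_inv_le_one` : `v h ≤ 1 → v h_q ≤ 1`, `v h⁻¹ ≤ 1 → v h_q⁻¹ ≤ 1`.
-/

set_option autoImplicit false
set_option linter.unusedSectionVars false
set_option linter.unusedVariables false

namespace Fermat.Agent.SS

open Polynomial

variable {A F Γ₀ : Type*} [CommRing A] [Field F] [Algebra A F] [LinearOrderedCommGroupWithZero Γ₀]
variable (v : Valuation F Γ₀)

/-! ### valuations of polynomial values -/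

theorem ssgn_val_aeval_le (hA : ∀ a : A, v (algebraMap A F a) ≤ 1) {x : F} (hx : 1 ≤ v x)
    (p : A[X]) {n : ℕ} (hn : p.natDegree ≤ n) : v (aeval x p) ≤ v x ^ n := by
  rw [aeval_eq_sum_range]
  refine v.map_sum_le fun i hi => ?_
  rw [Finset.mem_range] at hi
  rw [Algebra.smul_def, map_mul, map_pow]
  calc v (algebraMap A F (p.coeff i)) * v x ^ i ≤ 1 * v x ^ i :=
        mul_le_mul_left (hA _) _
    _ = v x ^ i := one_mul _
    _ ≤ v x ^ n := pow_le_pow_right₀ hx (by omega)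

theorem ssgn_val_aeval_le_one (hA : ∀ a : A, v (algebraMap A F a) ≤ 1) {x : F} (hx : v x ≤ 1)
    (p : A[X]) : v (aeval x p) ≤ 1 := by
  rw [aeval_eq_sum_range]
  refine v.map_sum_le fun i hi => ?_
  rw [Algebra.smul_def, map_mul, map_pow]
  calc v (algebraMap A F (p.coeff i)) * v x ^ i ≤ 1 * 1 :=
        mul_le_mul' (hA _) (pow_le_one₀ zero_le hx)
    _ = 1 := one_mul _

theorem ssgn_val_aeval_eq (hA : ∀ a : A, v (algebraMap A F a) ≤ 1) {x : F} (hx : 1 < v x)
    (p : A[X]) (hlc : v (algebraMap A F p.leadingCoeff) = 1) :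
    v (aeval x p) = v x ^ p.natDegree := by
  have hx0 : v x ≠ 0 := (lt_trans zero_lt_one hx).ne'
  rw [aeval_eq_sum_range, Finset.sum_range_succ]
  have htop : v (p.coeff p.natDegree • x ^ p.natDegree) = v x ^ p.natDegree := by
    rw [Algebra.smul_def, map_mul, map_pow]
    have : p.coeff p.natDegree = p.leadingCoeff := rfl
    rw [this, hlc, one_mul]
  have hlow : v (∑ i ∈ Finset.range p.natDegree, p.coeff i • x ^ i) < v x ^ p.natDegree := by
    refine v.map_sum_lt (pow_ne_zero _ hx0) fun i hi => ?_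
    rw [Finset.mem_range] at hi
    rw [Algebra.smul_def, map_mul, map_pow]
    calc v (algebraMap A F (p.coeff i)) * v x ^ i ≤ 1 * v x ^ i :=
          mul_le_mul_left (hA _) _
      _ = v x ^ i := one_mul _
      _ < v x ^ p.natDegree := pow_lt_pow_right₀ hx hi
  rw [← htop] at hlow
  rw [v.map_add_eq_of_lt_right hlow, htop]

theorem ssgn_val_aeval_small (hA : ∀ a : A, v (algebraMap A F a) ≤ 1) {x : F} (hx : v x < 1)
    (p : A[X]) (h0 : v (algebraMap A F (p.coeff 0)) = 1) : v (aeval x p) = 1 := by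
  have hdiv : aeval x p = algebraMap A F (p.coeff 0) + x * aeval x p.divX := by
    conv_lhs => rw [← p.divX_mul_X_add]
    rw [map_add, map_mul, aeval_X, aeval_C]
    ring
  have h1 : v (x * aeval x p.divX) < 1 := by
    rw [map_mul]
    calc v x * v (aeval x p.divX) ≤ v x * 1 :=
          mul_le_mul_right (ssgn_val_aeval_le_one v hA hx.le _) _
      _ = v x := mul_one _
      _ < 1 := hx
  rw [hdiv]
  rw [← h0] at h1
  rw [v.map_add_eq_of_lt_left h1, h0]

/-! ### the Newton polygon of the modular polynomial -/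

/-- the shape of the modular polynomial `Φ_q(X, Y)` : `Φ(j, y) = 0`. -/
structure SsgnModPoly (A F : Type*) [CommRing A] [Field F] [Algebra A F] (j y : F) (q : ℕ)
    (Φ : A[X][X]) : Prop where
  deg : Φ.natDegree = q + 1
  lead : Φ.coeff (q + 1) = 1
  root : Φ.eval₂ ((aeval j : A[X] →ₐ[A] F) : A[X] →+* F) y = 0
  mid : ∀ i, 1 ≤ i → i ≤ q → (Φ.coeff i).natDegree ≤ q
  deg0 : (Φ.coeff 0).natDegree = q + 1
  lc0 : IsUnit (Φ.coeff 0).leadingCoeff
  degq : (Φ.coeff q).natDegree = q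
  lcq : IsUnit (Φ.coeff q).leadingCoeff

section Newton

variable {j y : F} {q : ℕ} {Φ : A[X][X]}

/-- the expansion `Φ(j, y) = y^{q+1} + Φ_q(j) y^q + ∑_{1 ≤ i < q} Φ_i(j) y^i + Φ₀(j)`. -/
theorem SsgnModPoly.expand (h : SsgnModPoly A F j y q Φ) (hq : 1 ≤ q) :
    y ^ (q + 1) + aeval j (Φ.coeff q) * y ^ q +
      ∑ i ∈ Finset.Ico 1 q, aeval j (Φ.coeff i) * y ^ i + aeval j (Φ.coeff 0) = 0 := by
  have hroot := h.root
  rw [eval₂_eq_sum_range, h.deg, Finset.sum_range_succ, Finset.sum_range_succ,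
    Finset.range_eq_Ico, Finset.sum_eq_sum_Ico_succ_bot (by omega : 0 < q), h.lead] at hroot
  simp only [RingHom.coe_coe, map_one, one_mul, pow_zero, mul_one, zero_add] at hroot
  rw [← hroot]
  ring

theorem ssgn_unit_val (hA : ∀ a : A, v (algebraMap A F a) ≤ 1) {a : A} (ha : IsUnit a) :
    v (algebraMap A F a) = 1 := by
  obtain ⟨b, hb⟩ := ha.exists_right_inv
  have h1 : v (algebraMap A F a) * v (algebraMap A F b) = 1 := by
    rw [← map_mul, ← map_mul, hb, map_one, map_one]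
  refine le_antisymm (hA a) ?_
  calc (1 : Γ₀) = v (algebraMap A F a) * v (algebraMap A F b) := h1.symm
    _ ≤ v (algebraMap A F a) * 1 := mul_le_mul_right (hA b) _
    _ = v (algebraMap A F a) := mul_one _

/-- INTEGRALITY : if `v j ≤ 1` then `v y ≤ 1`. -/
theorem ssgn_int_of_le (hA : ∀ a : A, v (algebraMap A F a) ≤ 1) (h : SsgnModPoly A F j y q Φ)
    (hj : v j ≤ 1) : v y ≤ 1 := by
  by_contra hy
  rw [not_le] at hy
  have hy0 : v y ≠ 0 := (lt_trans zero_lt_one hy).ne'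
  have hroot := h.root
  rw [eval₂_eq_sum_range, h.deg, Finset.sum_range_succ, h.lead] at hroot
  simp only [RingHom.coe_coe, map_one, one_mul] at hroot
  have hlow : v (∑ i ∈ Finset.range (q + 1), aeval j (Φ.coeff i) * y ^ i) < v (y ^ (q + 1)) := by
    rw [map_pow]
    refine v.map_sum_lt (pow_ne_zero _ hy0) fun i hi => ?_
    rw [Finset.mem_range] at hi
    rw [map_mul, map_pow]
    calc v (aeval j (Φ.coeff i)) * v y ^ i ≤ 1 * v y ^ i :=
          mul_le_mul_left (ssgn_val_aeval_le_one v hA hj _) _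
      _ = v y ^ i := one_mul _
      _ < v y ^ (q + 1) := pow_lt_pow_right₀ hy hi
  have := v.map_add_eq_of_lt_right hlow
  rw [hroot, map_zero, map_pow] at this
  exact pow_ne_zero _ hy0 this.symm

/-- four terms with sum zero : no strictly dominant term. -/
theorem ssgn_dom4 {w x y z : F} (h : w + x + y + z = 0) (hx : v x < v w) (hy : v y < v w)
    (hz : v z < v w) : False := by
  have h1 : v (x + y + z) < v w := v.map_add_lt (v.map_add_lt hx hy) hz
  have h2 : w = -(x + y + z) := by linear_combination h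
  have h3 : v w = v (x + y + z) := by rw [h2, Valuation.map_neg]
  exact absurd h3 h1.ne'

/-- THE NEWTON POLYGON : if `v j > 1` then `v y = (v j)^q` or `(v y)^q = v j`. -/
theorem ssgn_newton (hA : ∀ a : A, v (algebraMap A F a) ≤ 1) (h : SsgnModPoly A F j y q Φ)
    (hq : 2 ≤ q) (hj : 1 < v j) : v y = v j ^ q ∨ v y ^ q = v j := by
  have hμ0 : v j ≠ 0 := (lt_trans zero_lt_one hj).ne'
  have hμpos : 0 < v j := lt_trans zero_lt_one hj
  have h0 : v (aeval j (Φ.coeff 0)) = v j ^ (q + 1) := by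
    rw [ssgn_val_aeval_eq v hA hj _ (ssgn_unit_val v hA h.lc0), h.deg0]
  have hqq : v (aeval j (Φ.coeff q)) = v j ^ q := by
    rw [ssgn_val_aeval_eq v hA hj _ (ssgn_unit_val v hA h.lcq), h.degq]
  have hmid : ∀ i, 1 ≤ i → i ≤ q → v (aeval j (Φ.coeff i)) ≤ v j ^ q := fun i h1 h2 =>
    ssgn_val_aeval_le v hA hj.le _ (h.mid i h1 h2)
  have hexp := h.expand (by omega)
  -- `v y > 1`
  have hν : 1 < v y := by
    by_contra hν
    rw [not_lt] at hν
    have h1 : v (y ^ (q + 1) + aeval j (Φ.coeff q) * y ^ q +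
        ∑ i ∈ Finset.Ico 1 q, aeval j (Φ.coeff i) * y ^ i) ≤ v j ^ q := by
      refine v.map_add_le (v.map_add_le ?_ ?_) (v.map_sum_le fun i hi => ?_)
      · rw [map_pow]
        calc v y ^ (q + 1) ≤ 1 := pow_le_one₀ zero_le hν
          _ ≤ v j ^ q := one_le_pow₀ hj.le
      · rw [map_mul, map_pow, hqq]
        calc v j ^ q * v y ^ q ≤ v j ^ q * 1 := mul_le_mul_right (pow_le_one₀ zero_le hν) _
          _ = v j ^ q := mul_one _
      · rw [Finset.mem_Ico] at hi
        rw [map_mul, map_pow]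
        calc v (aeval j (Φ.coeff i)) * v y ^ i ≤ v j ^ q * 1 :=
              mul_le_mul' (hmid i hi.1 hi.2.le) (pow_le_one₀ zero_le hν)
          _ = v j ^ q := mul_one _
    have h2 : v (y ^ (q + 1) + aeval j (Φ.coeff q) * y ^ q +
        ∑ i ∈ Finset.Ico 1 q, aeval j (Φ.coeff i) * y ^ i) < v (aeval j (Φ.coeff 0)) := by
      rw [h0]
      exact lt_of_le_of_lt h1 (pow_lt_pow_right₀ hj (by omega))
    have h3 := v.map_add_eq_of_lt_right h2
    rw [hexp, map_zero, h0] at h3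
    exact pow_ne_zero _ hμ0 h3.symm
  have hν0 : v y ≠ 0 := (lt_trans zero_lt_one hν).ne'
  have hνpos : 0 < v y := lt_trans zero_lt_one hν
  -- the four terms
  set T1 : F := y ^ (q + 1) with hT1
  set Tq : F := aeval j (Φ.coeff q) * y ^ q with hTq
  set S : F := ∑ i ∈ Finset.Ico 1 q, aeval j (Φ.coeff i) * y ^ i with hS
  set T0 : F := aeval j (Φ.coeff 0) with hT0
  have hvT1 : v T1 = v y ^ (q + 1) := by rw [hT1, map_pow]
  have hvTq : v Tq = v j ^ q * v y ^ q := by rw [hTq, map_mul, map_pow, hqq]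
  have hvT0 : v T0 = v j ^ (q + 1) := h0
  have hbpos : v j ^ q * v y ^ q ≠ 0 := mul_ne_zero (pow_ne_zero _ hμ0) (pow_ne_zero _ hν0)
  have hvS : v S < v Tq := by
    rw [hvTq]
    refine v.map_sum_lt hbpos fun i hi => ?_
    rw [Finset.mem_Ico] at hi
    rw [map_mul, map_pow]
    calc v (aeval j (Φ.coeff i)) * v y ^ i ≤ v j ^ q * v y ^ i :=
          mul_le_mul_left (hmid i hi.1 hi.2.le) _
      _ < v j ^ q * v y ^ q :=
          mul_lt_mul_of_pos_left (pow_lt_pow_right₀ hν hi.2) (pow_pos hμpos _)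
  by_contra hcon
  rw [not_or] at hcon
  obtain ⟨hc1, hc2⟩ := hcon
  -- `b ≠ c`, `a ≠ b`
  have hbc : v Tq ≠ v T1 := by
    rw [hvTq, hvT1, pow_succ, mul_comm (v y ^ q) (v y)]
    intro heq
    have := mul_right_cancel₀ (pow_ne_zero q hν0) heq
    exact hc1 this.symm
  have hab : v T0 ≠ v Tq := by
    rw [hvTq, hvT0, pow_succ]
    intro heq
    have := mul_left_cancel₀ (pow_ne_zero q hμ0) heq
    exact hc2 this.symm
  rcases lt_trichotomy (v T0) (v T1) with hac | hac | hac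
  · -- `a < c`
    rcases lt_or_gt_of_ne hbc with hlt | hgt
    · -- `b < c` : `T1` dominates
      refine ssgn_dom4 v (w := T1) (x := Tq) (y := S) (z := T0) hexp hlt (hvS.trans hlt) hac
    · -- `c < b`, so `a < b` : `Tq` dominates
      refine ssgn_dom4 v (w := Tq) (x := T1) (y := S) (z := T0) (by rw [← hexp]; ring) hgt hvS
        (hac.trans hgt)
  · -- `a = c` : `v j = v y`, then `b > a`
    have hμν : v j = v y := by
      rw [hvT0, hvT1] at hac
      exact (pow_left_strictMonoOn₀ (M₀ := Γ₀) (Nat.succ_ne_zero q)).injOn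
        (show v j ∈ {a : Γ₀ | 0 ≤ a} from hμpos.le) (show v y ∈ {a : Γ₀ | 0 ≤ a} from hνpos.le) hac
    have hgt : v T0 < v Tq := by
      rw [hvT0, hvTq, ← hμν, ← pow_add]
      exact pow_lt_pow_right₀ hj (by omega)
    refine ssgn_dom4 v (w := Tq) (x := T1) (y := S) (z := T0) (by rw [← hexp]; ring)
      (by rw [← hac]; exact hgt) hvS hgt
  · -- `c < a`
    rcases lt_or_gt_of_ne hab with hlt | hgt
    · -- `a < b` : `Tq` dominates
      refine ssgn_dom4 v (w := Tq) (x := T1) (y := S) (z := T0) (by rw [← hexp]; ring)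
        (hac.trans hlt) hvS hlt
    · -- `b < a` : `T0` dominates
      refine ssgn_dom4 v (w := T0) (x := T1) (y := Tq) (z := S) (by rw [← hexp]; ring) hac hgt
        (hvS.trans hgt)

end Newton

/-! ### the type of a cusp -/

/-- a Hauptmodul `h` of `Γ₀(a)` : `j h^a = R₁(h)`, `j_a h = R₂(h)` with `R₁, R₂` monic of degree
`a + 1` with unit constant terms. -/
structure SsgnHaupt (A F : Type*) [CommRing A] [Field F] [Algebra A F] (a : ℕ) (R₁ R₂ : A[X])
    (j ja h : F) : Prop where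
  monic₁ : R₁.Monic
  deg₁ : R₁.natDegree = a + 1
  unit₁ : IsUnit (R₁.coeff 0)
  monic₂ : R₂.Monic
  deg₂ : R₂.natDegree = a + 1
  unit₂ : IsUnit (R₂.coeff 0)
  id₁ : j * h ^ a = aeval h R₁
  id₂ : ja * h = aeval h R₂

section Cusp

variable {a q : ℕ} {R₁ R₂ : A[X]} {j ja h jq jaq hq : F}

theorem SsgnHaupt.val_monic₁ (hA : ∀ a : A, v (algebraMap A F a) ≤ 1)
    (H : SsgnHaupt A F a R₁ R₂ j ja h) : v (algebraMap A F R₁.leadingCoeff) = 1 := by
  rw [H.monic₁.leadingCoeff, map_one, map_one]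

theorem SsgnHaupt.val_monic₂ (hA : ∀ a : A, v (algebraMap A F a) ≤ 1)
    (H : SsgnHaupt A F a R₁ R₂ j ja h) : v (algebraMap A F R₂.leadingCoeff) = 1 := by
  rw [H.monic₂.leadingCoeff, map_one, map_one]

/-- `v h < 1` : `v j · (v h)^a = 1`, `v j_a · v h = 1`. -/
theorem SsgnHaupt.small (hA : ∀ a : A, v (algebraMap A F a) ≤ 1)
    (H : SsgnHaupt A F a R₁ R₂ j ja h) (hh : v h < 1) :
    v j * v h ^ a = 1 ∧ v ja * v h = 1 := by
  constructor
  · rw [← map_pow, ← map_mul, H.id₁]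
    exact ssgn_val_aeval_small v hA hh _ (ssgn_unit_val v hA H.unit₁)
  · rw [← map_mul, H.id₂]
    exact ssgn_val_aeval_small v hA hh _ (ssgn_unit_val v hA H.unit₂)

/-- `v h > 1` : `v j = v h`, `v j_a = (v h)^a`. -/
theorem SsgnHaupt.big (hA : ∀ a : A, v (algebraMap A F a) ≤ 1)
    (H : SsgnHaupt A F a R₁ R₂ j ja h) (hh : 1 < v h) :
    v j = v h ∧ v ja = v h ^ a := by
  have hh0 : v h ≠ 0 := (lt_trans zero_lt_one hh).ne'
  have e1 : v j * v h ^ a = v h ^ (a + 1) := by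
    rw [← map_pow, ← map_mul, H.id₁, ssgn_val_aeval_eq v hA hh _ (H.val_monic₁ v hA), H.deg₁]
  have e2 : v ja * v h = v h ^ (a + 1) := by
    rw [← map_mul, H.id₂, ssgn_val_aeval_eq v hA hh _ (H.val_monic₂ v hA), H.deg₂]
  constructor
  · rw [pow_succ, mul_comm (v h ^ a) (v h)] at e1
    exact mul_right_cancel₀ (pow_ne_zero a hh0) e1
  · rw [pow_succ] at e2
    exact mul_right_cancel₀ hh0 e2

/-- `v h ≤ 1`, `v h ≮ 1` : `v j ≤ 1`. -/
theorem SsgnHaupt.unit (hA : ∀ a : A, v (algebraMap A F a) ≤ 1)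
    (H : SsgnHaupt A F a R₁ R₂ j ja h) (hh : v h = 1) : v j ≤ 1 := by
  have e1 : v j * v h ^ a = v (aeval h R₁) := by rw [← map_pow, ← map_mul, H.id₁]
  rw [hh, one_pow, mul_one] at e1
  rw [e1]
  exact ssgn_val_aeval_le_one v hA hh.le _

theorem SsgnHaupt.ne_zero (hA : ∀ a : A, v (algebraMap A F a) ≤ 1)
    (H : SsgnHaupt A F a R₁ R₂ j ja h) : h ≠ 0 := by
  intro h0
  have := (H.small v hA (by rw [h0, map_zero]; exact zero_lt_one)).2
  rw [h0, map_zero, mul_zero] at this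
  exact zero_ne_one this

/-- the arithmetic of the exponents. -/
theorem ssgn_exponents {m n : Γ₀} (hm : 1 < m) (ha : 2 ≤ a) (hq2 : 2 ≤ q) (haq : a ≠ q)
    (h1 : n = (m ^ a) ^ q ∨ n ^ q = m ^ a) (h2 : n ^ a = m ^ q ∨ (n ^ a) ^ q = m) : False := by
  have hm0 : 0 < m := lt_trans zero_lt_one hm
  have hinj := pow_right_injective₀ hm0 hm.ne'
  have haq4 : 2 * q * 2 ≤ a * q * a := Nat.mul_le_mul (Nat.mul_le_mul ha le_rfl) ha
  have haa : 2 * 2 ≤ a * a := Nat.mul_le_mul ha ha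
  rcases h1 with h1 | h1 <;> rcases h2 with h2 | h2
  · -- `m^(a q a) = m^q`
    have e : m ^ (a * q * a) = m ^ q := by
      calc m ^ (a * q * a) = ((m ^ a) ^ q) ^ a := by rw [pow_mul, pow_mul]
        _ = n ^ a := by rw [h1]
        _ = m ^ q := h2
    have h3 : a * q * a = q := hinj e
    omega
  · -- `m^(a q a q) = m`
    have e : m ^ (a * q * a * q) = m ^ 1 := by
      calc m ^ (a * q * a * q) = (((m ^ a) ^ q) ^ a) ^ q := by
            rw [pow_mul, pow_mul, pow_mul]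
        _ = (n ^ a) ^ q := by rw [h1]
        _ = m := h2
        _ = m ^ 1 := (pow_one m).symm
    have h3 : a * q * a * q = 1 := hinj e
    have h4 : 2 * q * 2 * 2 ≤ a * q * a * q := Nat.mul_le_mul haq4 hq2
    omega
  · -- `m^(a a) = m^(q q)`
    have e1 : n ^ (q * a) = m ^ (a * a) := by rw [pow_mul, h1, ← pow_mul]
    have e2 : n ^ (q * a) = m ^ (q * q) := by rw [mul_comm, pow_mul, h2, ← pow_mul]
    have h3 : a * a = q * q := hinj (e1.symm.trans e2)
    exact haq (Nat.mul_self_inj.mp h3)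
  · -- `m^(a a) = m`
    have e1 : n ^ (q * a) = m ^ (a * a) := by rw [pow_mul, h1, ← pow_mul]
    have e2 : n ^ (q * a) = m ^ 1 := by rw [mul_comm, pow_mul, h2, pow_one]
    have h3 : a * a = 1 := hinj (e1.symm.trans e2)
    omega

variable (H : SsgnHaupt A F a R₁ R₂ j ja h) (Hq : SsgnHaupt A F a R₁ R₂ jq jaq hq)

include H Hq in
/-- CUSPS OVER `0` : `v h < 1 → v h_q < 1`. -/
theorem ssgn_cusp_zero (hA : ∀ a : A, v (algebraMap A F a) ≤ 1) (ha : 2 ≤ a) (hq2 : 2 ≤ q)
    (haq : a ≠ q)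
    (NP1 : 1 < v j → v jq = v j ^ q ∨ v jq ^ q = v j)
    (NP2 : 1 < v ja → v jaq = v ja ^ q ∨ v jaq ^ q = v ja)
    (hh : v h < 1) : v hq < 1 := by
  obtain ⟨s1, s2⟩ := H.small v hA hh
  have hh0 : v h ≠ 0 := by
    intro h0
    rw [h0, mul_zero] at s2
    exact zero_ne_one s2
  -- `m := v ja > 1`, `v j = m^a`
  have hm : 1 < v ja := by
    by_contra hle
    rw [not_lt] at hle
    have : v ja * v h < 1 := by
      calc v ja * v h ≤ 1 * v h := mul_le_mul_left hle _
        _ = v h := one_mul _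
        _ < 1 := hh
    rw [s2] at this
    exact lt_irrefl _ this
  have hjm : v j = v ja ^ a := by
    have e : v j * v h ^ a = v ja ^ a * v h ^ a := by rw [s1, ← mul_pow, s2, one_pow]
    exact mul_right_cancel₀ (pow_ne_zero a hh0) e
  have hj1 : 1 < v j := by rw [hjm]; exact one_lt_pow₀ hm (by omega)
  have np1 := NP1 hj1
  have np2 := NP2 hm
  have hjq1 : 1 < v jq := by
    rcases np1 with e | e
    · rw [e]; exact one_lt_pow₀ hj1 (by omega)
    · by_contra hle
      rw [not_lt] at hle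
      have : v jq ^ q ≤ 1 := pow_le_one₀ zero_le hle
      rw [e] at this
      exact absurd hj1 (not_lt.mpr this)
  by_contra hcon
  rw [not_lt] at hcon
  rcases hcon.lt_or_eq with hbig | heq
  · obtain ⟨b1, b2⟩ := Hq.big v hA hbig
    rw [hjm] at np1
    refine ssgn_exponents (m := v ja) (n := v jq) hm ha hq2 haq np1 ?_
    rw [b1, ← b2]
    exact np2
  · exact absurd hjq1 (not_lt.mpr (Hq.unit v hA heq.symm))

include H Hq in
/-- CUSPS OVER `∞` : `v h > 1 → v h_q > 1`. -/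
theorem ssgn_cusp_infty (hA : ∀ a : A, v (algebraMap A F a) ≤ 1) (ha : 2 ≤ a) (hq2 : 2 ≤ q)
    (haq : a ≠ q)
    (NP1 : 1 < v j → v jq = v j ^ q ∨ v jq ^ q = v j)
    (NP2 : 1 < v ja → v jaq = v ja ^ q ∨ v jaq ^ q = v ja)
    (hh : 1 < v h) : 1 < v hq := by
  obtain ⟨b1, b2⟩ := H.big v hA hh
  have hj1 : 1 < v j := by rw [b1]; exact hh
  have hja1 : 1 < v ja := by rw [b2]; exact one_lt_pow₀ hh (by omega)
  have np1 := NP1 hj1
  have np2 := NP2 hja1
  have hjq1 : 1 < v jq := by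
    rcases np1 with e | e
    · rw [e]; exact one_lt_pow₀ hj1 (by omega)
    · by_contra hle
      rw [not_lt] at hle
      have : v jq ^ q ≤ 1 := pow_le_one₀ zero_le hle
      rw [e] at this
      exact absurd hj1 (not_lt.mpr this)
  by_contra hcon
  rw [not_lt] at hcon
  rcases hcon.lt_or_eq with hsmall | heq
  · obtain ⟨s1, s2⟩ := Hq.small v hA hsmall
    have hq0 : v hq ≠ 0 := by
      intro h0
      rw [h0, mul_zero] at s2
      exact zero_ne_one s2
    have hjqn : v jq = v jaq ^ a := by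
      have e : v jq * v hq ^ a = v jaq ^ a * v hq ^ a := by rw [s1, ← mul_pow, s2, one_pow]
      exact mul_right_cancel₀ (pow_ne_zero a hq0) e
    rw [b2, ← b1] at np2
    refine ssgn_exponents (m := v j) (n := v jaq) hj1 ha hq2 haq np2 ?_
    rw [← hjqn]
    exact np1
  · exact absurd hjq1 (not_lt.mpr (Hq.unit v hA heq))

include H Hq in
/-- `v h ≤ 1 → v h_q ≤ 1`. -/
theorem ssgn_le_one (hA : ∀ a : A, v (algebraMap A F a) ≤ 1) (ha : 2 ≤ a) (hq2 : 2 ≤ q)
    (haq : a ≠ q)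
    (NP1 : 1 < v j → v jq = v j ^ q ∨ v jq ^ q = v j)
    (NP2 : 1 < v ja → v jaq = v ja ^ q ∨ v jaq ^ q = v ja)
    (INT : v j ≤ 1 → v jq ≤ 1)
    (hh : v h ≤ 1) : v hq ≤ 1 := by
  rcases hh.lt_or_eq with hlt | heq
  · exact (ssgn_cusp_zero v H Hq hA ha hq2 haq NP1 NP2 hlt).le
  · have hjq := INT (H.unit v hA heq)
    by_contra hcon
    rw [not_le] at hcon
    obtain ⟨b1, -⟩ := Hq.big v hA hcon
    rw [b1] at hjq
    exact absurd hcon (not_lt.mpr hjq)

include H Hq in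
/-- `v h⁻¹ ≤ 1 → v h_q⁻¹ ≤ 1`. -/
theorem ssgn_inv_le_one (hA : ∀ a : A, v (algebraMap A F a) ≤ 1) (ha : 2 ≤ a) (hq2 : 2 ≤ q)
    (haq : a ≠ q)
    (NP1 : 1 < v j → v jq = v j ^ q ∨ v jq ^ q = v j)
    (NP2 : 1 < v ja → v jaq = v ja ^ q ∨ v jaq ^ q = v ja)
    (INT : v j ≤ 1 → v jq ≤ 1)
    (hh : v h⁻¹ ≤ 1) : v hq⁻¹ ≤ 1 := by
  have hne : h ≠ 0 := H.ne_zero v hA
  have hqne : hq ≠ 0 := Hq.ne_zero v hA
  have hvh : v h ≠ 0 := (Valuation.ne_zero_iff v).mpr hne
  have hvhq : v hq ≠ 0 := (Valuation.ne_zero_iff v).mpr hqne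
  rw [map_inv₀, inv_le_one₀ (zero_lt_iff.mpr hvh)] at hh
  rw [map_inv₀, inv_le_one₀ (zero_lt_iff.mpr hvhq)]
  rcases hh.lt_or_eq with hlt | heq
  · exact (ssgn_cusp_infty v H Hq hA ha hq2 haq NP1 NP2 hlt).le
  · have hjq := INT (H.unit v hA heq.symm)
    by_contra hcon
    rw [not_le] at hcon
    obtain ⟨s1, -⟩ := Hq.small v hA hcon
    have : v jq * v hq ^ a < 1 := by
      calc v jq * v hq ^ a ≤ 1 * v hq ^ a := mul_le_mul_left hjq _
        _ = v hq ^ a := one_mul _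
        _ < 1 := pow_lt_one₀ zero_le hcon (by omega)
    rw [s1] at this
    exact lt_irrefl _ this

end Cusp

end Fermat.Agent.SS
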