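import Mathlib
import Fermat.Agent.SS.Geo.NewtonAbs
import Fermat.Agent.S18.T.Defs

/-!
# Program S (S34), the concrete side, `q ∈ {2, 3}` : `h_a(qτ)` IS INTEGRAL OVER `A[h_a]`
(chart-ring level, generic field `F`)

* `ssgn_int_le`, `ssgn_mem_int_of_forall` : `s18tInt A t` is the intersection of the valuation
  subrings of `F` containing `A` and `t`;
* `ssgn_int_mono` : `t' ∈ s18tInt A t → s18tInt A t' ≤ s18tInt A t`;
* `ssgn_jq_mem_int` : `j_q ∈ s18tInt A j` from the modular polynomial;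
* `ssgn_hq_mem_int`, `ssgn_hq_inv_mem_int` : `h_q ∈ s18tInt A h`, `h_q⁻¹ ∈ s18tInt A h⁻¹` from the
  modular polynomial for `(j, j_q)` and `(j_a, j_{aq})` and the Hauptmodul relations.
-/

set_option autoImplicit false
set_option linter.unusedSectionVars false
set_option linter.unusedVariables false

namespace Fermat.Agent.SS

open Polynomial Fermat.Agent.S18

variable {A F : Type*} [CommRing A] [Field F] [Algebra A F]

theorem ssgn_chart_le_int (t : F) {x : F} (hx : x ∈ s18tChart A t) : x ∈ s18tInt A t := by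
  rw [mem_s18tInt]
  exact isIntegral_algebraMap (R := ↥(s18tChart A t)) (A := F) (x := ⟨x, hx⟩)

theorem ssgn_self_mem_int (t : F) : t ∈ s18tInt A t :=
  ssgn_chart_le_int t (Algebra.self_mem_adjoin_singleton A t)

theorem ssgn_algebraMap_mem_int (t : F) (a : A) : algebraMap A F a ∈ s18tInt A t :=
  ssgn_chart_le_int t (Subalgebra.algebraMap_mem _ a)

/-- a valuation subring containing `A` and `t` contains the integral closure of `A[t]`. -/
theorem ssgn_int_le (t : F) (V : ValuationSubring F) (hA : ∀ a : A, algebraMap A F a ∈ V)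
    (ht : t ∈ V) : s18tInt A t ≤ V.toSubring := by
  haveI : IsIntegrallyClosedIn V.toSubring F := inferInstanceAs (IsIntegrallyClosedIn V F)
  unfold s18tInt
  rw [Subring.integralClosure_le_iff]
  rintro ⟨r, hr⟩
  show r ∈ V
  unfold s18tChart at hr
  rw [Algebra.adjoin_singleton_eq_range_aeval] at hr
  obtain ⟨p, rfl⟩ := hr
  show aeval t p ∈ V
  rw [aeval_eq_sum_range]
  refine V.toSubring.sum_mem fun i _ => ?_
  rw [Algebra.smul_def]
  exact V.mul_mem _ _ (hA _) (V.toSubring.pow_mem ht i)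

/-- `s18tInt A t` is the intersection of the valuation subrings containing `A` and `t`. -/
theorem ssgn_mem_int_of_forall (t x : F)
    (h : ∀ V : ValuationSubring F, (∀ a : A, algebraMap A F a ∈ V) → t ∈ V → x ∈ V) :
    x ∈ s18tInt A t := by
  by_contra hx
  haveI : IsIntegrallyClosedIn (s18tInt A t) F :=
    inferInstanceAs (IsIntegrallyClosedIn (integralClosure (s18tChart A t) F).toSubring F)
  obtain ⟨V, hV, hxV⟩ := Subring.exists_le_valuationSubring_of_isIntegrallyClosedIn hx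
  exact hxV (h V (fun a => hV (ssgn_algebraMap_mem_int t a)) (hV (ssgn_self_mem_int t)))

/-- `t' ∈ s18tInt A t → s18tInt A t' ≤ s18tInt A t`. -/
theorem ssgn_int_mono {t t' : F} (ht' : t' ∈ s18tInt A t) : s18tInt A t' ≤ s18tInt A t := by
  intro x hx
  refine ssgn_mem_int_of_forall t x fun V hA ht => ?_
  exact ssgn_int_le t' V hA (ssgn_int_le t V hA ht ht') hx

/-- transport of integrality along an algebra homomorphism `f` with `f t₀` integral over `A[t]`. -/
theorem ssgn_map_int {F₀ : Type*} [Field F₀] [Algebra A F₀] (f : F₀ →ₐ[A] F) {t₀ : F₀} {t : F}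
    (ht : f t₀ ∈ s18tInt A t) {b : F₀} (hb : b ∈ s18tInt A t₀) : f b ∈ s18tInt A t := by
  refine ssgn_mem_int_of_forall t (f b) fun V hA htV => ?_
  have h1 : f t₀ ∈ V := ssgn_int_le t V hA htV ht
  have h2 : s18tInt A t₀ ≤ (V.comap (f : F₀ →+* F)).toSubring :=
    ssgn_int_le t₀ (V.comap (f : F₀ →+* F))
      (fun a => by
        rw [ValuationSubring.mem_comap]
        show f (algebraMap A F₀ a) ∈ V
        rw [f.commutes]
        exact hA a)
      (by rw [ValuationSubring.mem_comap]; exact h1)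
  have h3 := h2 hb
  exact (ValuationSubring.mem_comap).mp h3

theorem ssgn_valuation_le_one (V : ValuationSubring F) (hA : ∀ a : A, algebraMap A F a ∈ V)
    (a : A) : V.valuation (algebraMap A F a) ≤ 1 :=
  (V.valuation_le_one_iff _).mpr (hA a)

section Modular

variable {a q : ℕ} {R₁ R₂ : A[X]} {j ja h jq jaq hq : F} {Φ : A[X][X]}

/-- `j_q ∈ s18tInt A j`. -/
theorem ssgn_jq_mem_int (MP : SsgnModPoly A F j jq q Φ) : jq ∈ s18tInt A j := by
  refine ssgn_mem_int_of_forall j jq fun V hA hj => ?_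
  rw [← V.valuation_le_one_iff] at hj ⊢
  exact ssgn_int_of_le V.valuation (ssgn_valuation_le_one V hA) MP hj

/-- `h_q ∈ s18tInt A h`. -/
theorem ssgn_hq_mem_int (H : SsgnHaupt A F a R₁ R₂ j ja h) (Hq : SsgnHaupt A F a R₁ R₂ jq jaq hq)
    (ha : 2 ≤ a) (hq2 : 2 ≤ q) (haq : a ≠ q)
    (MP1 : SsgnModPoly A F j jq q Φ) (MP2 : SsgnModPoly A F ja jaq q Φ) :
    hq ∈ s18tInt A h := by
  refine ssgn_mem_int_of_forall h hq fun V hA hh => ?_
  rw [← V.valuation_le_one_iff] at hh ⊢
  have hA' := ssgn_valuation_le_one V hA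
  exact ssgn_le_one V.valuation H Hq hA' ha hq2 haq
    (fun hj => ssgn_newton V.valuation hA' MP1 hq2 hj)
    (fun hj => ssgn_newton V.valuation hA' MP2 hq2 hj)
    (fun hj => ssgn_int_of_le V.valuation hA' MP1 hj) hh

/-- `h_q⁻¹ ∈ s18tInt A h⁻¹`. -/
theorem ssgn_hq_inv_mem_int (H : SsgnHaupt A F a R₁ R₂ j ja h)
    (Hq : SsgnHaupt A F a R₁ R₂ jq jaq hq)
    (ha : 2 ≤ a) (hq2 : 2 ≤ q) (haq : a ≠ q)
    (MP1 : SsgnModPoly A F j jq q Φ) (MP2 : SsgnModPoly A F ja jaq q Φ) :
    hq⁻¹ ∈ s18tInt A h⁻¹ := by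
  refine ssgn_mem_int_of_forall h⁻¹ hq⁻¹ fun V hA hh => ?_
  rw [← V.valuation_le_one_iff] at hh ⊢
  have hA' := ssgn_valuation_le_one V hA
  exact ssgn_inv_le_one V.valuation H Hq hA' ha hq2 haq
    (fun hj => ssgn_newton V.valuation hA' MP1 hq2 hj)
    (fun hj => ssgn_newton V.valuation hA' MP2 hq2 hj)
    (fun hj => ssgn_int_of_le V.valuation hA' MP1 hj) hh

end Modular

/-! ### transport along algebra homomorphisms -/

section Transport

variable {F' : Type*} [Field F'] [Algebra A F']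
variable {a q : ℕ} {R₁ R₂ : A[X]} {j ja h y : F} {Φ : A[X][X]}

theorem ssgn_comp_aeval (f : F →ₐ[A] F') (x : F) :
    (f : F →+* F').comp ((aeval x : A[X] →ₐ[A] F) : A[X] →+* F) =
      ((aeval (f x) : A[X] →ₐ[A] F') : A[X] →+* F') := by
  rw [aeval_algHom]
  rfl

theorem SsgnModPoly.map (f : F →ₐ[A] F') (MP : SsgnModPoly A F j y q Φ) :
    SsgnModPoly A F' (f j) (f y) q Φ where
  deg := MP.deg
  lead := MP.lead
  root := by
    rw [← ssgn_comp_aeval f j]
    have := congrArg f MP.root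
    rw [map_zero] at this
    rw [← this]
    exact (Polynomial.hom_eval₂ Φ _ (f : F →+* F') y).symm
  mid := MP.mid
  deg0 := MP.deg0
  lc0 := MP.lc0
  degq := MP.degq
  lcq := MP.lcq

theorem SsgnModPoly.of_map (f : F →ₐ[A] F') (hf : Function.Injective f)
    (MP : SsgnModPoly A F' (f j) (f y) q Φ) : SsgnModPoly A F j y q Φ where
  deg := MP.deg
  lead := MP.lead
  root := by
    apply hf
    rw [map_zero]
    have := MP.root
    rw [← ssgn_comp_aeval f j] at this
    rw [← this]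
    exact Polynomial.hom_eval₂ Φ _ (f : F →+* F') y
  mid := MP.mid
  deg0 := MP.deg0
  lc0 := MP.lc0
  degq := MP.degq
  lcq := MP.lcq

theorem SsgnHaupt.map (f : F →ₐ[A] F') (H : SsgnHaupt A F a R₁ R₂ j ja h) :
    SsgnHaupt A F' a R₁ R₂ (f j) (f ja) (f h) where
  monic₁ := H.monic₁
  deg₁ := H.deg₁
  unit₁ := H.unit₁
  monic₂ := H.monic₂
  deg₂ := H.deg₂
  unit₂ := H.unit₂
  id₁ := by rw [← map_pow, ← map_mul, H.id₁, aeval_algHom_apply]
  id₂ := by rw [← map_mul, H.id₂, aeval_algHom_apply]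

theorem SsgnHaupt.of_map (f : F →ₐ[A] F') (hf : Function.Injective f)
    (H : SsgnHaupt A F' a R₁ R₂ (f j) (f ja) (f h)) : SsgnHaupt A F a R₁ R₂ j ja h where
  monic₁ := H.monic₁
  deg₁ := H.deg₁
  unit₁ := H.unit₁
  monic₂ := H.monic₂
  deg₂ := H.deg₂
  unit₂ := H.unit₂
  id₁ := by
    apply hf
    rw [map_mul, map_pow, H.id₁, aeval_algHom_apply]
  id₂ := by
    apply hf
    rw [map_mul, H.id₂, aeval_algHom_apply]

end Transport

end Fermat.Agent.SS
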