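import Mathlib
import Fermat.Agent.SS.Geo.NewtonInt
import Fermat.Agent.SS.Geo.SmallCoord
import Fermat.Agent.SS.Germ.Levels
import Fermat.Agent.G.Red.InstSmallMem
import Fermat.Agent.S18.RH.Main

/-!
# Program S (S34), the concrete side : `φ : F_E(M) → F_E(M q)`, `f(τ) ↦ f(qτ)`, MAPS THE CHART RINGS
OF LEVEL `M` INTO THE CHART RINGS OF LEVEL `M q`, for the coordinates `j`, `h_a`, `h_a⁻¹`

Input : the modular polynomial `Φ ∈ A[X][Y]`, `Φ(j, j(qτ)) = 0`, in the shape `SsgnModPoly`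
(series level : in `E((q))`).

* `ssgnPhi E M q : F_E(M) →ₐ[E] F_E(M q)`;
* `ssgn_phi_j_mem` : `j(qτ) ∈ s18tInt A j`;
* `ssgn_phi_h_mem`, `ssgn_phi_h_inv_mem` : `h_a(qτ) ∈ s18tInt A h_a`, `h_a(qτ)⁻¹ ∈ s18tInt A h_a⁻¹`
  (`a ∈ {2, 3}`, `a ∣ M`, `a ≠ q`, `a` a unit of `A`) - NOT a formal consequence of the statement for
  `j` : the proof goes through the Newton polygon of `Φ` (`SS/Geo/NewtonAbs.lean`);
* `ssgn_phi_int_j`, `ssgn_phi_int_h`, `ssgn_phi_int_h_inv` : `φ (s18tInt A t₀) ⊆ s18tInt A t`.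
-/

set_option autoImplicit false
set_option linter.unusedSectionVars false
set_option linter.unusedVariables false
set_option linter.style.haveILetI false
set_option synthInstance.maxHeartbeats 400000

noncomputable section

namespace Fermat.Agent.SS

open Polynomial ModularCurve AlgebraicCurve IntermediateField Fermat.Agent.S18 Fermat.Agent.G

local notation "Qb" => AlgebraicClosure ℚ

/-! ### series -/

section Series

variable (K : Type*) [Field K]

theorem ssgn_qExpand_congr {N N' : ℕ} [NeZero N] [NeZero N'] (h : N = N') (f : LaurentSeries K) :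
    qExpand K N f = qExpand K N' f := by
  subst h
  rfl

theorem ssgn_qExpand_comm (a q : ℕ) [NeZero a] [NeZero q] (f : LaurentSeries K) :
    qExpand K a (qExpand K q f) = qExpand K q (qExpand K a f) := by
  rw [qExpand_qExpand, qExpand_qExpand]
  exact ssgn_qExpand_congr K (mul_comm a q) f

end Series

/-! ### the map `φ` -/

section Phi

variable (E : Type*) [Field E] (M q : ℕ) [NeZero M] [NeZero q]

theorem ssgn_qExpand_mem (x : modularFunctionFieldFullC E M) :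
    qExpand E q (x : LaurentSeries E) ∈ modularFunctionFieldFullC E (M * q) :=
  full_degeneracyC_map_le E M q
    ((IntermediateField.mem_map _).mpr ⟨(x : LaurentSeries E), x.2, rfl⟩)

/-- `φ : F_E(M) →ₐ[E] F_E(M q)`, `f(𝐪) ↦ f(𝐪^q)`. -/
def ssgnPhi : modularFunctionFieldFullC E M →ₐ[E] modularFunctionFieldFullC E (M * q) where
  toFun x := ⟨qExpand E q (x : LaurentSeries E), ssgn_qExpand_mem E M q x⟩
  map_one' := Subtype.ext (map_one (qExpand E q))
  map_mul' x y := Subtype.ext (map_mul (qExpand E q) _ _)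
  map_zero' := Subtype.ext (map_zero (qExpand E q))
  map_add' x y := Subtype.ext (map_add (qExpand E q) _ _)
  commutes' c := Subtype.ext ((qExpandAlgHomC E q).commutes c)

@[simp]
theorem ssgnPhi_coe (x : modularFunctionFieldFullC E M) :
    ((ssgnPhi E M q x : modularFunctionFieldFullC E (M * q)) : LaurentSeries E) =
      qExpand E q (x : LaurentSeries E) := rfl

/-- the inclusion `α : F_E(M) →ₐ[E] F_E(M q)`. -/
def ssgnAlpha : modularFunctionFieldFullC E M →ₐ[E] modularFunctionFieldFullC E (M * q) :=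
  IntermediateField.inclusion (full_degeneracyC_le E (dvd_mul_right M q))

@[simp]
theorem ssgnAlpha_coe (x : modularFunctionFieldFullC E M) :
    ((ssgnAlpha E M q x : modularFunctionFieldFullC E (M * q)) : LaurentSeries E) =
      (x : LaurentSeries E) := IntermediateField.coe_inclusion _ x

end Phi

/-! ### the Hauptmodul relations in `E((q))` -/

section Haupt

variable (A : ValuationSubring Qb) (E : IntermediateField ℚ Qb)

theorem ssgn_haupt_two [NeZero 2] (hu : IsUnit ((2 : ℕ) : ↥(s18dVal A E))) :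
    SsgnHaupt ↥(s18dVal A E) (LaurentSeries E) 2 ((X + C 256) ^ 3) ((X + C 16) ^ 3)
      (jqModC E) (jqNModC E 2) (s18hq 2 24 E) where
  monic₁ := (monic_X_add_C _).pow 3
  deg₁ := by rw [((monic_X_add_C (256 : ↥(s18dVal A E)))).natDegree_pow, natDegree_X_add_C]
  unit₁ := by
    have h1 : ((X + C (256 : ↥(s18dVal A E))) ^ 3).coeff 0 = ((2 : ℕ) : ↥(s18dVal A E)) ^ 24 := by
      rw [coeff_zero_eq_eval_zero, eval_pow, eval_add, eval_X, eval_C, zero_add]
      norm_num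
    rw [h1]
    exact hu.pow 24
  monic₂ := (monic_X_add_C _).pow 3
  deg₂ := by rw [((monic_X_add_C (16 : ↥(s18dVal A E)))).natDegree_pow, natDegree_X_add_C]
  unit₂ := by
    have h1 : ((X + C (16 : ↥(s18dVal A E))) ^ 3).coeff 0 = ((2 : ℕ) : ↥(s18dVal A E)) ^ 12 := by
      rw [coeff_zero_eq_eval_zero, eval_pow, eval_add, eval_X, eval_C, zero_add]
      norm_num
    rw [h1]
    exact hu.pow 12
  id₁ := by
    rw [map_pow, map_add, aeval_X, aeval_C, map_ofNat]
    exact grdis_id_two E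
  id₂ := by
    rw [map_pow, map_add, aeval_X, aeval_C, map_ofNat]
    exact grdis_id_two' E

theorem ssgn_haupt_three [NeZero 3] (hu : IsUnit ((3 : ℕ) : ↥(s18dVal A E))) :
    SsgnHaupt ↥(s18dVal A E) (LaurentSeries E) 3 ((X + C 27) * (X + C 243) ^ 3)
      ((X + C 27) * (X + C 3) ^ 3) (jqModC E) (jqNModC E 3) (s18hq 3 12 E) where
  monic₁ := (monic_X_add_C _).mul ((monic_X_add_C _).pow 3)
  deg₁ := by
    rw [((monic_X_add_C (27 : ↥(s18dVal A E)))).natDegree_mul ((monic_X_add_C _).pow 3),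
      ((monic_X_add_C (243 : ↥(s18dVal A E)))).natDegree_pow, natDegree_X_add_C,
      natDegree_X_add_C]
  unit₁ := by
    have h1 : ((X + C (27 : ↥(s18dVal A E))) * (X + C 243) ^ 3).coeff 0 =
        ((3 : ℕ) : ↥(s18dVal A E)) ^ 18 := by
      rw [coeff_zero_eq_eval_zero, eval_mul, eval_pow, eval_add, eval_add, eval_X, eval_C, eval_C,
        zero_add, zero_add]
      norm_num
    rw [h1]
    exact hu.pow 18
  monic₂ := (monic_X_add_C _).mul ((monic_X_add_C _).pow 3)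
  deg₂ := by
    rw [((monic_X_add_C (27 : ↥(s18dVal A E)))).natDegree_mul ((monic_X_add_C _).pow 3),
      ((monic_X_add_C (3 : ↥(s18dVal A E)))).natDegree_pow, natDegree_X_add_C,
      natDegree_X_add_C]
  unit₂ := by
    have h1 : ((X + C (27 : ↥(s18dVal A E))) * (X + C 3) ^ 3).coeff 0 =
        ((3 : ℕ) : ↥(s18dVal A E)) ^ 6 := by
      rw [coeff_zero_eq_eval_zero, eval_mul, eval_pow, eval_add, eval_add, eval_X, eval_C, eval_C,
        zero_add, zero_add]
      norm_num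
    rw [h1]
    exact hu.pow 6
  id₁ := by
    rw [map_mul, map_pow, map_add, map_add, aeval_X, aeval_C, aeval_C, map_ofNat, map_ofNat]
    exact grdis_id_three E
  id₂ := by
    rw [map_mul, map_pow, map_add, map_add, aeval_X, aeval_C, aeval_C, map_ofNat, map_ofNat]
    exact grdis_id_three' E

end Haupt

/-! ### the chart rings -/

section Main

variable (A : ValuationSubring Qb) (E : IntermediateField ℚ Qb) (M q : ℕ) [NeZero M] [NeZero q]

/-- the inclusion `F_E(N) → E((q))` as an `𝔸 ∩ E`-algebra homomorphism -/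
def ssgnVal (N : ℕ) : modularFunctionFieldFullC E N →ₐ[↥(s18dVal A E)] LaurentSeries E :=
  (modularFunctionFieldFullC E N).val.restrictScalars ↥(s18dVal A E)

theorem ssgnVal_apply (N : ℕ) (x : modularFunctionFieldFullC E N) :
    ssgnVal A E N x = (x : LaurentSeries E) := rfl

theorem ssgnVal_injective (N : ℕ) : Function.Injective (ssgnVal A E N) :=
  fun x y h => Subtype.ext h

/-- `φ` as an `𝔸 ∩ E`-algebra homomorphism -/
def ssgnPhiA : modularFunctionFieldFullC E M →ₐ[↥(s18dVal A E)] modularFunctionFieldFullC E (M * q) :=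
  (ssgnPhi E M q).restrictScalars ↥(s18dVal A E)

theorem ssgnPhiA_apply (x : modularFunctionFieldFullC E M) :
    ssgnPhiA A E M q x = ssgnPhi E M q x := rfl

/-- `q`-expansion substitution as an `𝔸 ∩ E`-algebra endomorphism of `E((q))` -/
def ssgnExp (a : ℕ) [NeZero a] : LaurentSeries E →ₐ[↥(s18dVal A E)] LaurentSeries E :=
  (qExpandAlgHomC E a).restrictScalars ↥(s18dVal A E)

theorem ssgnExp_apply (a : ℕ) [NeZero a] (f : LaurentSeries E) :
    ssgnExp A E a f = qExpand E a f := rfl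

variable {Φ : (↥(s18dVal A E))[X][X]}

/-- the modular polynomial inside `F_E(M q)` -/
theorem ssgn_modPoly_F
    (MP : SsgnModPoly ↥(s18dVal A E) (LaurentSeries E) (jqModC E) (qExpand E q (jqModC E)) q Φ) :
    SsgnModPoly ↥(s18dVal A E) (modularFunctionFieldFullC E (M * q)) (ssdJ E (M * q))
      (ssgnPhi E M q (ssdJ E M)) q Φ :=
  SsgnModPoly.of_map (ssgnVal A E (M * q)) (ssgnVal_injective A E (M * q)) MP

/-- `j(qτ) ∈ s18tInt A j`. -/
theorem ssgn_phi_j_mem
    (MP : SsgnModPoly ↥(s18dVal A E) (LaurentSeries E) (jqModC E) (qExpand E q (jqModC E)) q Φ) :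
    ssgnPhi E M q (ssdJ E M) ∈ s18tInt ↥(s18dVal A E) (ssdJ E (M * q)) :=
  ssgn_jq_mem_int (ssgn_modPoly_F A E M q MP)

/-- `φ (s18tInt A j) ⊆ s18tInt A j`. -/
theorem ssgn_phi_int_j
    (MP : SsgnModPoly ↥(s18dVal A E) (LaurentSeries E) (jqModC E) (qExpand E q (jqModC E)) q Φ)
    {b : modularFunctionFieldFullC E M} (hb : b ∈ s18tInt ↥(s18dVal A E) (ssdJ E M)) :
    ssgnPhi E M q b ∈ s18tInt ↥(s18dVal A E) (ssdJ E (M * q)) :=
  ssgn_map_int (ssgnPhiA A E M q) (ssgn_phi_j_mem A E M q MP) hb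

/-- the modular polynomial for `(j_a, j_{aq})` in `E((q))`. -/
theorem ssgn_modPoly_a (a : ℕ) [NeZero a]
    (MP : SsgnModPoly ↥(s18dVal A E) (LaurentSeries E) (jqModC E) (qExpand E q (jqModC E)) q Φ) :
    SsgnModPoly ↥(s18dVal A E) (LaurentSeries E) (jqNModC E a) (qExpand E q (jqNModC E a)) q Φ := by
  have h := MP.map (ssgnExp A E a)
  rw [ssgnExp_apply, ssgnExp_apply, ssgn_qExpand_comm] at h
  exact h

/-- `j_a ∈ F_E(N)` for `a ∣ N` -/
def ssgnJa (N a : ℕ) [NeZero a] (haN : a ∣ N) : modularFunctionFieldFullC E N :=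
  ⟨jqNModC E a, jqModCd_mem_full E N haN⟩

/-- the general statement, from the Hauptmodul relations in `E((q))`. -/
theorem ssgn_phi_h_mem_aux (a : ℕ) [NeZero a] (ha : a = 2 ∨ a = 3) (haM : a ∣ M)
    (hq2 : 2 ≤ q) (haq : a ≠ q) {R₁ R₂ : (↥(s18dVal A E))[X]}
    (H : SsgnHaupt ↥(s18dVal A E) (LaurentSeries E) a R₁ R₂ (jqModC E) (jqNModC E a)
      (s18hq a (s18hExp a) E))
    (MP : SsgnModPoly ↥(s18dVal A E) (LaurentSeries E) (jqModC E) (qExpand E q (jqModC E)) q Φ) :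
    ssgnPhi E M q (ssgH E M a ha haM) ∈
        s18tInt ↥(s18dVal A E) (ssgH E (M * q) a ha (haM.mul_right q)) ∧
      (ssgnPhi E M q (ssgH E M a ha haM))⁻¹ ∈
        s18tInt ↥(s18dVal A E) (ssgH E (M * q) a ha (haM.mul_right q))⁻¹ := by
  have ha2 : 2 ≤ a := by rcases ha with rfl | rfl <;> norm_num
  -- the relations inside `F = F_E(M q)`
  have HF : SsgnHaupt ↥(s18dVal A E) (modularFunctionFieldFullC E (M * q)) a R₁ R₂
      (ssdJ E (M * q)) (ssgnJa E (M * q) a (haM.mul_right q))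
      (ssgH E (M * q) a ha (haM.mul_right q)) :=
    SsgnHaupt.of_map (ssgnVal A E (M * q)) (ssgnVal_injective A E (M * q)) H
  have HqF : SsgnHaupt ↥(s18dVal A E) (modularFunctionFieldFullC E (M * q)) a R₁ R₂
      (ssgnPhi E M q (ssdJ E M)) (ssgnPhi E M q (ssgnJa E M a haM))
      (ssgnPhi E M q (ssgH E M a ha haM)) :=
    SsgnHaupt.of_map (ssgnVal A E (M * q)) (ssgnVal_injective A E (M * q))
      (H.map (ssgnExp A E q))
  have MP1 := ssgn_modPoly_F A E M q MP
  have MP2 : SsgnModPoly ↥(s18dVal A E) (modularFunctionFieldFullC E (M * q))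
      (ssgnJa E (M * q) a (haM.mul_right q)) (ssgnPhi E M q (ssgnJa E M a haM)) q Φ :=
    SsgnModPoly.of_map (ssgnVal A E (M * q)) (ssgnVal_injective A E (M * q))
      (ssgn_modPoly_a A E q a MP)
  exact ⟨ssgn_hq_mem_int HF HqF ha2 hq2 haq MP1 MP2,
    ssgn_hq_inv_mem_int HF HqF ha2 hq2 haq MP1 MP2⟩

/-- `h_a(qτ) ∈ s18tInt A h_a` and `h_a(qτ)⁻¹ ∈ s18tInt A h_a⁻¹`. -/
theorem ssgn_phi_h_mem (a : ℕ) [NeZero a] (ha : a = 2 ∨ a = 3) (haM : a ∣ M)
    (hq2 : 2 ≤ q) (haq : a ≠ q) (hu : IsUnit ((a : ℕ) : ↥(s18dVal A E)))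
    (MP : SsgnModPoly ↥(s18dVal A E) (LaurentSeries E) (jqModC E) (qExpand E q (jqModC E)) q Φ) :
    ssgnPhi E M q (ssgH E M a ha haM) ∈
        s18tInt ↥(s18dVal A E) (ssgH E (M * q) a ha (haM.mul_right q)) ∧
      (ssgnPhi E M q (ssgH E M a ha haM))⁻¹ ∈
        s18tInt ↥(s18dVal A E) (ssgH E (M * q) a ha (haM.mul_right q))⁻¹ := by
  rcases ha with rfl | rfl
  · exact ssgn_phi_h_mem_aux A E M q 2 (Or.inl rfl) haM hq2 haq (ssgn_haupt_two A E hu) MP
  · exact ssgn_phi_h_mem_aux A E M q 3 (Or.inr rfl) haM hq2 haq (ssgn_haupt_three A E hu) MP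

/-- `φ (s18tInt A h_a) ⊆ s18tInt A h_a`. -/
theorem ssgn_phi_int_h (a : ℕ) [NeZero a] (ha : a = 2 ∨ a = 3) (haM : a ∣ M)
    (hq2 : 2 ≤ q) (haq : a ≠ q) (hu : IsUnit ((a : ℕ) : ↥(s18dVal A E)))
    (MP : SsgnModPoly ↥(s18dVal A E) (LaurentSeries E) (jqModC E) (qExpand E q (jqModC E)) q Φ)
    {b : modularFunctionFieldFullC E M}
    (hb : b ∈ s18tInt ↥(s18dVal A E) (ssgH E M a ha haM)) :
    ssgnPhi E M q b ∈ s18tInt ↥(s18dVal A E) (ssgH E (M * q) a ha (haM.mul_right q)) :=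
  ssgn_map_int (ssgnPhiA A E M q) (ssgn_phi_h_mem A E M q a ha haM hq2 haq hu MP).1 hb

/-- `φ (s18tInt A h_a⁻¹) ⊆ s18tInt A h_a⁻¹`. -/
theorem ssgn_phi_int_h_inv (a : ℕ) [NeZero a] (ha : a = 2 ∨ a = 3) (haM : a ∣ M)
    (hq2 : 2 ≤ q) (haq : a ≠ q) (hu : IsUnit ((a : ℕ) : ↥(s18dVal A E)))
    (MP : SsgnModPoly ↥(s18dVal A E) (LaurentSeries E) (jqModC E) (qExpand E q (jqModC E)) q Φ)
    {b : modularFunctionFieldFullC E M}
    (hb : b ∈ s18tInt ↥(s18dVal A E) (ssgH E M a ha haM)⁻¹) :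
    ssgnPhi E M q b ∈ s18tInt ↥(s18dVal A E) (ssgH E (M * q) a ha (haM.mul_right q))⁻¹ := by
  refine ssgn_map_int (ssgnPhiA A E M q) ?_ hb
  rw [map_inv₀]
  exact (ssgn_phi_h_mem A E M q a ha haM hq2 haq hu MP).2

end Main

end Fermat.Agent.SS
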