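import Mathlib
import Fermat.Agent.SS.Geo.NewtonMod
import Fermat.Agent.SS.Val.ModFrob2

/-!
# Program S (S34) : the statements of `SS/Geo/NewtonMod.lean` for the ring homomorphism
`ssvmfPhi E M q` of `SS/Val/ModFrob2.lean` (the slot `hφP` of `SS/Germ/Top.lean`), prefix `ssgnp`

`ssvmfPhi E M q` and `ssgnPhi E M q` are the same map `x ↦ x(q^q)`, `F_E(M) → F_E(M q)`.
-/

set_option autoImplicit false
set_option linter.unusedSectionVars false
set_option linter.unusedVariables false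
set_option linter.style.haveILetI false
set_option synthInstance.maxHeartbeats 400000

noncomputable section

namespace Fermat.Agent.SS

open Polynomial ModularCurve AlgebraicCurve IntermediateField Fermat.Agent.S18 Fermat.Agent.G

local notation "Qb" => AlgebraicClosure ℚ

theorem ssgnp_phi_eq (E : Type*) [Field E] (M q : ℕ) [NeZero M] [NeZero q]
    (b : modularFunctionFieldFullC E M) : ssvmfPhi E M q b = ssgnPhi E M q b :=
  Subtype.ext rfl

variable (A : ValuationSubring Qb) (E : IntermediateField ℚ Qb) (M q : ℕ) [NeZero M] [NeZero q]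
variable {Φ : (↥(s18dVal A E))[X][X]}

/-- the slot `hφP` of `ssgtop_germAll` for the coordinate `j`. -/
theorem ssgnp_phi_int_j
    (MP : SsgnModPoly ↥(s18dVal A E) (LaurentSeries E) (jqModC E) (qExpand E q (jqModC E)) q Φ) :
    ∀ b ∈ s18tInt ↥(s18dVal A E) (ssdJ E M),
      ssvmfPhi E M q b ∈ s18tInt ↥(s18dVal A E) (ssdJ E (M * q)) := by
  intro b hb
  rw [ssgnp_phi_eq]
  exact ssgn_phi_int_j A E M q MP hb

/-- the slot `hφP` of `ssgtop_germAll` for the coordinate `h_a`. -/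
theorem ssgnp_phi_int_h (a : ℕ) [NeZero a] (ha : a = 2 ∨ a = 3) (haM : a ∣ M)
    (hq2 : 2 ≤ q) (haq : a ≠ q) (hu : IsUnit ((a : ℕ) : ↥(s18dVal A E)))
    (MP : SsgnModPoly ↥(s18dVal A E) (LaurentSeries E) (jqModC E) (qExpand E q (jqModC E)) q Φ) :
    ∀ b ∈ s18tInt ↥(s18dVal A E) (ssgH E M a ha haM),
      ssvmfPhi E M q b ∈ s18tInt ↥(s18dVal A E) (ssgH E (M * q) a ha (haM.mul_right q)) := by
  intro b hb
  rw [ssgnp_phi_eq]
  exact ssgn_phi_int_h A E M q a ha haM hq2 haq hu MP hb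

/-- the slot `hφP` of `ssgtop_germAll` for the coordinate `h_a⁻¹`. -/
theorem ssgnp_phi_int_h_inv (a : ℕ) [NeZero a] (ha : a = 2 ∨ a = 3) (haM : a ∣ M)
    (hq2 : 2 ≤ q) (haq : a ≠ q) (hu : IsUnit ((a : ℕ) : ↥(s18dVal A E)))
    (MP : SsgnModPoly ↥(s18dVal A E) (LaurentSeries E) (jqModC E) (qExpand E q (jqModC E)) q Φ) :
    ∀ b ∈ s18tInt ↥(s18dVal A E) (ssgH E M a ha haM)⁻¹,
      ssvmfPhi E M q b ∈ s18tInt ↥(s18dVal A E) (ssgH E (M * q) a ha (haM.mul_right q))⁻¹ := by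
  intro b hb
  rw [ssgnp_phi_eq]
  exact ssgn_phi_int_h_inv A E M q a ha haM hq2 haq hu MP hb

/-- **the slot `hInt` of `ssgtop_germH_of`** (`SS/Germ/TopH.lean`) for one `(M, q, a, 𝔸, E)`, from the
modular polynomial : both statements `SsgtopIntPhi` (for `h_a` and for `h_a⁻¹`), unfolded. -/
theorem ssgnp_hInt {q : ℕ} [Fact q.Prime] [NeZero q] (A : ValuationSubring Qb)
    (hA : A.LiesOverPrime q) (E : IntermediateField ℚ Qb) (M : ℕ) [NeZero M]
    (a : ℕ) [NeZero a] (ha : a = 2 ∨ a = 3) (haM : a ∣ M)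
    (hqa : (q = 2 ∧ a = 3) ∨ (q = 3 ∧ a = 2))
    (MP : ∃ Φ : (↥(s18dVal A E))[X][X],
      SsgnModPoly ↥(s18dVal A E) (LaurentSeries E) (jqModC E) (qExpand E q (jqModC E)) q Φ) :
    (∀ b ∈ s18tInt ↥(s18dVal A E) (ssgH E M a ha haM),
      ssvmfPhi E M q b ∈ s18tInt ↥(s18dVal A E) (ssgH E (M * q) a ha (haM.mul_right q))) ∧
    (∀ b ∈ s18tInt ↥(s18dVal A E) (ssgH E M a ha haM)⁻¹,
      ssvmfPhi E M q b ∈ s18tInt ↥(s18dVal A E) (ssgH E (M * q) a ha (haM.mul_right q))⁻¹) := by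
  obtain ⟨Φ, MP⟩ := MP
  have hq2 : 2 ≤ q := (Fact.out : q.Prime).two_le
  have haq : a ≠ q := by
    rcases hqa with ⟨h1, h2⟩ | ⟨h1, h2⟩ <;> omega
  have hndvd : ¬ q ∣ a := by
    rcases hqa with ⟨h1, h2⟩ | ⟨h1, h2⟩ <;> subst h1 <;> subst h2 <;> decide
  have hu : IsUnit ((a : ℕ) : ↥(s18dVal A E)) := s18r_isUnit_natCast A E hA a hndvd
  exact ⟨ssgnp_phi_int_h A E M q a ha haM hq2 haq hu MP,
    ssgnp_phi_int_h_inv A E M q a ha haM hq2 haq hu MP⟩

/-- **the slot `SsgtopDeg`** (`SS/Germ/TopJ.lean`, unfolded) from the modular polynomial. -/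
theorem ssgnp_deg (A : ValuationSubring Qb) (E : IntermediateField ℚ Qb) (M q : ℕ) [NeZero M]
    [NeZero q] {Φ : (↥(s18dVal A E))[X][X]}
    (MP : SsgnModPoly ↥(s18dVal A E) (LaurentSeries E) (jqModC E) (qExpand E q (jqModC E)) q Φ) :
    ∃ p : ℕ → (↥(s18dVal A E))[X],
      (∑ i ∈ Finset.range (q + 2), aeval (ssdJ E (M * q)) (p i) * ssvmmY E M q ^ i = 0) ∧
      p (q + 1) = 1 ∧ (p 0).natDegree ≤ q + 1 ∧
      (∀ i, 1 ≤ i → i ≤ q → (p i).natDegree ≤ q) ∧ IsUnit ((p 0).coeff (q + 1)) := by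
  have MP' := ssgn_modPoly_F A E M q MP
  refine ⟨fun i => Φ.coeff i, ?_, MP.lead, MP.deg0.le, MP.mid, ?_⟩
  · have hroot := MP'.root
    rw [eval₂_eq_sum_range, MP'.deg] at hroot
    have e : ssgnPhi E M q (ssdJ E M) = ssvmmY E M q := Subtype.ext rfl
    rw [e] at hroot
    exact hroot
  · have h := MP.lc0
    rw [leadingCoeff, MP.deg0] at h
    exact h

end Fermat.Agent.SS
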